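import Fermat.Agent.MW.Height

/-!
Bounds for multihomogeneous polynomial maps; products of linear forms.
-/

set_option autoImplicit false

noncomputable section

namespace FLTAgent.MW

open MvPolynomial

variable {β : Type*} [Fintype β] [DecidableEq β] {ι : β → Type*} [∀ b, Fintype (ι b)]

/-- multihomogeneous of multidegree `d` -/
def IsMH (p : MvPolynomial (Σ b, ι b) Qb) (d : β → ℕ) : Prop :=
  p.IsWeightedHomogeneous (fun s : Σ b, ι b => (Pi.single s.1 1 : β → ℕ)) d

/-- evaluation at a tuple of vectors -/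
def evalMH (y : ∀ b, ι b → Qb) (p : MvPolynomial (Σ b, ι b) Qb) : Qb :=
  MvPolynomial.eval (fun s : Σ b, ι b => y s.1 s.2) p

/-- a polynomial is bounded by the bound of its monomials -/
theorem exists_eval_bound {σ : Type*} [Fintype σ] (a : MvPolynomial σ Qb) :
    ∃ Γ : List Qb, ∀ (w : Pl) (y : σ → Qb) (B : ℝ), 0 ≤ B →
      (∀ m ∈ a.support, ∏ s, w (y s) ^ (m s) ≤ B) → w (eval y a) ≤ gcst Γ w * B := by
  obtain ⟨Γ₀, h₀⟩ := dom_sum (ι := a.support)
  let Δ : List Qb := a.support.toList.map fun m => a.coeff m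
  refine ⟨Γ₀ ++ Δ, fun w y B hB hm => ?_⟩
  have e : eval y a = ∑ m : a.support, a.coeff m.1 * ∏ s, y s ^ (m.1 s) := by
    rw [eval_eq', Finset.univ_eq_attach, Finset.sum_attach a.support fun m => a.coeff m * ∏ s, y s ^ (m s)]
  rw [e, gcst_append, mul_assoc]
  refine (h₀ (fun m => a.coeff m.1 * ∏ s, y s ^ (m.1 s)) w).trans
    (mul_le_mul_of_nonneg_left (nrm_le (mul_nonneg (gcst_nonneg _ w) hB) fun m => ?_)
      (gcst_nonneg _ w))
  rw [map_mul, map_prod]
  simp only [map_pow]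
  exact mul_le_mul (le_gcst_of_mem (List.mem_map.mpr ⟨m.1, Finset.mem_toList.mpr m.2, rfl⟩) w)
    (hm _ m.2) (Finset.prod_nonneg fun s _ => pow_nonneg (w.nonneg _) _) (gcst_nonneg _ w)

/-- finitely many constants are bounded by one of them -/
theorem exists_gcst_ge {α : Type*} [Fintype α] (Γ : α → List Qb) :
    ∃ Δ : List Qb, ∀ a w, gcst (Γ a) w ≤ gcst Δ w := by
  classical
  suffices h : ∀ S : Finset α, ∃ Δ : List Qb, ∀ a ∈ S, ∀ w, gcst (Γ a) w ≤ gcst Δ w by
    obtain ⟨Δ, hΔ⟩ := h Finset.univ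
    exact ⟨Δ, fun a => hΔ a (Finset.mem_univ a)⟩
  intro S
  induction S using Finset.induction with
  | empty => exact ⟨[], fun a ha => absurd ha (Finset.notMem_empty a)⟩
  | insert a S _ ih =>
    obtain ⟨Δ, hΔ⟩ := ih
    refine ⟨Γ a ++ Δ, fun b hb w => ?_⟩
    rcases Finset.mem_insert.mp hb with rfl | hb
    · exact gcst_le_append_left _ _ w
    · exact (hΔ b hb w).trans (gcst_le_append_right _ _ w)

theorem multideg_apply (m : (Σ b, ι b) →₀ ℕ) (b : β) :
    Finsupp.weight (fun s : Σ b, ι b => (Pi.single s.1 1 : β → ℕ)) m b =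
      ∑ i, m (⟨b, i⟩ : Σ b, ι b) := by
  rw [Finsupp.weight_apply, Finsupp.sum_fintype _ _ (fun s => by simp)]
  simp only [Finset.sum_apply, Pi.smul_apply, smul_eq_mul, Fintype.sum_sigma]
  rw [Finset.sum_eq_single b (fun c _ hc => by simp [Pi.single_eq_of_ne' hc]) (by simp)]
  simp

theorem IsMH.sum_eq {p : MvPolynomial (Σ b, ι b) Qb} {d : β → ℕ} (hp : IsMH p d)
    {m : (Σ b, ι b) →₀ ℕ} (hm : m ∈ p.support) (b : β) :
    ∑ i, m (⟨b, i⟩ : Σ b, ι b) = d b := by
  rw [← multideg_apply, hp (mem_support_iff.mp hm)]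

theorem evalMH_smul {p : MvPolynomial (Σ b, ι b) Qb} {d : β → ℕ} (hp : IsMH p d) (c : β → Qb)
    (y : ∀ b, ι b → Qb) :
    evalMH (fun b => c b • y b) p = (∏ b, c b ^ d b) * evalMH y p := by
  simp only [evalMH, eval_eq', Finset.mul_sum]
  refine Finset.sum_congr rfl fun m hm => ?_
  simp only [Pi.smul_apply, smul_eq_mul, mul_pow, Finset.prod_mul_distrib]
  have e : ∏ s : Σ b, ι b, c s.1 ^ m s = ∏ b, c b ^ d b := by
    rw [Fintype.prod_sigma]
    refine Finset.prod_congr rfl fun b _ => ?_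
    simp only
    rw [Finset.prod_pow_eq_pow_sum, hp.sum_eq hm]
  rw [e]
  ring

theorem dom_mh_le {μ : Type*} [Fintype μ] (p : μ → MvPolynomial (Σ b, ι b) Qb) (d : β → ℕ)
    (hp : ∀ m, IsMH (p m) d) :
    Dom (fun (y : ∀ b, ι b → Qb) w => nrm w (fun m => evalMH y (p m)))
      (fun y w => ∏ b, nrm w (y b) ^ d b) := by
  choose Γ hΓ using fun m => exists_eval_bound (p m)
  obtain ⟨Δ, hΔ⟩ := exists_gcst_ge Γ
  refine ⟨Δ, fun y w => ?_⟩
  have hB : 0 ≤ ∏ b, nrm w (y b) ^ d b := Finset.prod_nonneg fun b _ => pow_nonneg (nrm_nonneg _ _) _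
  refine nrm_le (mul_nonneg (gcst_nonneg _ w) hB) fun m => ?_
  refine (hΓ m w (fun s : Σ b, ι b => y s.1 s.2) _ hB fun k hk => ?_).trans
    (mul_le_mul_of_nonneg_right (hΔ m w) hB)
  rw [Fintype.prod_sigma]
  refine Finset.prod_le_prod (fun b _ => Finset.prod_nonneg fun i _ => pow_nonneg (w.nonneg _) _)
    fun b _ => ?_
  rw [← (hp m).sum_eq hk b, ← Finset.prod_pow_eq_pow_sum]
  exact Finset.prod_le_prod (fun i _ => pow_nonneg (w.nonneg _) _) fun i _ =>
    pow_le_pow_left₀ (w.nonneg _) (le_nrm w (y b) i) _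

/-- a multihomogeneous map without zeros on the closure of a family of tuples of non-zero vectors is
bounded below -/
theorem exists_dom_mh_ge {X μ : Type*} (x : X → ∀ b, ι b → Qb) (hx : ∀ z b, x z b ≠ 0)
    (p : μ → MvPolynomial (Σ b, ι b) Qb) (d : β → ℕ) (hp : ∀ m, IsMH (p m) d)
    (hno : ∀ y : ∀ b, ι b → Qb, (∀ b, y b ≠ 0) →
      (∀ q e, IsMH q e → (∀ z, evalMH (x z) q = 0) → evalMH y q = 0) →
      ∃ m, evalMH y (p m) ≠ 0) :
    ∃ s : Finset μ, Dom (fun z w => ∏ b, nrm w (x z b) ^ d b)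
      (fun z w => nrm w (fun m : s => evalMH (x z) (p m))) := by
  classical
  set J : Ideal (MvPolynomial (Σ b, ι b) Qb) :=
    Ideal.span {q | ∃ e, IsMH q e ∧ ∀ z, evalMH (x z) q = 0} with hJ
  set I : Ideal (MvPolynomial (Σ b, ι b) Qb) := Ideal.span (Set.range p) ⊔ J with hI
  have hmem : ∀ i : (∀ b, ι b), ∃ (N : ℕ) (a : μ →₀ MvPolynomial (Σ b, ι b) Qb),
      (∏ b, (MvPolynomial.X (⟨b, i b⟩ : Σ b, ι b) : MvPolynomial (Σ b, ι b) Qb)) ^ N - a.sum (fun m c => c • p m) ∈ J := by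
    intro i
    have h : (∏ b, (MvPolynomial.X (⟨b, i b⟩ : Σ b, ι b) : MvPolynomial (Σ b, ι b) Qb)) ∈ I.radical := by
      rw [← vanishingIdeal_zeroLocus_eq_radical (K := Qb) I, mem_vanishingIdeal_iff]
      intro y hy
      rw [mem_zeroLocus_iff] at hy
      let y' : ∀ b, ι b → Qb := fun b i => y ⟨b, i⟩
      by_contra hne
      rw [map_prod] at hne
      have hy' : ∀ b, y' b ≠ 0 := fun b h => hne (Finset.prod_eq_zero (Finset.mem_univ b) (by
        rw [aeval_X]; exact congrFun h (i b)))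
      obtain ⟨m, hm⟩ := hno y' hy' fun q e hq hz => by
        have := hy q (Ideal.mem_sup_right (Ideal.subset_span ⟨e, hq, hz⟩))
        simpa [evalMH, y', aeval_eq_eval] using this
      exact hm (by
        have := hy (p m) (Ideal.mem_sup_left (Ideal.subset_span ⟨m, rfl⟩))
        simpa [evalMH, y', aeval_eq_eval] using this)
    obtain ⟨N, hN⟩ := h
    obtain ⟨u, hu, v, hv, huv⟩ := Submodule.mem_sup.mp hN
    obtain ⟨a, rfl⟩ := Finsupp.mem_ideal_span_range_iff_exists_finsupp.mp hu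
    exact ⟨N, a, by rw [← huv]; simpa [smul_eq_mul] using hv⟩
  choose N a ha using hmem
  set S : Finset μ := Finset.univ.biUnion fun i => (a i).support with hS
  refine ⟨S, ?_⟩
  obtain ⟨Γs, hΓs⟩ : ∃ Γ : List Qb, ∀ (i : ∀ b, ι b) (w : Pl) (y : ∀ b, ι b → Qb),
      (∀ b k, w (y b k) ≤ 1) → ∀ m : S, w (evalMH y (a i m.1)) ≤ gcst Γ w := by
    choose Γ hΓ using fun (q : (∀ b, ι b) × S) => exists_eval_bound (a q.1 q.2.1)
    obtain ⟨Δ, hΔ⟩ := exists_gcst_ge Γ
    refine ⟨Δ, fun i w y hy m => le_trans ?_ (hΔ (i, m) w)⟩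
    refine (hΓ (i, m) w (fun s : Σ b, ι b => y s.1 s.2) 1 zero_le_one fun k _ => ?_).trans_eq
      (mul_one _)
    exact Finset.prod_le_one (fun s _ => pow_nonneg (w.nonneg _) _)
      fun s _ => pow_le_one₀ (w.nonneg _) (hy _ _)
  obtain ⟨Γ₀, h₀⟩ := dom_sum (ι := S)
  refine ⟨Γ₀ ++ Γs, fun z w => ?_⟩
  haveI : ∀ b, Nonempty (ι b) := fun b => by
    obtain ⟨k, -⟩ := Function.ne_iff.mp (hx z b)
    exact ⟨k⟩
  choose i hi using fun b => exists_eq_ciSup_of_finite (f := fun k => w (x z b k))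
  have hpos : ∀ b, 0 < w (x z b (i b)) := fun b => by rw [hi b]; exact nrm_pos w (hx z b)
  have hne : ∀ b, x z b (i b) ≠ 0 := fun b h => (hpos b).ne' (by rw [h]; exact map_zero w.1)
  set c : β → Qb := fun b => (x z b (i b))⁻¹ with hc
  set y : ∀ b, ι b → Qb := fun b => c b • x z b with hy
  have hy1 : ∀ b k, w (y b k) ≤ 1 := fun b k => by
    simp only [hy, hc, Pi.smul_apply, smul_eq_mul, map_mul, map_inv₀]
    rw [inv_mul_le_iff₀ (hpos b), mul_one, hi b]
    exact le_nrm w (x z b) k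
  have hJy : ∀ q ∈ J, evalMH y q = 0 := by
    intro q hq
    induction hq using Submodule.span_induction with
    | mem q hq =>
      obtain ⟨e, he, hz⟩ := hq
      rw [hy, evalMH_smul he, hz z, mul_zero]
    | zero => exact map_zero _
    | add q r _ _ h1 h2 => rw [evalMH, map_add, ← evalMH, ← evalMH, h1, h2, add_zero]
    | smul r q _ h1 => rw [smul_eq_mul, evalMH, map_mul, ← evalMH, ← evalMH, h1, mul_zero]
  have hone : (1 : Qb) = ∑ m : S, evalMH y (a i m.1) * evalMH y (p m.1) := by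
    have h := hJy _ (ha i)
    rw [evalMH, map_sub, map_pow, map_prod, sub_eq_zero, Finsupp.sum, map_sum] at h
    simp only [eval_X, smul_eq_mul, map_mul] at h
    rw [Finset.prod_eq_one (fun b _ => show y b (i b) = 1 by simp [hy, hc, hne b]), one_pow] at h
    rw [h, Finset.sum_coe_sort S fun m => evalMH y (a i m) * evalMH y (p m)]
    refine Finset.sum_subset (fun m hm => Finset.mem_biUnion.mpr ⟨i, Finset.mem_univ i, hm⟩)
      fun m _ hm => ?_
    rw [Finsupp.notMem_support_iff.mp hm]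
    simp [evalMH]
  have hp_y : ∀ m, evalMH y (p m) = (∏ b, c b ^ d b) * evalMH (x z) (p m) := fun m => by
    rw [hy, evalMH_smul (hp m)]
  have hkey : (1 : ℝ) ≤ gcst Γ₀ w * (gcst Γs w *
      (w (∏ b, c b ^ d b) * nrm w (fun m : S => evalMH (x z) (p m)))) := by
    have h1 : w (1 : Qb) = 1 := map_one w.1
    rw [← h1, hone]
    refine (h₀ _ w).trans (mul_le_mul_of_nonneg_left (nrm_le (mul_nonneg (gcst_nonneg _ w)
      (mul_nonneg (w.nonneg _) (nrm_nonneg _ _))) fun m => ?_) (gcst_nonneg _ w))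
    rw [hp_y, map_mul, map_mul]
    exact mul_le_mul (hΓs i w y hy1 m) (mul_le_mul_of_nonneg_left
      (le_nrm w (fun m : S => evalMH (x z) (p m)) m) (w.nonneg _))
      (mul_nonneg (w.nonneg _) (w.nonneg _)) (gcst_nonneg _ w)
  have hc' : w (∏ b, c b ^ d b) * ∏ b, nrm w (x z b) ^ d b = 1 := by
    rw [map_prod, ← Finset.prod_mul_distrib]
    refine Finset.prod_eq_one fun b _ => ?_
    rw [map_pow, ← mul_pow, show nrm w (x z b) = w (x z b (i b)) from (hi b).symm, hc, map_inv₀,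
      inv_mul_cancel₀ (hpos b).ne', one_pow]
  calc ∏ b, nrm w (x z b) ^ d b
      ≤ (gcst Γ₀ w * (gcst Γs w * (w (∏ b, c b ^ d b) * nrm w (fun m : S => evalMH (x z) (p m))))) *
          ∏ b, nrm w (x z b) ^ d b :=
        le_mul_of_one_le_left (Finset.prod_nonneg fun b _ => pow_nonneg (nrm_nonneg _ _) _) hkey
    _ = gcst (Γ₀ ++ Γs) w * nrm w (fun m : S => evalMH (x z) (p m)) := by
        rw [gcst_append]
        calc _ = gcst Γ₀ w * gcst Γs w * nrm w (fun m : S => evalMH (x z) (p m)) *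
              (w (∏ b, c b ^ d b) * ∏ b, nrm w (x z b) ^ d b) := by ring
          _ = _ := by rw [hc', mul_one]

omit [Fintype β] [DecidableEq β] [∀ b, Fintype (ι b)]

/-- finitely many test points detect products of `n` linear forms -/
theorem exists_test_points (ι : Type*) [Fintype ι] (n : ℕ) :
    ∃ (N : ℕ) (U : Fin N → ι → Qb), Dom (fun (l : Fin n → ι → Qb) w => ∏ k, nrm w (l k))
      (fun l w => nrm w (fun j => ∏ k, ∑ i, U j i * l k i)) := by
  classical
  let e := Fintype.equivFin ι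
  set r := Fintype.card ι with hr
  let N := n * r + 1
  let U : Fin N → ι → Qb := fun j i => ((j : ℕ) : Qb) ^ ((e i : ℕ))
  refine ⟨N, U, ?_⟩
  let X₀ := {l : Fin n → ι → Qb // ∀ k, l k ≠ 0}
  let P : Fin N → MvPolynomial (Σ _k : Fin n, ι) Qb := fun j =>
    ∏ k, ∑ i, MvPolynomial.C (U j i) * MvPolynomial.X (⟨k, i⟩ : Σ _k : Fin n, ι)
  have hP : ∀ j, IsMH (P j) (fun _ => 1) := fun j => by
    have h1 : (fun _ : Fin n => 1) = ∑ k : Fin n, (Pi.single k 1 : Fin n → ℕ) := by
      funext b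
      simp [Finset.sum_apply, Pi.single_apply]
    rw [IsMH, h1]
    refine IsWeightedHomogeneous.prod _ _ _ fun k _ => IsWeightedHomogeneous.sum _ _ _ fun i _ => ?_
    simpa using (isWeightedHomogeneous_C (R := Qb) _ (U j i)).mul
      (isWeightedHomogeneous_X Qb (fun s : Σ _k : Fin n, ι => (Pi.single s.1 1 : Fin n → ℕ)) ⟨k, i⟩)
  have hev : ∀ (l : Fin n → ι → Qb) j, evalMH l (P j) = ∏ k, ∑ i, U j i * l k i := fun l j => by
    simp [evalMH, P]
  have hroots : ∀ y : Fin n → ι → Qb, (∀ k, y k ≠ 0) → ∃ j, evalMH y (P j) ≠ 0 := by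
    intro y hy
    by_contra hcon
    push Not at hcon
    let Z : Fin n → Polynomial Qb := fun k => ∑ i, Polynomial.C (y k i) * Polynomial.X ^ (e i : ℕ)
    have hZ : ∀ k, Z k ≠ 0 := fun k hz => by
      obtain ⟨i, hi⟩ := Function.ne_iff.mp (hy k)
      apply hi
      have := congrArg (fun q : Polynomial Qb => q.coeff (e i)) hz
      simp only [Z, Polynomial.finsetSum_coeff, Polynomial.coeff_C_mul_X_pow, Polynomial.coeff_zero] at this
      rw [Finset.sum_eq_single i (fun i' _ hne => by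
          rw [if_neg]; exact fun h => hne (e.injective (Fin.ext h)).symm) (by simp), if_pos rfl] at this
      exact this
    have hdeg : ∀ k, (Z k).natDegree ≤ r := fun k =>
      Polynomial.natDegree_sum_le_of_forall_le _ _ fun i _ =>
        (Polynomial.natDegree_C_mul_X_pow_le _ _).trans (e i).2.le
    have hall : ∀ j : Fin N, (∏ k, Z k).eval ((j : ℕ) : Qb) = 0 := fun j => by
      rw [Polynomial.eval_prod]
      have := hcon j
      rw [hev] at this
      rw [← this]
      refine Finset.prod_congr rfl fun k _ => ?_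
      simp only [Z, U, Polynomial.eval_finsetSum, Polynomial.eval_mul, Polynomial.eval_C,
        Polynomial.eval_pow, Polynomial.eval_X]
      exact Finset.sum_congr rfl fun i _ => mul_comm _ _
    have hd : (∏ k, Z k).natDegree < N := by
      refine Nat.lt_succ_of_le ((Polynomial.natDegree_prod_le _ _).trans ?_)
      refine (Finset.sum_le_card_nsmul _ _ r fun k _ => hdeg k).trans ?_
      simp
    refine Finset.prod_ne_zero_iff.mpr (fun k _ => hZ k) (Polynomial.eq_zero_of_natDegree_lt_card_of_eval_eq_zero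
      (∏ k, Z k) (f := fun j : Fin N => ((j : ℕ) : Qb)) (fun a b h => Fin.ext (Nat.cast_injective h))
      hall (by rw [Fintype.card_fin]; exact hd))
  obtain ⟨S, Γ, hΓ⟩ := exists_dom_mh_ge (fun l : X₀ => l.1) (fun l k => l.2 k) P (fun _ => 1) hP
    (fun y hy _ => hroots y hy)
  refine ⟨Γ, fun l w => ?_⟩
  by_cases hl : ∀ k, l k ≠ 0
  · have h := hΓ ⟨l, hl⟩ w
    simp only [pow_one, hev] at h
    refine h.trans (mul_le_mul_of_nonneg_left (nrm_le (nrm_nonneg _ _) fun m => ?_) (gcst_nonneg _ w))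
    exact le_nrm w (fun j => ∏ k, ∑ i, U j i * l k i) m.1
  · push Not at hl
    obtain ⟨k, hk⟩ := hl
    have h0 : nrm w (l k) = 0 :=
      le_antisymm (nrm_le le_rfl fun i => by simp [hk]) (nrm_nonneg _ _)
    simp only
    rw [Finset.prod_eq_zero (Finset.mem_univ k) h0]
    exact mul_nonneg (gcst_nonneg _ w) (nrm_nonneg _ _)

end FLTAgent.MW
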