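import Fermat.Agent.MW.Eval
import Fermat.Agent.MW.Poly
import Fermat.Agent.AJ.SpaceC

/-!
The image of a curve by evaluation vectors is closed; general position lemmas.
-/

set_option autoImplicit false

noncomputable section

open AlgebraicCurve
open FLTAgent.RR (Bd)

namespace FLTAgent.MW

section General

variable {K V : Type*} [Field K] [Infinite K] [AddCommGroup V] [Module K V]

/-- finitely many nonzero functionals have a common non-zero point -/
theorem exists_forall_dual_ne {α : Type*} (s : Finset α) (l : α → V →ₗ[K] K)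
    (h : ∀ a ∈ s, l a ≠ 0) : ∃ x : V, ∀ a ∈ s, l a x ≠ 0 := by
  classical
  by_contra hc
  push Not at hc
  refine Subspace.biUnion_ne_univ_of_top_notMem (k := K) (E := V)
    (s := s.image fun a => LinearMap.ker (l a)) (fun ht => ?_) (Set.eq_univ_of_forall fun x => ?_)
  · obtain ⟨a, ha, he⟩ := Finset.mem_image.mp ht
    exact h a ha (LinearMap.ker_eq_top.mp he)
  · obtain ⟨a, ha, hx⟩ := hc x
    exact Set.mem_biUnion (Finset.mem_image_of_mem _ ha) (LinearMap.mem_ker.mpr hx)

end General

section Places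

variable {K F : Type*} [Field K] [Field F] [Algebra K F] [IsAlgClosed K] [CharZero K]
  [RR.FnField K F]

theorem places_infinite : (Set.univ : Set (Place K F)).Infinite := by
  obtain ⟨x, hx, -⟩ := RR.FnField.exists_transcendental (K := K) (F := F)
  choose v hv using fun c : K => RR.exists_zero (RR.transcendental_sub_const hx c)
  have inj : Function.Injective v := fun c c' h => by
    have h1 := hv c
    have h2 := hv c'
    rw [← h] at h2
    exact (RR.res_eq_of_ord_pos h1).symm.trans (RR.res_eq_of_ord_pos h2)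
  exact (Set.infinite_range_of_injective inj).mono (Set.subset_univ _)

theorem exists_place_avoid (s : Finset (Place K F)) : ∃ v, v ∉ s :=
  Set.Infinite.exists_notMem_finset places_infinite s |>.imp fun _ h => h.2

/-- a homomorphism from functions regular at `v` -/
def valHom (v : Place K F) : v.toValuationSubring →ₐ[K] K where
  toFun f := AJ.val v (f : F)
  map_one' := by
    simpa using AJ.val_algebraMap v (1 : K)
  map_mul' f g := AJ.val_mul (RR.mem_iff_bd.mp f.2) (RR.mem_iff_bd.mp g.2)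
  map_zero' := by
    simpa using AJ.val_algebraMap v (0 : K)
  map_add' f g := AJ.val_add (RR.mem_iff_bd.mp f.2) (RR.mem_iff_bd.mp g.2)
  commutes' c := AJ.val_algebraMap v c

end Places

section Closed

variable {F : Type*} [Field F] [Algebra Qb F] [RR.FnField Qb F]
variable {β : Type*} [Fintype β] [DecidableEq β]

omit [RR.FnField Qb F] in
theorem aeval_scale {L : Type*} [CommRing L] [Algebra Qb L] {ι : β → Type*}
    [∀ b, Fintype (ι b)] {q : MvPolynomial (Σ b, ι b) Qb} {e : β → ℕ} (hq : IsMH q e) (c : β → L)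
    (z : (Σ b, ι b) → L) :
    MvPolynomial.aeval (fun s => c s.1 * z s) q =
      (∏ b, c b ^ e b) * MvPolynomial.aeval z q := by
  classical
  rw [MvPolynomial.aeval_def, MvPolynomial.aeval_def, MvPolynomial.eval₂_eq, MvPolynomial.eval₂_eq,
    Finset.mul_sum]
  refine Finset.sum_congr rfl fun m hm => ?_
  have h := hq (MvPolynomial.mem_support_iff.mp hm)
  simp_rw [mul_pow, Finset.prod_mul_distrib]
  have hc : ∏ s ∈ m.support, c s.1 ^ m s = ∏ b, c b ^ e b := by
    rw [← h, Finsupp.weight_apply, Finsupp.sum]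
    simp_rw [Finset.sum_apply, Pi.smul_apply, ← Finset.prod_pow_eq_pow_sum]
    rw [Finset.prod_comm]
    refine Finset.prod_congr rfl fun s _ => ?_
    rw [Finset.prod_eq_single s.1 (fun b _ hb => by simp [Pi.single_eq_of_ne hb])
      (fun hb => absurd (Finset.mem_univ _) hb)]
    simp
  rw [hc]
  ring

omit [Field F] [Algebra Qb F] [RR.FnField Qb F] [DecidableEq β] in
theorem aeval_pad {L : Type*} [CommRing L] [Algebra Qb L] {ι : β → Type*}
    (P : MvPolynomial (Σ b, ι b) Qb) (a : ∀ b, ι b) (k : ((Σ b, ι b) →₀ ℕ) → β → ℕ)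
    (z : (Σ b, ι b) → L) (hz : ∀ b, z ⟨b, a b⟩ = 1) :
    MvPolynomial.aeval z (∑ m ∈ P.support, MvPolynomial.monomial
      (m + ∑ b, Finsupp.single (⟨b, a b⟩ : Σ b, ι b) (k m b)) (P.coeff m)) =
      MvPolynomial.aeval z P := by
  classical
  conv_rhs => rw [P.as_sum]
  rw [map_sum, map_sum]
  refine Finset.sum_congr rfl fun m _ => ?_
  rw [MvPolynomial.aeval_monomial, MvPolynomial.aeval_monomial]
  congr 1
  rw [Finsupp.prod_add_index' (fun _ => pow_zero _) (fun _ _ _ => pow_add _ _ _),
    ← Finsupp.prod_finsetSum_index (fun _ => pow_zero _) (fun _ _ _ => pow_add _ _ _),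
    Finset.prod_eq_one (s := Finset.univ) fun b _ => ?_, mul_one]
  exact (Finsupp.prod_single_index (h := fun s n => z s ^ n) (pow_zero _)).trans (show z ⟨b, a b⟩ ^ k m b = 1 by rw [hz, one_pow])

variable (E : β → Divisor Qb F)

/-- multihomogeneous relations between the basis functions hold between evaluation vectors -/
theorem evalMH_vec {q : MvPolynomial (Σ b, Fin (RR.ell (E b))) Qb} {e : β → ℕ} (hq : IsMH q e)
    (h0 : MvPolynomial.aeval (fun s : Σ b, Fin (RR.ell (E b)) => (bas (E s.1) s.2 : F)) q = 0)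
    (v : Place Qb F) : evalMH (fun b => vec (E b) v) q = 0 := by
  classical
  let z : (Σ b, Fin (RR.ell (E b))) → v.toValuationSubring := fun s =>
    ⟨unif v ^ E s.1 v * (bas (E s.1) s.2 : F), RR.mem_iff_bd.mpr
      (bd_unif_mul.mpr (by simpa using bd_of_mem (bas (E s.1) s.2).2))⟩
  have hz : MvPolynomial.aeval z q = 0 := by
    apply Subtype.val_injective
    let inc : v.toValuationSubring →ₐ[Qb] F :=
      { toRingHom := v.toValuationSubring.subtype
        commutes' := fun _ => rfl }
    show inc (MvPolynomial.aeval z q) = _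
    refine (MvPolynomial.comp_aeval_apply z inc q).trans ?_
    show MvPolynomial.aeval (fun s : Σ b, Fin (RR.ell (E b)) =>
      (fun b => unif v ^ E b v) s.1 * (bas (E s.1) s.2 : F)) q = _
    rw [aeval_scale hq (fun b => unif v ^ E b v), h0, mul_zero]
    rfl
  have h := congrArg (valHom v) hz
  rw [map_zero] at h
  have h' := (MvPolynomial.comp_aeval_apply z (valHom v) q).symm.trans h
  rw [evalMH]
  exact h'

/-- relations between the ratios of basis functions hold at a point of the closure -/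
theorem ratio_relation (y : ∀ b, Fin (RR.ell (E b)) → Qb)
    (h : ∀ q e, IsMH q e → (∀ v, evalMH (fun b => vec (E b) v) q = 0) → evalMH y q = 0)
    (a : ∀ b, Fin (RR.ell (E b))) (ha : ∀ b, y b (a b) ≠ 0)
    (P : MvPolynomial (Σ b, Fin (RR.ell (E b))) Qb)
    (hP : MvPolynomial.aeval (fun s : Σ b, Fin (RR.ell (E b)) =>
      (bas (E s.1) s.2 : F) / (bas (E s.1) (a s.1) : F)) P = 0) :
    MvPolynomial.aeval (fun s : Σ b, Fin (RR.ell (E b)) => y s.1 s.2 / y s.1 (a s.1)) P = 0 := by
  classical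
  have hg : ∀ b i, (bas (E b) i : F) ≠ 0 := fun b i h0 =>
    (bas (E b)).ne_zero i (Subtype.ext h0)
  let f : (Σ b, Fin (RR.ell (E b))) → F := fun s =>
    (bas (E s.1) s.2 : F) / (bas (E s.1) (a s.1) : F)
  let t : (Σ b, Fin (RR.ell (E b))) → Qb := fun s => y s.1 s.2 / y s.1 (a s.1)
  let w : (Σ b, Fin (RR.ell (E b))) → β → ℕ := fun s => Pi.single s.1 1
  let e : β → ℕ := fun b => ∑ m ∈ P.support, Finsupp.weight w m b
  let ext : ((Σ b, Fin (RR.ell (E b))) →₀ ℕ) → (Σ b, Fin (RR.ell (E b))) →₀ ℕ := fun m =>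
    ∑ b, Finsupp.single (⟨b, a b⟩ : Σ b, Fin (RR.ell (E b))) (e b - Finsupp.weight w m b)
  let q : MvPolynomial (Σ b, Fin (RR.ell (E b))) Qb :=
    ∑ m ∈ P.support, MvPolynomial.monomial (m + ext m) (P.coeff m)
  have hq : IsMH q e := by
    refine MvPolynomial.IsWeightedHomogeneous.sum _ _ _ fun m hm => ?_
    refine MvPolynomial.isWeightedHomogeneous_monomial _ _ _ ?_
    funext b
    have hle : Finsupp.weight w m b ≤ e b :=
      Finset.single_le_sum (f := fun m => Finsupp.weight w m b) (fun _ _ => Nat.zero_le _) hm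
    rw [map_add, map_sum, Pi.add_apply, Finset.sum_apply, Finset.sum_eq_single b]
    · rw [Finsupp.weight_single, Pi.smul_apply]
      simp only [w, Pi.single_eq_same, smul_eq_mul, mul_one] at hle ⊢
      omega
    · intro b' _ hb'
      rw [Finsupp.weight_single, Pi.smul_apply]
      simp [w, Pi.single_eq_of_ne hb'.symm]
    · exact fun hb => absurd (Finset.mem_univ b) hb
  have hval1 := aeval_pad (L := F) P a (fun m b => e b - Finsupp.weight w m b)
  have hval2 := aeval_pad (L := Qb) P a (fun m b => e b - Finsupp.weight w m b)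
  have h1 := aeval_scale hq (fun b => (bas (E b) (a b) : F)) f
  rw [hval1 f (fun b => div_self (hg b (a b))), hP, mul_zero] at h1
  have hq0 : MvPolynomial.aeval
      (fun s : Σ b, Fin (RR.ell (E b)) => (bas (E s.1) s.2 : F)) q = 0 := by
    rw [← h1]
    refine congrArg (fun g => MvPolynomial.aeval g q) (funext fun s => ?_)
    rw [mul_div_cancel₀ _ (hg _ _)]
  have h2 := h q e hq (evalMH_vec E hq hq0)
  have h3 := aeval_scale hq (fun b => y b (a b)) t
  have e3 : (fun s : Σ b, Fin (RR.ell (E b)) => y s.1 (a s.1) * t s) = fun s => y s.1 s.2 :=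
    funext fun s => mul_div_cancel₀ _ (ha _)
  rw [e3] at h3
  change MvPolynomial.aeval (fun s : Σ b, Fin (RR.ell (E b)) => y s.1 s.2) q = 0 at h2
  rw [h2, hval2 t (fun b => div_self (ha b))] at h3
  exact (mul_eq_zero.mp h3.symm).resolve_left
    (Finset.prod_ne_zero_iff.mpr fun b _ => pow_ne_zero _ (ha b))

omit [Fintype β] [DecidableEq β] in
/-- a specialisation of finitely many functions is a place or they are constants -/
theorem exists_place_of_hom {σ : Type*} (f : σ → F) (t : σ → Qb)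
    (key : ∀ P : MvPolynomial σ Qb, MvPolynomial.aeval f P = 0 → MvPolynomial.aeval t P = 0) :
    (∃ v : Place Qb F, ∀ s, Bd v (f s) 0 ∧ AJ.val v (f s) = t s) ∨
      ∀ s, f s = algebraMap Qb F (t s) := by
  classical
  let φ : MvPolynomial σ Qb →+* F := (MvPolynomial.aeval (R := Qb) f).toRingHom
  have hφ : ∀ P, φ P = MvPolynomial.aeval f P := fun _ => rfl
  let R : Subring F := φ.range
  obtain ⟨ψ, hψ⟩ : ∃ ψ : R →+* Qb, ∀ P, ψ (φ.rangeRestrict P) = MvPolynomial.aeval t P :=
    ⟨RingHom.liftOfSurjective φ.rangeRestrict φ.rangeRestrict_surjective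
      ⟨(MvPolynomial.aeval (R := Qb) t).toRingHom, fun P hP =>
        key P (congrArg Subtype.val (RingHom.mem_ker.mp hP))⟩,
      fun P => RingHom.liftOfSurjective_comp_apply φ.rangeRestrict φ.rangeRestrict_surjective
        ⟨(MvPolynomial.aeval (R := Qb) t).toRingHom, _⟩ P⟩
  haveI : (RingHom.ker ψ).IsPrime := RingHom.ker_isPrime ψ
  obtain ⟨O, hO1, hO2⟩ := (LocalSubring.ofPrime R (RingHom.ker ψ)).exists_le_valuationSubring
  have hle : R ≤ O.toSubring := (LocalSubring.le_ofPrime R (RingHom.ker ψ)).trans hO1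
  have hK : ∀ c : Qb, algebraMap Qb F c ∈ O := fun c =>
    hle ⟨MvPolynomial.C c, by rw [hφ, MvPolynomial.aeval_C]⟩
  have hfO : ∀ s, f s ∈ O := fun s => hle ⟨MvPolynomial.X s, by rw [hφ, MvPolynomial.aeval_X]⟩
  have hres : ∀ s, ¬ IsUnit (⟨f s - algebraMap Qb F (t s), sub_mem (hfO s) (hK _)⟩ : O) := by
    intro s hu
    let P : MvPolynomial σ Qb := MvPolynomial.X s - MvPolynomial.C (t s)
    have hr : φ.rangeRestrict P ∈ RingHom.ker ψ := by
      rw [RingHom.mem_ker, hψ]
      simp [P]
    have hmem : (φ.rangeRestrict P : F) ∈ (LocalSubring.ofPrime R (RingHom.ker ψ)).toSubring :=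
      LocalSubring.le_ofPrime R _ (φ.rangeRestrict P).2
    have h1 : (⟨(φ.rangeRestrict P : F), hmem⟩ :
        (LocalSubring.ofPrime R (RingHom.ker ψ)).toSubring) ∈ IsLocalRing.maximalIdeal _ := by
      rw [← IsLocalization.AtPrime.map_eq_maximalIdeal (RingHom.ker ψ)]
      exact Ideal.mem_map_of_mem _ hr
    refine (IsLocalRing.mem_maximalIdeal _).mp h1 ?_
    refine hO2.map_nonunit ⟨(φ.rangeRestrict P : F), hmem⟩ ?_
    rwa [show Subring.inclusion hO1 ⟨(φ.rangeRestrict P : F), hmem⟩ =
        ⟨f s - algebraMap Qb F (t s), sub_mem (hfO s) (hK _)⟩ from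
      Subtype.ext (show φ P = f s - algebraMap Qb F (t s) by rw [hφ]; simp [P])]
  rcases eq_or_ne O ⊤ with rfl | htop
  · right
    intro s
    by_contra hne
    exact hres s (isUnit_iff_exists_inv.mpr
      ⟨⟨(f s - algebraMap Qb F (t s))⁻¹, ValuationSubring.mem_top _⟩,
        Subtype.ext (mul_inv_cancel₀ (sub_ne_zero.mpr hne))⟩)
  left
  obtain ⟨v, rfl⟩ := AJ.exists_place_eq O hK htop
  refine ⟨v, fun s => ⟨RR.mem_iff_bd.mp (hfO s), AJ.val_eq ?_⟩⟩
  exact RR.mem_maximalIdeal_iff_bd.mp ((IsLocalRing.mem_maximalIdeal _).mpr (hres s))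

/-- the image of the curve in a product of projective spaces is closed -/
theorem exists_place_of_closed (y : ∀ b, Fin (RR.ell (E b)) → Qb) (hy : ∀ b, y b ≠ 0)
    (hdeg : ∀ b, 2 * (genusFF Qb F : ℤ) + 1 ≤ Divisor.degree (E b)) [Nonempty β]
    (h : ∀ q e, IsMH q e → (∀ v, evalMH (fun b => vec (E b) v) q = 0) → evalMH y q = 0) :
    ∃ v, ∀ b, ∃ c : Qb, c ≠ 0 ∧ y b = c • vec (E b) v := by
  classical
  choose a ha using fun b => Function.ne_iff.mp (hy b)
  simp only [Pi.zero_apply] at ha
  have hg : ∀ b i, (bas (E b) i : F) ≠ 0 := fun b i h0 =>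
    (bas (E b)).ne_zero i (Subtype.ext h0)
  let f : (Σ b, Fin (RR.ell (E b))) → F := fun s =>
    (bas (E s.1) s.2 : F) / (bas (E s.1) (a s.1) : F)
  let t : (Σ b, Fin (RR.ell (E b))) → Qb := fun s => y s.1 s.2 / y s.1 (a s.1)
  rcases exists_place_of_hom f t (ratio_relation E y h a ha) with ⟨v, hval⟩ | hconst
  swap
  · exfalso
    obtain ⟨b⟩ := ‹Nonempty β›
    obtain ⟨v, u, hvu⟩ : ∃ v u : Place Qb F, u ≠ v := by
      obtain ⟨v, -⟩ := exists_place_avoid (K := Qb) (F := F) ∅
      obtain ⟨u, hu⟩ := exists_place_avoid {v}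
      exact ⟨v, u, by simpa using hu⟩
    obtain ⟨g, hgE, hgv, hgu⟩ := exists_ev_separate (hdeg b) hvu
    obtain ⟨c, rfl⟩ := exists_lc hgE
    -- all sections are multiples of one of them
    have hprop : ∀ i, (bas (E b) i : F) = algebraMap Qb F (t ⟨b, i⟩) * (bas (E b) (a b) : F) :=
      fun i => by rw [← hconst ⟨b, i⟩, div_mul_cancel₀ _ (hg _ _)]
    have hvec : ∀ (w : Place Qb F) i, vec (E b) w i = t ⟨b, i⟩ * vec (E b) w (a b) := fun w i => by
      rw [vec, hprop i, ← Algebra.smul_def, ev_smul _ ((bas (E b) (a b)).2 w)]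
      rfl
    have hev : ∀ w, ev (E b) w (lc (E b) c) = (∑ i, c i * t ⟨b, i⟩) * vec (E b) w (a b) := by
      intro w
      rw [ev_lc, Finset.sum_mul]
      exact Finset.sum_congr rfl fun i _ => by rw [hvec w i, mul_assoc]
    have hvne : vec (E b) v (a b) ≠ 0 := fun h0 =>
      vec_ne_zero (E := E b) (by have := hdeg b; omega) v (funext fun i => by rw [hvec, h0, mul_zero]; rfl)
    rw [hev] at hgv hgu
    rw [(mul_eq_zero.mp hgv).resolve_right hvne, zero_mul] at hgu
    exact hgu rfl
  refine ⟨v, fun b => ?_⟩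
  have hvec : ∀ i, vec (E b) v i = t ⟨b, i⟩ * vec (E b) v (a b) := fun i => by
    obtain ⟨h1, h2⟩ := hval ⟨b, i⟩
    rw [← h2, vec, vec, ev, ev, ← AJ.val_mul h1
      (bd_unif_mul.mpr (by simpa using bd_of_mem (v := v) (bas (E b) (a b)).2))]
    congr 1
    show _ = (bas (E b) i : F) / (bas (E b) (a b) : F) * _
    have := hg b (a b)
    field_simp
  have hne : vec (E b) v (a b) ≠ 0 := fun h0 =>
    vec_ne_zero (E := E b) (by have := hdeg b; omega) v (funext fun i => by rw [hvec, h0, mul_zero]; rfl)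
  refine ⟨y b (a b) / vec (E b) v (a b), div_ne_zero (ha b) hne, funext fun i => ?_⟩
  rw [Pi.smul_apply, smul_eq_mul, hvec i]
  show _ = y b (a b) / vec (E b) v (a b) * (y b i / y b (a b) * vec (E b) v (a b))
  have := ha b
  field_simp

end Closed

end FLTAgent.MW
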