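import Mathlib

/-!
Area MW (Mordell-Weil): absolute values on `ℚ̄`, domination up to admissible constants.
-/

set_option autoImplicit false

noncomputable section

namespace FLTAgent.MW

/-- `ℚ̄` -/
abbrev Qb : Type := AlgebraicClosure ℚ

/-- absolute values on `ℚ̄` which are non-archimedean or normalised on `ℕ` -/
def Pl : Type := {w : AbsoluteValue Qb ℝ // IsNonarchimedean w ∨ ∀ n : ℕ, w n = n}

instance : CoeFun Pl fun _ => Qb → ℝ := ⟨fun w => w.1⟩

/-- sup norm -/
def nrm {ι : Type*} (w : Pl) (a : ι → Qb) : ℝ := ⨆ i, w (a i)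

/-- admissible constants -/
def gcst (Γ : List Qb) (w : Pl) : ℝ := (Γ.map fun c => max 1 (w c)).prod

/-- `f ≤ C g` with an admissible constant `C` uniform in the parameter -/
def Dom {X : Type*} (f g : X → Pl → ℝ) : Prop := ∃ Γ : List Qb, ∀ x w, f x w ≤ gcst Γ w * g x w

end FLTAgent.MW
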