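import Fermat.Agent.MW.Law

/-!
The height of the hyperplane through given points.
-/

set_option autoImplicit false

noncomputable section

open AlgebraicCurve

namespace FLTAgent.MW

section Minors

variable {L : ℕ}

/-- the minors of a list of rows, indexed by the choices of columns -/
def dv {m : ℕ} (r : Fin m → Fin L → Qb) (J : Fin m → Fin L) : Qb :=
  (Matrix.of fun i l => r i (J l)).det

open scoped Classical in
/-- the expansion matrix along an additional last row -/
def cofMat {m : ℕ} (J : Fin (m + 1) → Fin L) : Matrix (Fin L) (Fin m → Fin L) Qb :=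
  Matrix.of fun j J' => ∑ l : Fin (m + 1),
    if J l = j ∧ J ∘ l.succAbove = J' then (-1 : Qb) ^ (m + (l : ℕ)) else 0

/-- coefficients of the expansion along an additional last row -/
def cof {m : ℕ} (r : Fin m → Fin L → Qb) (J : Fin (m + 1) → Fin L) : Fin L → Qb :=
  (cofMat J).mulVec (dv r)

theorem sum_cof {m : ℕ} (r : Fin m → Fin L → Qb) (J : Fin (m + 1) → Fin L) (x : Fin L → Qb) :
    ∑ j, cof r J j * x j = dv (Fin.snoc r x) J := by
  classical
  have h1 : ∑ j, cof r J j * x j =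
      ∑ l : Fin (m + 1), (-1 : Qb) ^ (m + (l : ℕ)) * x (J l) * dv r (J ∘ l.succAbove) := by
    simp only [cof, cofMat, Matrix.mulVec, dotProduct, Matrix.of_apply, Finset.sum_mul, ite_and,
      ite_mul, zero_mul]
    rw [Finset.sum_comm_cycle]
    refine Finset.sum_congr rfl fun l _ => ?_
    rw [Finset.sum_eq_single (J l), Finset.sum_eq_single (J ∘ l.succAbove)]
    · rw [if_pos rfl, if_pos rfl]; ring
    · intro b _ hb; rw [if_pos rfl, if_neg (Ne.symm hb)]
    · simp
    · intro b _ hb; exact Finset.sum_eq_zero fun _ _ => by rw [if_neg (Ne.symm hb)]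
    · simp
  rw [h1, dv, Matrix.det_succ_row _ (Fin.last m)]
  refine Finset.sum_congr rfl fun l _ => ?_
  rw [Fin.succAbove_last, Matrix.of_apply, Fin.snoc_last, Fin.val_last, dv]
  congr 2
  funext i j
  simp

theorem sum_cof_eq_zero {m : ℕ} (r : Fin m → Fin L → Qb) (J : Fin (m + 1) → Fin L) (i : Fin m) :
    ∑ j, cof r J j * r i j = 0 := by
  rw [sum_cof, dv]
  refine Matrix.det_zero_of_row_eq (Fin.castSucc_lt_last i).ne ?_
  funext l
  simp

end Minors

variable {F : Type} [Field F] [Algebra Qb F] [RR.FnField Qb F] (P : Par F)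

theorem dloc_le {v u : Place Qb F} (h : v ≠ u) (w : Pl) : P.dloc w v u ≤ gcst [(2 : Qb)] w := by
  have hpos : 0 < nrm w (P.e v) * nrm w (P.e u) :=
    mul_pos (nrm_pos w (P.e_ne v)) (nrm_pos w (P.e_ne u))
  rw [Par.dloc, div_le_iff₀ hpos, P.del_of_ne h]
  refine nrm_le (mul_nonneg (gcst_nonneg _ w) hpos.le) fun p => ?_
  have hb : ∀ i : Fin 2, w ((![P.e v p.1 * P.e u p.2, -(P.e v p.2 * P.e u p.1)] : Fin 2 → Qb) i) ≤
      nrm w (P.e v) * nrm w (P.e u) := fun i => by
    fin_cases i <;>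
      simp only [Fin.zero_eta, Fin.mk_one, Fin.isValue, Matrix.cons_val_zero,
        Matrix.cons_val_one, map_mul, AbsoluteValue.map_neg] <;>
      exact mul_le_mul (le_nrm w _ _) (le_nrm w _ _) (w.nonneg _) (nrm_nonneg _ _)
  simpa [wedge, gcst, Fin.sum_univ_two, sub_eq_add_neg] using
    sum_le_natCast_mul w Finset.univ _ hpos.le fun i _ => hb i

theorem prod_Ioi_snoc {M : Type*} [CommMonoid M] {m : ℕ} (f : Fin (m + 1) → Fin (m + 1) → M) :
    ∏ i, ∏ j ∈ Finset.Ioi i, f i j =
      (∏ i : Fin m, ∏ j ∈ Finset.Ioi i, f i.castSucc j.castSucc) *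
        ∏ i : Fin m, f i.castSucc (Fin.last m) := by
  classical
  have e : ∀ {p : ℕ} (i : Fin p) (g : Fin p → M),
      ∏ j ∈ Finset.Ioi i, g j = ∏ j, if i < j then g j else 1 := fun i g => by
    rw [← Finset.prod_filter]
    exact Finset.prod_congr (Finset.ext fun j => by simp) fun _ _ => rfl
  simp only [e, Fin.prod_univ_castSucc, Fin.castSucc_lt_castSucc_iff,
    Fin.castSucc_lt_last, if_true, lt_self_iff_false, if_false, mul_one,
    Fin.not_lt.mpr (Fin.le_last _), Finset.prod_const_one, Finset.prod_mul_distrib]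

/-- minors are at most the norms of the rows times the mutual distances -/
theorem dom_minors (m : ℕ) :
    Dom (fun (D : {D : Fin m → Place Qb F // Function.Injective D}) w =>
        nrm w (dv fun i => P.e (D.1 i)))
      (fun D w => (∏ i, nrm w (P.e (D.1 i))) *
        ∏ i, ∏ j ∈ Finset.Ioi i, P.dloc w (D.1 i) (D.1 j)) := by
  classical
  induction m with
  | zero =>
    exact Dom.of_le fun D w => nrm_le (by simp) fun J => by simp [dv]
  | succ m ih =>
    refine Dom.iSup (fun J => ?_) fun D w => mul_nonneg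
      (Finset.prod_nonneg fun i _ => nrm_nonneg _ _)
      (Finset.prod_nonneg fun i _ => Finset.prod_nonneg fun j _ => P.dloc_nonneg _ _ _)
    obtain ⟨Γ, hΓ⟩ := dom_eval_le P
    obtain ⟨ΓA, hA⟩ := dom_linear (cofMat J)
    obtain ⟨Γm, hm⟩ := ih
    refine ⟨Γ ++ ((List.replicate P.n [(2 : Qb)]).flatten ++ (ΓA ++ Γm)), fun D w => ?_⟩
    set D' : Fin m → Place Qb F := fun i => D.1 i.castSucc
    set v := D.1 (Fin.last m) with hv
    set c := cof (fun i => P.e (D' i)) J with hc
    have hsnoc : dv (fun i => P.e (D.1 i)) J = ∑ j, c j * P.e v j := by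
      rw [hc, sum_cof]
      congr 1
      funext i
      refine Fin.lastCases ?_ (fun k => ?_) i <;> simp [D', hv]
    have hnn : 0 ≤ gcst (Γ ++ ((List.replicate P.n [(2 : Qb)]).flatten ++ (ΓA ++ Γm))) w *
        ((∏ i, nrm w (P.e (D.1 i))) * ∏ i, ∏ j ∈ Finset.Ioi i, P.dloc w (D.1 i) (D.1 j)) :=
      mul_nonneg (gcst_nonneg _ _) (mul_nonneg (Finset.prod_nonneg fun i _ => nrm_nonneg _ _)
        (Finset.prod_nonneg fun i _ => Finset.prod_nonneg fun j _ => P.dloc_nonneg _ _ _))
    show w (dv (fun i => P.e (D.1 i)) J) ≤ _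
    rw [hsnoc]
    by_cases h0 : ∑ j, c j * P.e v j = 0
    · rw [h0, map_zero]; exact hnn
    have hc0 : c ≠ 0 := fun h => h0 (by simp [h])
    obtain ⟨e, he⟩ := exists_isZeros (lc_mem P.E c)
      (fun h => hc0 (lc_injective P.E (h.trans (map_zero _).symm))) P.degree_E
    have hzero : ∀ i, ∃ k, e k = D' i := fun i => (he.ev_eq_zero_iff _).mp (by
      rw [ev_lc, hc]; exact sum_cof_eq_zero (fun i => P.e (D' i)) J i)
    choose φ hφ using hzero
    have hinj : Function.Injective φ := fun a b h =>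
      Fin.castSucc_injective _ (D.2 (by
        show D' a = D' b
        rw [← hφ a, ← hφ b, h]))
    have hne : ∀ k, v ≠ e k := fun k h => h0 (by
      rw [← ev_lc]; exact (he.ev_eq_zero_iff v).mpr ⟨k, h.symm⟩)
    have hd : ∏ k, P.dloc w v (e k) ≤
        gcst (List.replicate P.n [(2 : Qb)]).flatten w * ∏ i, P.dloc w (D' i) v := by
      rw [← Finset.prod_mul_prod_compl (Finset.univ.image φ),
        Finset.prod_image fun a _ b _ h => hinj h, mul_comm]
      refine mul_le_mul ?_ (le_of_eq (Finset.prod_congr rfl fun i _ => by rw [hφ, P.dloc_comm]))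
        (Finset.prod_nonneg fun i _ => P.dloc_nonneg _ _ _) (gcst_nonneg _ _)
      refine (Finset.prod_le_prod (fun k _ => P.dloc_nonneg _ _ _)
        fun k _ => dloc_le P (hne k) w).trans ?_
      rw [Finset.prod_const]
      refine (pow_le_pow_right₀ (one_le_gcst _ _)
        ((Finset.card_le_univ _).trans_eq (Fintype.card_fin _))).trans_eq ?_
      clear * - P
      induction P.n with
      | zero => simp [gcst]
      | succ k ih => rw [pow_succ', ih, List.replicate_succ, List.flatten_cons, gcst_append]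
    have h1 := hΓ ⟨((c, e), v), he⟩ w
    have h2 : nrm w c ≤ gcst ΓA w * (gcst Γm w * ((∏ i, nrm w (P.e (D' i))) *
        ∏ i, ∏ j ∈ Finset.Ioi i, P.dloc w (D' i) (D' j))) :=
      (hA _ w).trans (mul_le_mul_of_nonneg_left
        (hm ⟨D', D.2.comp (Fin.castSucc_injective m)⟩ w) (gcst_nonneg _ _))
    refine h1.trans ?_
    rw [gcst_append, mul_assoc (gcst Γ w)]
    refine mul_le_mul_of_nonneg_left ?_ (gcst_nonneg _ _)
    refine (mul_le_mul (mul_le_mul_of_nonneg_right h2 (nrm_nonneg _ _)) hd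
      (Finset.prod_nonneg fun k _ => P.dloc_nonneg _ _ _)
      (mul_nonneg ((nrm_nonneg _ _).trans h2) (nrm_nonneg _ _))).trans_eq ?_
    dsimp only [D', v]
    simp only [gcst_append]
    rw [Fin.prod_univ_castSucc (fun i => nrm w (P.e (D.1 i))),
      prod_Ioi_snoc (fun i j => P.dloc w (D.1 i) (D.1 j))]
    ring

/-- height of the unique hyperplane through `k` places -/
theorem det_height (k : ℕ) (hk : k + 1 = RR.ell P.E) :
    ∃ C : ℝ, ∀ D : Fin k → Place Qb F, Function.Injective D →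
      ∀ c : Fin (RR.ell P.E) → Qb, c ≠ 0 → (∀ i, ∑ j, c j * P.e (D i) j = 0) →
      (∀ c' : Fin (RR.ell P.E) → Qb, (∀ i, ∑ j, c' j * P.e (D i) j = 0) → ∃ a : Qb, c' = a • c) →
      ht c ≤ ∑ i, P.hP (D i) - ∑ i, ∑ j ∈ Finset.Ioi i, P.hd (D i) (D j) + C := by
  classical
  let J : Fin (k + 1) → Fin (RR.ell P.E) := finCongr hk
  obtain ⟨C₁, h₁⟩ := ((dom_linear (cofMat J)).comp
    (fun (D : {D : Fin k → Place Qb F // Function.Injective D}) =>
      dv fun i => P.e (D.1 i))).height
  obtain ⟨C₂, h₂⟩ := (dom_minors P k).height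
  refine ⟨C₁ + C₂, fun D hD c hc hperp huniq => ?_⟩
  set r : Fin k → Fin (RR.ell P.E) → Qb := fun i => P.e (D i) with hr
  obtain ⟨a, ha⟩ := huniq (cof r J) fun i => sum_cof_eq_zero r J i
  have hne : cof r J ≠ 0 := by
    intro h0
    obtain ⟨j₀, hj₀⟩ := Function.ne_iff.mp hc
    have hdet : dv (Fin.snoc r (Pi.single j₀ 1)) J = 0 := by
      rw [← sum_cof, h0]; simp
    obtain ⟨y, hy0, hy⟩ := Matrix.exists_mulVec_eq_zero_iff.mpr hdet
    have hy' : ∀ (i : Fin (k + 1)),
        ∑ j, y ((finCongr hk).symm j) * (Fin.snoc r (Pi.single j₀ 1) : Fin (k + 1) → _) i j = 0 := by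
      intro i
      have h := congrFun hy i
      rw [Pi.zero_apply] at h
      rw [← h, ← (finCongr hk).sum_comp]
      exact Finset.sum_congr rfl fun l _ => by simp [J, mul_comm]
    obtain ⟨b, hb⟩ := huniq (fun j => y ((finCongr hk).symm j)) fun i => by
      simpa [hr] using hy' i.castSucc
    have hlast := hy' (Fin.last k)
    rw [Fin.snoc_last, Finset.sum_eq_single j₀ (fun j _ hj => by simp [Pi.single_eq_of_ne hj])
      (by simp), Pi.single_eq_same, mul_one, congrFun hb j₀, Pi.smul_apply, smul_eq_mul] at hlast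
    rw [(mul_eq_zero.mp hlast).resolve_right hj₀] at hb
    exact hy0 (funext fun l => by simpa using congrFun hb (finCongr hk l))
  have ha0 : a ≠ 0 := fun h => hne (by rw [ha, h, zero_smul])
  have hdv : dv r ≠ 0 := fun h => hne (by rw [cof, h, Matrix.mulVec_zero])
  have hR : HasH (fun w => (∏ i, nrm w (P.e (D i))) *
      ∏ i, ∏ j ∈ Finset.Ioi i, P.dloc w (D i) (D j))
      (∑ i, P.hP (D i) + ∑ i, ∑ j ∈ Finset.Ioi i, -P.hd (D i) (D j)) :=
    (HasH.prod _ fun i _ => P.hasH_e (D i)).mul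
      (HasH.prod _ fun i _ => HasH.prod _ fun j _ => P.hasH_dloc (D i) (D j))
  have e1 : ht (cof r J) ≤ ht (dv r) + C₁ := h₁ ⟨D, hD⟩ _ _ (hasH_nrm hne) (hasH_nrm hdv)
  have e2 : ht (dv r) ≤ _ := h₂ ⟨D, hD⟩ _ _ (hasH_nrm hdv) hR
  rw [ha, ht_smul _ ha0] at e1
  simp only [Finset.sum_neg_distrib] at e2
  linarith

end FLTAgent.MW
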