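import Fermat.Agent.AJ.Divisors

/-!
Evaluation of Riemann–Roch spaces at places, evaluation vectors, zero lists of sections.
-/

set_option autoImplicit false

noncomputable section

open AlgebraicCurve
open FLTAgent.RR (Bd)

namespace FLTAgent.MW

variable {K F : Type*} [Field K] [Field F] [Algebra K F] [IsAlgClosed K] [CharZero K]
  [RR.FnField K F]

/-- a chosen uniformiser -/
def unif (v : Place K F) : F :=
  ((IsDiscreteValuationRing.exists_irreducible v.toValuationSubring).choose : F)

omit [IsAlgClosed K] [CharZero K] [RR.FnField K F] in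
theorem ord_unif (v : Place K F) : v.ord (unif v) = 1 :=
  v.ord_coe_irreducible (IsDiscreteValuationRing.exists_irreducible v.toValuationSubring).choose_spec

omit [IsAlgClosed K] [CharZero K] [RR.FnField K F] in
theorem unif_ne (v : Place K F) : unif v ≠ 0 := fun h => by simpa [h] using ord_unif v

omit [IsAlgClosed K] [CharZero K] [RR.FnField K F] in
theorem ord_unif_zpow (v : Place K F) (k : ℤ) : v.ord (unif v ^ k) = k := by
  rw [v.ord_zpow, ord_unif, mul_one]

omit [IsAlgClosed K] [CharZero K] [RR.FnField K F] in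
theorem bd_unif_mul {v : Place K F} {f : F} {k n : ℤ} :
    Bd v (unif v ^ k * f) n ↔ Bd v f (n + k) := by
  rw [mul_comm, RR.bd_mul_iff (zpow_ne_zero _ (unif_ne v)), ord_unif_zpow]

/-- evaluation at `v` of a function bounded by `E` there -/
def ev (E : Divisor K F) (v : Place K F) (f : F) : K := AJ.val v (unif v ^ E v * f)

variable {E E' : Divisor K F} {v : Place K F} {f g : F}

theorem ev_add (hf : Bd v f (E v)) (hg : Bd v g (E v)) :
    ev E v (f + g) = ev E v f + ev E v g := by
  rw [ev, mul_add]
  exact AJ.val_add (bd_unif_mul.mpr (by simpa using hf)) (bd_unif_mul.mpr (by simpa using hg))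

theorem ev_smul (c : K) (hf : Bd v f (E v)) : ev E v (c • f) = c * ev E v f := by
  rw [ev, Algebra.smul_def, ← mul_assoc, mul_comm (unif v ^ E v) (algebraMap K F c), mul_assoc,
    AJ.val_mul (RR.Bd.of_algebraMap c) (bd_unif_mul.mpr (by simpa using hf)), AJ.val_algebraMap]
  rfl

theorem ev_mul (hf : Bd v f (E v)) (hg : Bd v g (E' v)) :
    ev (E + E') v (f * g) = ev E v f * ev E' v g := by
  rw [ev, Finsupp.add_apply, zpow_add₀ (unif_ne v),
    show unif v ^ E v * unif v ^ E' v * (f * g) = (unif v ^ E v * f) * (unif v ^ E' v * g) by ring,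
    AJ.val_mul (bd_unif_mul.mpr (by simpa using hf)) (bd_unif_mul.mpr (by simpa using hg))]
  rfl

theorem ev_eq_zero_iff (hf : Bd v f (E v)) : ev E v f = 0 ↔ Bd v f (E v - 1) := by
  rw [ev, AJ.val_eq_zero_iff (bd_unif_mul.mpr (by simpa using hf)), bd_unif_mul]
  rw [show (-1 : ℤ) + E v = E v - 1 by ring]

omit [IsAlgClosed K] [CharZero K] [RR.FnField K F] in
theorem bd_of_mem (hf : f ∈ riemannRochSpace E) : Bd v f (E v) := hf v

theorem ev_eq_zero_iff_mem (hf : f ∈ riemannRochSpace E) :
    ev E v f = 0 ↔ f ∈ riemannRochSpace (E - Finsupp.single v 1) := by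
  classical
  rw [ev_eq_zero_iff (hf v)]
  refine ⟨fun h => AJ.mem_rrSpace.mpr fun u => ?_, fun h => ?_⟩
  · rcases eq_or_ne u v with rfl | hu
    · simpa using h
    · simpa [Finsupp.single_eq_of_ne hu] using AJ.mem_rrSpace.mp hf u
  · simpa using AJ.mem_rrSpace.mp h v

/-- evaluation as a linear map -/
def evL (E : Divisor K F) (v : Place K F) : riemannRochSpace E →ₗ[K] K where
  toFun f := ev E v f
  map_add' f g := ev_add (f.2 v) (g.2 v)
  map_smul' c f := ev_smul c (f.2 v)

theorem evL_apply (f : riemannRochSpace E) : evL E v f = ev E v (f : F) := rfl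

omit [IsAlgClosed K] [CharZero K] [RR.FnField K F] in
theorem rr_le {D D' : Divisor K F} (h : ∀ u, D u ≤ D' u) :
    riemannRochSpace D ≤ riemannRochSpace D' := fun _ hf u => RR.Bd.mono (hf u) (h u)

theorem rr_sub_single_le (E : Divisor K F) (v : Place K F) :
    riemannRochSpace (E - Finsupp.single v 1) ≤ riemannRochSpace E := rr_le fun u => by
  classical
  rw [Finsupp.sub_apply, Finsupp.single_apply]
  split_ifs <;> omega

theorem degree_single_one (v : Place K F) : Divisor.degree (Finsupp.single v (1 : ℤ)) = 1 := by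
  rw [Divisor.degree_single, RR.deg_eq_one, Nat.cast_one, one_mul]

theorem degree_single_int (v : Place K F) (k : ℤ) : Divisor.degree (Finsupp.single v k) = k := by
  rw [Divisor.degree_single, RR.deg_eq_one, Nat.cast_one, mul_one]

theorem ell_large {D : Divisor K F} (hD : 2 * (genusFF K F : ℤ) - 1 ≤ Divisor.degree D) :
    (RR.ell D : ℤ) = Divisor.degree D + 1 - genusFF K F := by
  obtain ⟨x, hx, -⟩ := RR.FnField.exists_transcendental (K := K) (F := F)
  rw [RR.genusFF_eq hx] at hD ⊢
  rw [← RR.rr hx D, RR.ell_of_degree_neg (D := RR.Kd hx - D)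
    (by rw [map_sub, RR.degree_Kd]; omega)]
  simp

/-- base point free in high degree -/
theorem exists_ev_ne (hE : 2 * (genusFF K F : ℤ) ≤ Divisor.degree E) (v : Place K F) :
    ∃ f ∈ riemannRochSpace E, ev E v f ≠ 0 := by
  by_contra h
  push Not at h
  have e : riemannRochSpace (E - Finsupp.single v 1) = riemannRochSpace E :=
    le_antisymm (rr_sub_single_le E v) fun f hf => (ev_eq_zero_iff_mem hf).mp (h f hf)
  have h1 := ell_large (D := E) (by omega)
  have h2 := ell_large (D := E - Finsupp.single v 1)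
    (by rw [map_sub, degree_single_one]; omega)
  rw [RR.ell] at h1 h2
  rw [e, map_sub, degree_single_one] at h2
  omega

section Basis

instance finiteDimensional_rrS (D : Divisor K F) : FiniteDimensional K (riemannRochSpace D) :=
  RR.finiteDimensional_rr D

/-- the chosen basis of `L(E)` -/
def bas (E : Divisor K F) : Module.Basis (Fin (RR.ell E)) K (riemannRochSpace E) :=
  Module.finBasis K (riemannRochSpace E)

/-- the evaluation vector -/
def vec (E : Divisor K F) (v : Place K F) (i : Fin (RR.ell E)) : K := ev E v (bas E i : F)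

/-- coordinates of a section -/
def crd (E : Divisor K F) {f : F} (hf : f ∈ riemannRochSpace E) : Fin (RR.ell E) → K :=
  (bas E).repr ⟨f, hf⟩

/-- the section with given coordinates -/
def lc (E : Divisor K F) : (Fin (RR.ell E) → K) →ₗ[K] F :=
  (riemannRochSpace E).subtype ∘ₗ (bas E).equivFun.symm.toLinearMap

theorem lc_mem (E : Divisor K F) (c : Fin (RR.ell E) → K) : lc E c ∈ riemannRochSpace E :=
  ((bas E).equivFun.symm c).2

theorem lc_injective (E : Divisor K F) : Function.Injective (lc E) :=
  Subtype.val_injective.comp (bas E).equivFun.symm.injective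

theorem lc_crd {f : F} (hf : f ∈ riemannRochSpace E) : lc E (crd E hf) = f := by
  show (((bas E).equivFun.symm ((bas E).repr ⟨f, hf⟩)) : F) = f
  rw [show ((bas E).repr ⟨f, hf⟩ : Fin (RR.ell E) → K) = (bas E).equivFun ⟨f, hf⟩ from rfl,
    LinearEquiv.symm_apply_apply]

theorem crd_lc (c : Fin (RR.ell E) → K) : crd E (lc_mem E c) = c :=
  (bas E).equivFun.apply_symm_apply c

theorem exists_lc {f : F} (hf : f ∈ riemannRochSpace E) : ∃ c, lc E c = f := ⟨_, lc_crd hf⟩

theorem ev_lc (E : Divisor K F) (v : Place K F) (c : Fin (RR.ell E) → K) :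
    ev E v (lc E c) = ∑ i, c i * vec E v i := by
  show evL E v ((bas E).equivFun.symm c) = _
  rw [Module.Basis.equivFun_symm_apply, map_sum]
  exact Finset.sum_congr rfl fun i _ => by rw [map_smul, smul_eq_mul]; rfl

theorem ev_eq_dot {f : F} (hf : f ∈ riemannRochSpace E) :
    ev E v f = ∑ i, crd E hf i * vec E v i := by
  conv_lhs => rw [← lc_crd hf]
  exact ev_lc E v _

theorem vec_ne_zero (hE : 2 * (genusFF K F : ℤ) ≤ Divisor.degree E) (v : Place K F) :
    vec E v ≠ 0 := fun h => by
  obtain ⟨f, hf, hne⟩ := exists_ev_ne hE v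
  exact hne (by simp [ev_eq_dot hf, h])

/-- the vectors at two places are not proportional -/
theorem exists_ev_separate (hE : 2 * (genusFF K F : ℤ) + 1 ≤ Divisor.degree E) {v u : Place K F}
    (hvu : u ≠ v) : ∃ f ∈ riemannRochSpace E, ev E v f = 0 ∧ ev E u f ≠ 0 := by
  obtain ⟨f, hf, hne⟩ := exists_ev_ne (E := E - Finsupp.single v 1) (v := u)
    (by rw [map_sub, degree_single_one]; omega)
  have hfE := rr_sub_single_le E v hf
  refine ⟨f, hfE, (ev_eq_zero_iff_mem hfE).mpr hf, fun h => hne ?_⟩
  have e : (E - Finsupp.single v (1 : ℤ) : Divisor K F) u = E u := by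
    simp [Finsupp.single_eq_of_ne hvu]
  rw [ev, e]
  exact h

end Basis

section Zeros

theorem exists_sumPts {D : Divisor K F} (h0 : ∀ u, 0 ≤ D u) {m : ℕ}
    (hm : Divisor.degree D = m) : ∃ e : Fin m → Place K F, AJ.sumPts e = D := by
  classical
  induction m generalizing D with
  | zero =>
    exact ⟨Fin.elim0, by
      rw [AJ.eq_zero_of_nonneg_of_degree h0 (by simpa using hm)]
      simp [AJ.sumPts]⟩
  | succ m ih =>
    obtain ⟨u, hu⟩ : ∃ u, 0 < D u := by
      by_contra h
      push Not at h
      have : D = 0 := Finsupp.ext fun u => le_antisymm (h u) (h0 u)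
      rw [this, map_zero] at hm
      omega
    obtain ⟨e, he⟩ := ih (D := D - Finsupp.single u 1) (fun w => by
        have := h0 w
        rcases eq_or_ne w u with rfl | hw
        · rw [Finsupp.sub_apply, Finsupp.single_eq_same]; omega
        · rw [Finsupp.sub_apply, Finsupp.single_eq_of_ne hw]; omega)
      (by rw [map_sub, degree_single_one, hm]; push_cast; ring)
    refine ⟨Fin.cons u e, ?_⟩
    rw [AJ.sumPts, Fin.sum_univ_succ]
    simp only [Fin.cons_zero, Fin.cons_succ]
    rw [show (∑ i, Finsupp.single (e i) (1 : ℤ)) = AJ.sumPts e from rfl, he, add_sub_cancel]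

open Classical in
/-- the zero divisor of a section of `E` -/
def zdiv (E : Divisor K F) (f : F) : Divisor K F :=
  if h : f ≠ 0 then E + (RR.exists_divisor (K := K) h).choose else 0

theorem zdiv_apply (hf : f ≠ 0) (u : Place K F) : zdiv E f u = E u + u.ord f := by
  rw [zdiv, dif_pos hf, Finsupp.add_apply, (RR.exists_divisor (K := K) hf).choose_spec]

theorem zdiv_nonneg (hf : f ∈ riemannRochSpace E) (hf0 : f ≠ 0) (u : Place K F) :
    0 ≤ zdiv E f u := by
  have := (RR.bd_iff_ord hf0).mp (hf u)
  rw [zdiv_apply hf0]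
  omega

theorem degree_zdiv (hf : f ≠ 0) : Divisor.degree (zdiv E f) = Divisor.degree E := by
  rw [zdiv, dif_pos hf, map_add,
    RR.degree_divisor hf (RR.exists_divisor (K := K) hf).choose_spec, add_zero]

/-- `e` lists the zeros of the section `f` of `E` with multiplicity -/
structure IsZeros (E : Divisor K F) (f : F) {m : ℕ} (e : Fin m → Place K F) : Prop where
  mem : f ∈ riemannRochSpace E
  ne : f ≠ 0
  sum_eq : AJ.sumPts e = zdiv E f

theorem exists_isZeros (hf : f ∈ riemannRochSpace E) (hf0 : f ≠ 0) {m : ℕ}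
    (hm : Divisor.degree E = m) : ∃ e : Fin m → Place K F, IsZeros E f e := by
  obtain ⟨e, he⟩ := exists_sumPts (zdiv_nonneg hf hf0) ((degree_zdiv hf0).trans hm)
  exact ⟨e, hf, hf0, he⟩

theorem IsZeros.ev_eq_zero_iff {m : ℕ} {e : Fin m → Place K F} (h : IsZeros E f e)
    (u : Place K F) : ev E u f = 0 ↔ ∃ i, e i = u := by
  classical
  have hz := zdiv_nonneg h.mem h.ne u
  have he : AJ.sumPts e u = zdiv E f u := by rw [h.sum_eq]
  rw [MW.ev_eq_zero_iff (h.mem u), RR.bd_iff_ord h.ne]
  rw [zdiv_apply h.ne] at hz he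
  constructor
  · intro h1
    by_contra h2
    push Not at h2
    rw [AJ.sumPts_apply_of_ne h2] at he
    omega
  · rintro ⟨i, rfl⟩
    have : 1 ≤ AJ.sumPts e (e i) := by
      rw [AJ.sumPts, Finsupp.finsetSum_apply]
      refine le_trans ?_ (Finset.single_le_sum
        (f := fun j => Finsupp.single (e j) (1 : ℤ) (e i))
        (fun j _ => by rw [Finsupp.single_apply]; split_ifs <;> norm_num) (Finset.mem_univ i))
      simp
    omega

end Zeros

end FLTAgent.MW
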