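import Fermat.Agent.MW.Translates
import Fermat.Agent.Reduction.API
import Fermat.Agent.Flat.API
import Fermat.Agent.HeckeJ.Level

/-!
Rational classes with residual divisors of bounded height are finite in number.
-/

set_option autoImplicit false

noncomputable section

open AlgebraicCurve ModularCurve
open FLTAgent.RR (Bd)

namespace FLTAgent.MW

variable {N : ℕ} [NeZero N]

local notation "GQ" => AlgebraicClosure ℚ ≃ₐ[ℚ] AlgebraicClosure ℚ

/-- the semilinear action -/
local notation "gal" => fun σ => arithmeticGalois (modularFunctionFieldFull N) σ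

theorem val_galois (σ : GQ) {v : Place Qb (Reduction.FB N)} {h : Reduction.FB N} (hh : Bd v h 0) :
    Bd (gal σ • v) (gal σ • h) 0 ∧ AJ.val (gal σ • v) (gal σ • h) = σ (AJ.val v h) := by
  have key : ∀ (f : Reduction.FB N) (n : ℤ), Bd v f n → Bd (gal σ • v) (gal σ • f) n := by
    intro f n hf
    rw [RR.bd_iff] at hf ⊢
    rcases hf with rfl | hf
    · exact Or.inl (smul_zero _)
    · right; rwa [SemilinearAut.ord_smul]
  refine ⟨key h 0 hh, AJ.val_eq ?_⟩
  have := key _ _ (AJ.val_spec hh)
  rwa [smul_sub, SemilinearAut.smul_algebraMap, baseAut_arithmeticGalois] at this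

/-- equivariance of the evaluation vectors, up to scalars -/
theorem exists_vec_galois (E : Divisor Qb (Reduction.FB N)) (σ : GQ)
    (hb : ∀ i, gal σ • (bas E i : Reduction.FB N) = (bas E i : Reduction.FB N))
    (v : Place Qb (Reduction.FB N)) (hE : E (gal σ • v) = E v) :
    ∃ c : Qb, c ≠ 0 ∧ ∀ i, vec E (gal σ • v) i = c * σ (vec E v i) := by
  set g := gal σ with hg
  set t := unif v
  set t' := unif (g • v)
  have ht0 : g • t ≠ 0 := (smul_ne_zero_iff_ne g).mpr (unif_ne v)
  set u : Reduction.FB N := (t' / (g • t)) ^ E v with hu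
  have hu0 : u ≠ 0 := zpow_ne_zero _ (div_ne_zero (unif_ne _) ht0)
  have hord : (g • v).ord u = 0 := by
    have h1 : (g • v).ord (g • t) = 1 := by
      rw [SemilinearAut.ord_smul]; exact ord_unif v
    have h2 : (g • v).ord t' = 1 := ord_unif _
    rw [hu, Place.ord_zpow, div_eq_mul_inv, Place.ord_mul _ (unif_ne _) (inv_ne_zero ht0),
      Place.ord_inv, h1, h2, add_neg_cancel, mul_zero]
  have hub : Bd (g • v) u 0 := (RR.bd_iff_ord hu0).mpr (by omega)
  refine ⟨AJ.val (g • v) u, fun h => ?_, fun i => ?_⟩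
  · have := (AJ.val_eq_zero_iff hub).mp h
    rw [RR.bd_iff_ord hu0] at this
    omega
  have hin : Bd v (t ^ E v * (bas E i : Reduction.FB N)) 0 :=
    bd_unif_mul.mpr (by rw [zero_add]; exact bd_of_mem (bas E i).2)
  obtain ⟨hgb, hgv⟩ := val_galois σ hin
  have e : t' ^ E (g • v) * (bas E i : Reduction.FB N) =
      u * (g • (t ^ E v * (bas E i : Reduction.FB N))) := by
    rw [hE, hu, smul_mul', hb, div_zpow,
      show g • (t ^ E v) = (g • t) ^ E v from map_zpow₀ (MulSemiringAction.toRingHom _ _ g) t _]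
    field_simp
  show AJ.val (g • v) (t' ^ E (g • v) * _) = _
  rw [e, AJ.val_mul hub hgb, hgv]
  rfl

theorem smul_cls (P : Par (Reduction.FB N)) (σ : GQ) (hO : gal σ • P.O = P.O)
    (D : Divisor Qb (Reduction.FB N)) : σ • P.cls D = P.cls (gal σ • D) := by
  show gal σ • (Pic0.mk ⟨_, cls_mem P.O D⟩ : Pic0 Qb (Reduction.FB N)) = Pic0.mk ⟨_, cls_mem P.O _⟩
  rw [SemilinearAut.pic0_smul_mk]
  refine congrArg Pic0.mk (Subtype.ext ?_)
  simp only [SemilinearAut.coe_degZeroSMulHom, smul_sub, SemilinearAut.smul_single,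
    SemilinearAut.degree_smul, hO]

/-- an effective divisor with one-dimensional space of sections is alone in its class -/
theorem eq_of_cls_eq {F : Type} [Field F] [Algebra Qb F] [RR.FnField Qb F] (P : Par F)
    {D D' : Divisor Qb F} (hD : ∀ v, 0 ≤ D v) (hD' : ∀ v, 0 ≤ D' v) (hell : RR.ell D = 1)
    (hdeg : Divisor.degree D' = Divisor.degree D) (h : P.cls D' = P.cls D) : D' = D := by
  have h1 : P.cls (D' - D) = 0 := by rw [map_sub, h, sub_self]
  have h2 := (QuotientAddGroup.eq_zero_iff _).mp h1
  obtain ⟨f, hf, hdiv⟩ := AddSubgroup.mem_addSubgroupOf.mp h2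
  have hsub : Divisor.degree (D' - D) = 0 := by rw [map_sub, hdeg, sub_self]
  simp only [hsub, Finsupp.single_zero, sub_zero, Finsupp.sub_apply] at hdiv
  have hfmem : f ∈ riemannRochSpace D := fun v => by
    refine (RR.bd_iff_ord hf).mpr ?_
    rw [← hdiv v]
    have := hD' v
    omega
  have hone : (1 : F) ∈ riemannRochSpace D := fun v => by
    refine (RR.bd_iff_ord one_ne_zero).mpr ?_
    rw [show (1 : F) = algebraMap Qb F 1 from (map_one _).symm, RR.ord_algebraMap]
    have := hD v
    omega
  obtain ⟨c, hc⟩ := exists_smul_eq_of_finrank_eq_one (V := riemannRochSpace D) hell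
    (x := ⟨1, hone⟩) (fun h0 => one_ne_zero (congrArg Subtype.val h0)) ⟨f, hfmem⟩
  have hfc : algebraMap Qb F c = f := by
    have := congrArg Subtype.val hc
    simpa [Algebra.smul_def] using this
  ext v
  have := hdiv v
  rw [← hfc, RR.ord_algebraMap] at this
  omega

/-- bounded conjugates -/
theorem finrank_adjoin_le (L : IntermediateField ℚ Qb) [FiniteDimensional ℚ L] (t : Qb) (g : ℕ)
    (T : Finset Qb) (hT : T.card ≤ g) (h : ∀ σ : GQ, (∀ y ∈ L, σ y = y) → σ t ∈ T) :
    Module.finrank ℚ (IntermediateField.adjoin ℚ ({t} : Set Qb)) ≤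
      g * Module.finrank ℚ L := by
  classical
  haveI : Algebra.IsAlgebraic ℚ Qb := AlgebraicClosure.isAlgebraic ℚ
  have hint : IsIntegral ℚ t := (Algebra.IsAlgebraic.isAlgebraic t).isIntegral
  rw [IntermediateField.adjoin.finrank hint]
  haveI : Normal ℚ Qb := Common.isGalois_qbar.to_normal
  have hcard : (minpoly ℚ t).natDegree = ((minpoly ℚ t).aroots Qb).toFinset.card := by
    rw [Multiset.toFinset_card_of_nodup (Polynomial.nodup_roots
        ((minpoly.irreducible hint).separable.map)),
      ← (IsAlgClosed.splits _).natDegree_eq_card_roots, Polynomial.natDegree_map]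
  rw [hcard]
  -- a choice of automorphism over each embedding of `L`
  let τ : (L →ₐ[ℚ] Qb) → GQ := fun ι =>
    AlgEquiv.ofBijective (ι.liftNormal Qb) (AlgHom.normal_bijective ℚ Qb Qb _)
  have hτ : ∀ (ι : L →ₐ[ℚ] Qb) (y : L), τ ι (y : Qb) = ι y := fun ι y =>
    AlgHom.liftNormal_commutes ι Qb y
  calc ((minpoly ℚ t).aroots Qb).toFinset.card
      ≤ (Finset.univ.biUnion fun ι : L →ₐ[ℚ] Qb => T.image (τ ι)).card := by
        refine Finset.card_le_card fun r hr => ?_
        rw [Multiset.mem_toFinset, Polynomial.mem_aroots] at hr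
        obtain ⟨σ, rfl⟩ := (Normal.minpoly_eq_iff_mem_orbit (E := Qb)).mp
          (minpoly.eq_of_irreducible_of_monic (minpoly.irreducible hint) hr.2 (minpoly.monic hint)).symm
        refine Finset.mem_biUnion.mpr ⟨(σ : Qb →ₐ[ℚ] Qb).comp L.val, Finset.mem_univ _, ?_⟩
        set ι := (σ : Qb →ₐ[ℚ] Qb).comp L.val with hι
        refine Finset.mem_image.mpr ⟨((τ ι)⁻¹ * σ) t, h _ fun y hy => ?_, ?_⟩
        · show (τ ι).symm (σ y) = y
          rw [AlgEquiv.symm_apply_eq, hτ ι ⟨y, hy⟩]
          rfl
        · exact (τ ι).apply_symm_apply _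
    _ ≤ ∑ ι : L →ₐ[ℚ] Qb, g := Finset.card_biUnion_le.trans
        (Finset.sum_le_sum fun ι _ => Finset.card_image_le.trans hT)
    _ = g * Module.finrank ℚ L := by
        rw [Finset.sum_const, Finset.card_univ, AlgHom.card, smul_eq_mul, mul_comm]

/-- finiteness of rational classes with small residual divisor -/
theorem finite_small (P : Par (Reduction.FB N)) (hO : ∀ σ : Qb ≃ₐ[ℚ] Qb, arithmeticGalois (modularFunctionFieldFull N) σ • P.O = P.O)
    (S : Finset (JZero N)) (B : ℝ) :
    {x : JZero N | (∀ σ : Qb ≃ₐ[ℚ] Qb, σ • x = x) ∧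
      ∃ c ∈ S, ∃ R : Fin (genusFF Qb (Reduction.FB N)) → Place Qb (Reduction.FB N),
        P.cls (AJ.sumPts R) = -(x + c) ∧ RR.ell (AJ.sumPts R) = 1 ∧
        ∑ i, P.hP (R i) ≤ B}.Finite := by
  classical
  set g := genusFF Qb (Reduction.FB N)
  -- a level for the translates and the basis
  have hlev : ∀ s : Finset (JZero N), HeckeJ.HasLevel fun σ : GQ => ∀ c ∈ s, σ • c = c := by
    intro s
    induction s using Finset.induction with
    | empty => exact .of_forall fun σ c hc => absurd hc (Finset.notMem_empty c)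
    | insert a s _ ih =>
      have ha : HeckeJ.HasLevel fun σ : GQ => σ • a = a := HeckeJ.exists_level' a
      exact (ha.and ih).mono fun σ h c hc => by
        rcases Finset.mem_insert.mp hc with rfl | hc
        · exact h.1
        · exact h.2 c hc
  have hlevb : ∀ s : Finset (Fin (RR.ell P.E)), HeckeJ.HasLevel fun σ : GQ =>
      ∀ i ∈ s, gal σ • (bas P.E i : Reduction.FB N) = (bas P.E i : Reduction.FB N) := by
    intro s
    induction s using Finset.induction with
    | empty => exact .of_forall fun σ c hc => absurd hc (Finset.notMem_empty c)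
    | insert a s _ ih =>
      have ha := HeckeJ.hasLevel_fn (bas P.E a : Reduction.FB N)
      exact (ha.and ih).mono fun σ h c hc => by
        rcases Finset.mem_insert.mp hc with rfl | hc
        · exact h.1
        · exact h.2 c hc
  obtain ⟨L, hL, hLfix⟩ := (hlev S).and (hlevb Finset.univ)
  haveI := hL
  set Tset : Set Qb := {t | Module.finrank ℚ (IntermediateField.adjoin ℚ ({t} : Set Qb)) ≤
    g * Module.finrank ℚ L ∧ ht ![1, t] ≤ B} with hTset
  have hTfin : Tset.Finite := finite_deg_ht _ _
  set V : Set (Place Qb (Reduction.FB N)) := {v | ∀ a i, P.e v a ≠ 0 → P.e v i / P.e v a ∈ Tset}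
    with hV
  have hVfin : V.Finite := by
    choose a ha using fun v : Place Qb (Reduction.FB N) => Function.ne_iff.mp (P.e_ne v)
    refine Set.Finite.of_finite_image (f := fun v => (a v, fun i => P.e v i / P.e v (a v))) ?_ ?_
    · refine Set.Finite.subset (Set.finite_univ.prod (Set.Finite.pi fun _ => hTfin)) ?_
      rintro _ ⟨v, hv, rfl⟩
      exact ⟨Set.mem_univ _, fun i _ => hv (a v) i (ha v)⟩
    · intro v _ u _ hvu
      simp only [Prod.mk.injEq] at hvu
      by_contra hne
      obtain ⟨f, hf, hv0, hu0⟩ := exists_ev_separate (E := P.E)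
        (by have := P.two_g_le; omega) (Ne.symm hne)
      rw [ev_eq_dot hf] at hv0 hu0
      have hav : P.e v (a v) ≠ 0 := ha v
      have hau : P.e u (a v) ≠ 0 := hvu.1 ▸ ha u
      refine hu0 ?_
      have e : ∀ i, P.e u i = P.e u (a v) / P.e v (a v) * P.e v i := fun i => by
        have := congrFun hvu.2 i
        rw [← hvu.1] at this
        field_simp at this ⊢
        linear_combination -this
      calc ∑ i, crd P.E hf i * P.e u i
          = P.e u (a v) / P.e v (a v) * ∑ i, crd P.E hf i * P.e v i := by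
            rw [Finset.mul_sum]
            exact Finset.sum_congr rfl fun i _ => by rw [e i]; ring
        _ = 0 := by rw [show ∑ i, crd P.E hf i * P.e v i = 0 from hv0, mul_zero]
  refine Set.Finite.subset ((S.finite_toSet.prod (Set.Finite.pi fun _ : Fin g => hVfin)).image
    fun cR => -P.cls (AJ.sumPts cR.2) - cR.1) ?_
  rintro x ⟨hx, c, hc, R, hR, hell, hB⟩
  refine ⟨(c, R), ⟨hc, fun k _ => ?_⟩, by simp only [hR]; abel⟩
  -- conjugation permutes the residual points
  have hperm : ∀ σ : GQ, (∀ y ∈ L, σ y = y) → ∃ j, gal σ • R k = R j := by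
    intro σ hσ
    have h1 : P.cls (gal σ • AJ.sumPts R) = P.cls (AJ.sumPts R) := by
      rw [← smul_cls P σ (hO σ), hR, smul_neg, smul_add, hx σ, (hLfix σ hσ).1 c hc]
    have hsm : gal σ • AJ.sumPts R = AJ.sumPts fun j => gal σ • R j := by
      simp only [AJ.sumPts, Finset.smul_sum, SemilinearAut.smul_single]
    have h2 : gal σ • AJ.sumPts R = AJ.sumPts R :=
      eq_of_cls_eq P (AJ.sumPts_nonneg R) (fun v => by rw [hsm]; exact AJ.sumPts_nonneg _ v) hell
        (SemilinearAut.degree_smul _ _) h1
    by_contra hcon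
    push Not at hcon
    have h3 := SemilinearAut.divisor_smul_apply_smul (gal σ) (AJ.sumPts R) (R k)
    rw [h2, AJ.sumPts_apply_of_ne fun j => (hcon j).symm] at h3
    have h4 : 1 ≤ AJ.sumPts R (R k) := by
      rw [AJ.sumPts, Finsupp.finsetSum_apply]
      refine le_trans ?_ (Finset.single_le_sum
        (f := fun j => Finsupp.single (R j) (1 : ℤ) (R k))
        (fun j _ => by rw [Finsupp.single_apply]; split_ifs <;> norm_num) (Finset.mem_univ k))
      simp
    omega
  intro a i ha
  refine ⟨finrank_adjoin_le L _ g (Finset.univ.image fun j => P.e (R j) i / P.e (R j) a)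
    (Finset.card_image_le.trans (by simp)) fun σ hσ => ?_, ?_⟩
  · obtain ⟨j, hj⟩ := hperm σ hσ
    obtain ⟨l, hl0, hl⟩ := exists_vec_galois P.E σ
      (fun m => (hLfix σ hσ).2 m (Finset.mem_univ m)) (R k) (by
        classical
        simp only [Par.E, Finsupp.single_apply]
        have : P.O = gal σ • R k ↔ P.O = R k := by
          conv_lhs => rw [← hO σ]
          exact (MulAction.injective _).eq_iff
        simp [this])
    refine Finset.mem_image.mpr ⟨j, Finset.mem_univ j, ?_⟩
    simp only [Par.e]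
    rw [← hj, hl, hl, mul_div_mul_left _ _ hl0, map_div₀]
  · have e : ![1, P.e (R k) i / P.e (R k) a] =
        (P.e (R k) a)⁻¹ • (P.e (R k) ∘ ![a, i]) := by
      funext m
      fin_cases m <;> simp [ha, div_eq_inv_mul]
    rw [e, ht_smul _ (inv_ne_zero ha)]
    refine (ht_comp_le _ _).trans (le_trans ?_ hB)
    exact Finset.single_le_sum (f := fun m => P.hP (R m)) (fun m _ => P.hP_nonneg _)
      (Finset.mem_univ k)

end FLTAgent.MW
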