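import Fermat.Agent.MW.Law
import Fermat.Agent.MW.Poly
import Fermat.Agent.RR.API

/-!
The height of the tangent line as a combination of height pairings with fixed places.
-/

set_option autoImplicit false

noncomputable section

open AlgebraicCurve
open FLTAgent.RR (Bd)

namespace FLTAgent.MW

variable {F : Type} [Field F] [Algebra Qb F] [RR.FnField Qb F]

/-- a linear image of evaluation vectors without zeros on the curve has the same height -/
theorem exists_ht_image {E : Divisor Qb F}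
    (hE : 2 * (genusFF Qb F : ℤ) + 1 ≤ Divisor.degree E) {μ : Type*} [Fintype μ]
    (A : Matrix μ (Fin (RR.ell E)) Qb) (hA : ∀ v, A.mulVec (vec E v) ≠ 0) :
    ∃ C : ℝ, ∀ v, |ht (A.mulVec (vec E v)) - ht (vec E v)| ≤ C := by
  classical
  have hne : ∀ v : Place Qb F, vec E v ≠ 0 := fun v => vec_ne_zero (by omega) v
  have up : Dom (fun (v : Place Qb F) w => nrm w (A.mulVec (vec E v)))
      (fun v w => nrm w (vec E v)) := (dom_linear A).comp fun v => vec E v
  let p : μ → MvPolynomial (Σ _b : Unit, Fin (RR.ell E)) Qb := fun m =>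
    ∑ k, MvPolynomial.C (A m k) *
      MvPolynomial.X (⟨(), k⟩ : Σ _b : Unit, Fin (RR.ell E))
  have hp : ∀ m, IsMH (p m) (fun _ => 1) := fun m => by
    refine MvPolynomial.IsWeightedHomogeneous.sum _ _ _ fun k _ => ?_
    have h := (MvPolynomial.isWeightedHomogeneous_C (R := Qb)
      (fun s : Σ _b : Unit, Fin (RR.ell E) => (Pi.single s.1 1 : Unit → ℕ)) (A m k)).mul
      (MvPolynomial.isWeightedHomogeneous_X Qb
        (fun s : Σ _b : Unit, Fin (RR.ell E) => (Pi.single s.1 1 : Unit → ℕ)) ⟨(), k⟩)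
    have e : (fun _ : Unit => 1) = (0 : Unit → ℕ) + Pi.single () 1 := by
      funext u; simp
    rw [e]
    exact h
  have hev : ∀ (y : Unit → Fin (RR.ell E) → Qb) m,
      evalMH (ι := fun _ : Unit => Fin (RR.ell E)) y (p m) = A.mulVec (y ()) m := fun y m => by
    simp [evalMH, p, Matrix.mulVec, dotProduct]
  obtain ⟨s, hs⟩ := exists_dom_mh_ge (ι := fun _ : Unit => Fin (RR.ell E))
    (fun (v : Place Qb F) (_ : Unit) => vec E v) (fun v _ => hne v) p (fun _ => 1) hp
    (fun y hy h => by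
      obtain ⟨v, hv⟩ := exists_place_of_closed (fun _ : Unit => E) y hy (fun _ => hE) h
      obtain ⟨c, hc, hyc⟩ := hv ()
      obtain ⟨m, hm⟩ := Function.ne_iff.mp (hA v)
      refine ⟨m, ?_⟩
      rw [hev, hyc, Matrix.mulVec_smul, Pi.smul_apply, smul_eq_mul]
      exact mul_ne_zero hc hm)
  have low : Dom (fun (v : Place Qb F) w => nrm w (vec E v))
      (fun v w => nrm w (A.mulVec (vec E v))) := by
    obtain ⟨Γ, hΓ⟩ := hs
    refine ⟨Γ, fun v w => ?_⟩
    have h := hΓ v w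
    simp only [Finset.prod_const, Finset.card_univ, Fintype.card_unit, pow_one, hev] at h
    exact h.trans (mul_le_mul_of_nonneg_left
      (nrm_le (nrm_nonneg _ _) fun m => le_nrm w (A.mulVec (vec E v)) m.1) (gcst_nonneg _ w))
  obtain ⟨C, hC⟩ := up.height
  obtain ⟨C', hC'⟩ := low.height
  refine ⟨max C C', fun v => ?_⟩
  have h1 := hC v _ _ (hasH_nrm (hA v)) (hasH_nrm (hne v))
  have h2 := hC' v _ _ (hasH_nrm (hne v)) (hasH_nrm (hA v))
  rw [abs_le]
  constructor <;> linarith [le_max_left C C', le_max_right C C']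

/-- heights are additive in the base point free range -/
theorem exists_ht_add {E E' D : Divisor Qb F} (hD : E + E' = D)
    (hE : 2 * (genusFF Qb F : ℤ) ≤ Divisor.degree E)
    (hE' : 2 * (genusFF Qb F : ℤ) ≤ Divisor.degree E')
    (hd : 2 * (genusFF Qb F : ℤ) + 1 ≤ Divisor.degree D) :
    ∃ C : ℝ, ∀ v, |ht (vec E v) + ht (vec E' v) - ht (vec D v)| ≤ C := by
  subst hD
  have hmem : ∀ ij : Fin (RR.ell E) × Fin (RR.ell E'),
      (bas E ij.1 : F) * (bas E' ij.2 : F) ∈ riemannRochSpace (E + E') := fun ij =>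
    AJ.mem_rrSpace.mpr fun u => by
      rw [Finsupp.add_apply]
      exact RR.Bd.mul (bd_of_mem (bas E ij.1).2) (bd_of_mem (bas E' ij.2).2)
  let A : Matrix (Fin (RR.ell E) × Fin (RR.ell E')) (Fin (RR.ell (E + E'))) Qb :=
    Matrix.of fun ij => crd (E + E') (hmem ij)
  have hAv : ∀ v, A.mulVec (vec (E + E') v) = fun ij => vec E v ij.1 * vec E' v ij.2 := fun v => by
    funext ij
    show ∑ k, crd (E + E') (hmem ij) k * vec (E + E') v k = _
    rw [← ev_eq_dot (hmem ij), ev_mul ((bas E ij.1).2 v) ((bas E' ij.2).2 v)]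
    rfl
  have hne : ∀ v, A.mulVec (vec (E + E') v) ≠ 0 := fun v h => by
    obtain ⟨i, hi⟩ := Function.ne_iff.mp (vec_ne_zero hE v)
    obtain ⟨j, hj⟩ := Function.ne_iff.mp (vec_ne_zero hE' v)
    rw [hAv] at h
    exact mul_ne_zero hi hj (congrFun h (i, j))
  obtain ⟨C, hC⟩ := exists_ht_image hd A hne
  refine ⟨C, fun v => ?_⟩
  have e : ht (A.mulVec (vec (E + E') v)) = ht (vec E v) + ht (vec E' v) := by
    have h1 := hasH_nrm (hne v)
    have h2 := (hasH_nrm (vec_ne_zero hE v)).mul (hasH_nrm (vec_ne_zero hE' v))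
    refine h1.unique ?_
    convert h2 using 2 with w
    rw [hAv, nrm_tensor]
  rw [← e]
  exact hC v

variable (P : Par F)

theorem sum_sumPts_hd {m : ℕ} (e : Fin m → Place Qb F) (v : Place Qb F) :
    (AJ.sumPts e).sum (fun u a => (a : ℝ) * P.hd v u) = ∑ k, P.hd v (e k) := by
  rw [AJ.sumPts, ← Finsupp.sum_finsetSum_index (by simp) (by intros; push_cast; ring)]
  exact Finset.sum_congr rfl fun k _ => by rw [Finsupp.sum_single_index] <;> simp

theorem isZeros_mul {E E' D : Divisor Qb F} (hD : E + E' = D) {f f' : F} {k k' m : ℕ}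
    (hm : k + k' = m) {e : Fin k → Place Qb F} {e' : Fin k' → Place Qb F}
    (h : IsZeros E f e) (h' : IsZeros E' f' e') :
    ∃ e'' : Fin m → Place Qb F, IsZeros D (f * f') e'' ∧
      (∀ v, (∀ i, e i ≠ v) → (∀ i, e' i ≠ v) → ∀ i, e'' i ≠ v) ∧
      (∀ g : Place Qb F → ℝ, ∏ i, g (e'' i) = (∏ i, g (e i)) * ∏ i, g (e' i)) ∧
      (∀ g : Place Qb F → ℝ, ∑ i, g (e'' i) = (∑ i, g (e i)) + ∑ i, g (e' i)) := by
  classical
  subst hm hD
  refine ⟨Fin.append e e', ⟨AJ.mem_rrSpace.mpr fun u => by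
      rw [Finsupp.add_apply]; exact RR.Bd.mul (bd_of_mem h.mem) (bd_of_mem h'.mem), mul_ne_zero h.ne h'.ne, ?_⟩, ?_, ?_, ?_⟩
  · rw [AJ.sumPts, Fin.sum_univ_add]
    simp only [Fin.append_left, Fin.append_right]
    show AJ.sumPts e + AJ.sumPts e' = _
    rw [h.sum_eq, h'.sum_eq]
    ext u
    rw [Finsupp.add_apply, zdiv_apply h.ne, zdiv_apply h'.ne, zdiv_apply (mul_ne_zero h.ne h'.ne),
      Finsupp.add_apply, u.ord_mul h.ne h'.ne]
    ring
  · intro v hv hv' i
    induction i using Fin.addCases with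
    | left i => simpa using hv i
    | right i => simpa using hv' i
  · intro g; simp [Fin.prod_univ_add]
  · intro g; simp [Fin.sum_univ_add]

/-- the distance is bounded -/
theorem dom_dloc : Dom (fun (q : {q : Place Qb F × Place Qb F // q.1 ≠ q.2}) w =>
    P.dloc w q.1.1 q.1.2) (fun _ _ => 1) := by
  obtain ⟨Γ, hΓ⟩ := dom_sum (ι := Fin 2)
  refine ⟨Γ, fun q w => ?_⟩
  have hpos : 0 < nrm w (P.e q.1.1) * nrm w (P.e q.1.2) :=
    mul_pos (nrm_pos w (P.e_ne _)) (nrm_pos w (P.e_ne _))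
  simp only [Par.dloc]
  rw [div_le_iff₀ hpos, P.del_of_ne q.2, mul_one]
  refine nrm_le (mul_nonneg (gcst_nonneg _ w) hpos.le) fun p => ?_
  set a := P.e q.1.1
  set b := P.e q.1.2
  have e : wedge a b p = ∑ i, ![a p.1 * b p.2, (-1 : Qb) * (a p.2 * b p.1)] i := by
    simp [wedge, Fin.sum_univ_two]; ring
  rw [e]
  refine (hΓ _ w).trans (mul_le_mul_of_nonneg_left (nrm_le hpos.le fun i => ?_) (gcst_nonneg _ w))
  fin_cases i
  · show w (a p.1 * b p.2) ≤ _
    rw [map_mul]
    exact mul_le_mul (le_nrm w a _) (le_nrm w b _) (w.nonneg _) (nrm_nonneg _ _)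
  · show w ((-1 : Qb) * (a p.2 * b p.1)) ≤ _
    rw [map_mul, map_mul, w.1.map_neg, map_one, one_mul]
    exact mul_le_mul (le_nrm w a _) (le_nrm w b _) (w.nonneg _) (nrm_nonneg _ _)

theorem gcst_flatten_replicate (Δ : List Qb) (w : Pl) (n : ℕ) :
    gcst (List.replicate n Δ).flatten w = gcst Δ w ^ n := by
  induction n with
  | zero => simp [gcst]
  | succ n ih => rw [List.replicate_succ, List.flatten_cons, gcst_append, ih, pow_succ']

/-- the one-sided bound -/
theorem exists_ht_vec_ge {E E' : Divisor Qb F} (hsum : E + E' = P.E)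
    (hE' : 2 * (genusFF Qb F : ℤ) ≤ Divisor.degree E') {k k' : ℕ} (hk : Divisor.degree E = k)
    (hk' : Divisor.degree E' = k') {f : F} {e : Fin k → Place Qb F} (hf : IsZeros E f e) :
    ∃ (bad : Finset (Place Qb F)) (C : ℝ), ∀ v, v ∉ bad →
      ht (vec E' v) ≤ P.hP v - ∑ i, P.hd v (e i) + C := by
  classical
  have hn : k + k' = P.n := by
    have := congrArg (Divisor.degree (K := Qb)) hsum
    rw [map_add, hk, hk', P.degree_E] at this
    omega
  choose ej hej using fun j => exists_isZeros (E := E') (bas E' j).2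
    (fun h => (bas E').ne_zero j (Subtype.ext h)) hk'
  choose ee hee hav hprod hsum' using fun j => isZeros_mul hsum hn hf (hej j)
  set bad : Finset (Place Qb F) := Finset.univ.image e ∪
    Finset.univ.biUnion (fun j => Finset.univ.image (ej j)) with hbad
  have hmem : ∀ j, f * (bas E' j : F) ∈ riemannRochSpace P.E := fun j => (hee j).mem
  have havoid : ∀ v, v ∉ bad → (∀ i, e i ≠ v) ∧ ∀ j i, ej j i ≠ v := fun v hv => by
    simp only [hbad, Finset.mem_union, Finset.mem_image, Finset.mem_univ, true_and,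
      Finset.mem_biUnion, not_or, not_exists] at hv
    exact ⟨fun i => hv.1 i, fun j i => hv.2 j i⟩
  let X := {v : Place Qb F // v ∉ bad}
  obtain ⟨Γ, hΓ⟩ := dom_eval_le P
  obtain ⟨Δ, hΔ⟩ := dom_dloc P
  -- constants for the coordinate vectors
  have hdom : Dom (fun (v : X) w => w (ev E v.1 f) * nrm w (vec E' v.1))
      (fun v w => nrm w (P.e v.1) * ∏ i, P.dloc w v.1 (e i)) := by
    obtain ⟨Θ, hΘ⟩ := exists_gcst_ge fun p : Fin (RR.ell E') × Fin (RR.ell P.E) =>
      [crd P.E (hmem p.1) p.2]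
    obtain ⟨Ξ, hΞ⟩ := exists_gcst_ge fun _ : Fin k' => Δ
    refine ⟨Γ ++ Θ ++ (List.replicate k' Δ).flatten, fun v w => ?_⟩
    have hpos : 0 ≤ nrm w (P.e v.1) * ∏ i, P.dloc w v.1 (e i) :=
      mul_nonneg (nrm_nonneg _ _) (Finset.prod_nonneg fun i _ => P.dloc_nonneg _ _ _)
    simp only
    rw [show nrm w (vec E' v.1) = ⨆ j, w (vec E' v.1 j) from rfl, Real.mul_iSup_of_nonneg (w.nonneg _)]
    refine Real.iSup_le (fun j => ?_) (mul_nonneg (gcst_nonneg _ w) hpos)
    obtain ⟨hv, hvj⟩ := havoid v.1 v.2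
    rw [← map_mul, show ev E v.1 f * vec E' v.1 j = ev P.E v.1 (f * (bas E' j : F)) by
      rw [← hsum, ev_mul (hf.mem v.1) ((bas E' j).2 v.1)]; rfl, ev_eq_dot (hmem j)]
    have hz : IsZeros P.E (lc P.E (crd P.E (hmem j))) (ee j) := by
      rw [lc_crd]; exact hee j
    refine (hΓ ⟨((crd P.E (hmem j), ee j), v.1), hz⟩ w).trans ?_
    simp only
    rw [gcst_append, gcst_append, mul_assoc (gcst Γ w * gcst Θ w), mul_assoc (gcst Γ w)]
    refine mul_le_mul_of_nonneg_left ?_ (gcst_nonneg _ w)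
    rw [hprod j (fun u => P.dloc w v.1 u)]
    have h1 : nrm w (crd P.E (hmem j)) ≤ gcst Θ w := nrm_le (gcst_nonneg _ w) fun i =>
      (le_gcst_of_mem (List.mem_singleton_self _) w).trans (hΘ (j, i) w)
    have h2 : ∏ i, P.dloc w v.1 (ej j i) ≤ gcst (List.replicate k' Δ).flatten w := by
      refine (Finset.prod_le_prod (fun i _ => P.dloc_nonneg _ _ _)
        fun i _ => (hΔ ⟨(v.1, ej j i), (hvj j i).symm⟩ w).trans_eq (mul_one _)).trans (le_of_eq ?_)
      rw [Finset.prod_const, Finset.card_univ, Fintype.card_fin, gcst_flatten_replicate]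
    rw [mul_assoc (nrm w (crd P.E (hmem j)))]
    calc nrm w (crd P.E (hmem j)) * (nrm w (P.e v.1) *
          ((∏ i, P.dloc w v.1 (e i)) * ∏ i, P.dloc w v.1 (ej j i)))
        ≤ gcst Θ w * (nrm w (P.e v.1) *
          ((∏ i, P.dloc w v.1 (e i)) * gcst (List.replicate k' Δ).flatten w)) :=
          mul_le_mul h1 (mul_le_mul_of_nonneg_left (mul_le_mul_of_nonneg_left h2
            (Finset.prod_nonneg fun i _ => P.dloc_nonneg _ _ _)) (nrm_nonneg _ _))
            (mul_nonneg (nrm_nonneg _ _) (mul_nonneg (Finset.prod_nonneg fun i _ => P.dloc_nonneg _ _ _)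
              (Finset.prod_nonneg fun i _ => P.dloc_nonneg _ _ _))) (gcst_nonneg _ w)
      _ = _ := by ring
  obtain ⟨C, hC⟩ := hdom.height
  refine ⟨bad, C, fun v hv => ?_⟩
  have hev : ev E v f ≠ 0 := fun h => by
    obtain ⟨i, hi⟩ := (hf.ev_eq_zero_iff v).mp h
    exact (havoid v hv).1 i hi
  have := hC ⟨v, hv⟩ _ _ ((hasH_abs hev).mul (hasH_nrm (vec_ne_zero hE' v)))
    ((P.hasH_e v).mul (HasH.prod Finset.univ fun i _ => P.hasH_dloc v (e i)))
  rw [zero_add, Finset.sum_neg_distrib] at this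
  linarith

/-- height of a base point free system through one reduced member -/
theorem height_vec (E : Divisor Qb F) (h1 : 2 * (genusFF Qb F : ℤ) ≤ Divisor.degree E)
    (h2 : Divisor.degree E + 2 * (genusFF Qb F : ℤ) ≤ P.n) :
    ∃ (Z : Divisor Qb F) (bad : Finset (Place Qb F)) (C : ℝ),
      Divisor.degree Z = Divisor.degree E ∧ ∀ v, v ∉ bad →
        |ht (vec E v) - Z.sum (fun u a => (a : ℝ) * P.hd v u)| ≤ C := by
  classical
  have hsum : E + (P.E - E) = P.E := add_sub_cancel E P.E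
  have hsum' : (P.E - E) + E = P.E := sub_add_cancel P.E E
  have hdE' : Divisor.degree (P.E - E) = P.n - Divisor.degree E := by
    rw [map_sub, P.degree_E]
  have hE' : 2 * (genusFF Qb F : ℤ) ≤ Divisor.degree (P.E - E) := by omega
  obtain ⟨k, hk⟩ := Int.eq_ofNat_of_zero_le (show 0 ≤ Divisor.degree E by omega)
  obtain ⟨k', hk'⟩ := Int.eq_ofNat_of_zero_le (show 0 ≤ Divisor.degree (P.E - E) by omega)
  have hex : ∀ (D : Divisor Qb F) (m : ℕ), 2 * (genusFF Qb F : ℤ) ≤ Divisor.degree D →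
      Divisor.degree D = m → ∃ (f : F) (e : Fin m → Place Qb F), IsZeros D f e := by
    intro D m hD hm
    obtain ⟨f, hf, hne⟩ := exists_ev_ne hD P.O
    have hf0 : f ≠ 0 := by
      rintro rfl
      exact hne (by rw [ev, mul_zero]; simpa using AJ.val_algebraMap P.O (0 : Qb))
    exact ⟨f, exists_isZeros hf hf0 hm⟩
  obtain ⟨f, e, hf⟩ := hex E k h1 hk
  obtain ⟨f', e', hf'⟩ := hex (P.E - E) k' hE' hk'
  have hn : k + k' = P.n := by omega
  obtain ⟨bad1, C1, hC1⟩ := exists_ht_vec_ge P hsum hE' hk hk' hf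
  obtain ⟨bad2, C2, hC2⟩ := exists_ht_vec_ge P hsum' h1 hk' hk hf'
  obtain ⟨C0, hC0⟩ := exists_ht_add hsum h1 hE' (by have := P.two_g_le; omega)
  obtain ⟨CL, hCL⟩ := height_law P
  obtain ⟨ee, hee, hav, -, hs⟩ := isZeros_mul hsum hn hf hf'
  refine ⟨AJ.sumPts e, bad1 ∪ bad2 ∪ Finset.univ.image e ∪ Finset.univ.image e',
    C0 + |C1| + |C2| + CL + |ht (crd P.E hee.mem)|, ?_, fun v hv => ?_⟩
  · rw [AJ.degree_sumPts, Fintype.card_fin, hk]
  simp only [Finset.mem_union, Finset.mem_image, Finset.mem_univ, true_and, not_or, not_exists] at hv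
  obtain ⟨⟨⟨hv1, hv2⟩, hve⟩, hve'⟩ := hv
  rw [sum_sumPts_hd]
  have hl := hCL (crd P.E hee.mem) ee v (by rw [lc_crd]; exact hee)
    (fun i _ h => absurd h (hav v hve hve' i))
  rw [hs fun u => P.hd v u] at hl
  have a1 := hC1 v hv1
  have a2 := hC2 v hv2
  have a0 := abs_le.mp (hC0 v)
  have al := abs_le.mp hl
  have e1 : ht (vec P.E v) = P.hP v := rfl
  have ha := abs_le.mp (le_refl |ht (crd P.E hee.mem)|)
  have hC00 : 0 ≤ C0 := (abs_nonneg _).trans (hC0 v)
  have hCL0 : 0 ≤ CL := (abs_nonneg _).trans hl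
  rw [abs_le]
  constructor <;> linarith [le_abs_self C1, le_abs_self C2, abs_nonneg C1, abs_nonneg C2]

/-- the height of the tangent line -/
theorem height_tangent : ∃ (Z : Divisor Qb F) (bad : Finset (Place Qb F)) (C : ℝ),
    Divisor.degree Z = 2 * P.n + 2 * (genusFF Qb F : ℤ) - 2 ∧ ∀ v, v ∉ bad →
      |ht (P.del v v) - Z.sum (fun u a => (a : ℝ) * P.hd v u)| ≤ C := by
  classical
  obtain ⟨x, hx, -⟩ := RR.FnField.exists_transcendental (K := Qb) (F := F)
  set g : ℤ := (genusFF Qb F : ℤ) with hg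
  have hg0 : 0 ≤ g := Int.natCast_nonneg _
  have hnn := P.hn
  set Kx : Divisor Qb F := RR.Kd hx with hKx
  have hdK : Divisor.degree Kx = 2 * g - 2 := by
    rw [hKx, RR.degree_Kd, hg, RR.genusFF_eq hx]
  set E2 : Divisor Qb F := P.E + P.E + Kx with hE2
  have hdE2 : Divisor.degree E2 = 2 * P.n + 2 * g - 2 := by
    rw [hE2, map_add, map_add, P.degree_E, hdK]; ring
  -- the Plücker coordinates of the tangent line as sections of `E2`
  let fp : Fin (RR.ell P.E) × Fin (RR.ell P.E) → F := fun p =>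
    (bas P.E p.1 : F) * RR.der hx (bas P.E p.2 : F) - (bas P.E p.2 : F) * RR.der hx (bas P.E p.1 : F)
  have key : ∀ v, ∃ u : Qb, u ≠ 0 ∧ ∀ p, Bd v (fp p) (E2 v) ∧
      ev E2 v (fp p) = u * P.del v v p := by
    intro v
    set t := unif v with ht'
    have ht1 : v.ord t = 1 := ord_unif v
    have ht0 : t ≠ 0 := unif_ne v
    have htt : Transcendental Qb t :=
      RR.transcendental_of_ord_ne_zero (x := t) (v := v) (by omega)
    set s : F := RR.der hx t with hs
    have hmul : RR.der htt x * s = 1 := by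
      rw [hs, ← RR.der_chain hx htt x, RR.der_self]
    have hs0 : s ≠ 0 := right_ne_zero_of_mul_eq_one hmul
    have hords : v.ord s = -(Kx v) := by
      obtain ⟨t₀, ht₀, hd₀⟩ := RR.exists_dCoord v
      have htt₀ := RR.transcendental_of_ord_ne_zero (x := t₀) (v := v) (by omega)
      obtain ⟨h1, h2⟩ := RR.ordDifferential_D_eq hx v
      rw [RR.differentialCoeff_eq hd₀ htt₀] at h1
      unfold Place.ordDifferential at h2
      rw [RR.differentialCoeff_eq hd₀ htt₀] at h2
      have ht₀0 : t₀ ≠ 0 := fun h => by simp [h] at ht₀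
      obtain ⟨h3, h4⟩ := RR.ord_der v ht1 htt 1 le_rfl ht₀0 ht₀
      have e : RR.der htt x = RR.der htt₀ x * RR.der htt t₀ := RR.der_chain htt htt₀ x
      have h5 := congrArg v.ord hmul
      rw [e, v.ord_mul (mul_ne_zero h1 h3) hs0, v.ord_mul h1 h3, h2, h4,
        show (1 : F) = algebraMap Qb F 1 from (map_one _).symm, RR.ord_algebraMap] at h5
      rw [hKx, RR.Kd_apply]
      omega
    set T : F := t ^ P.E v with hT
    let G : Fin (RR.ell P.E) → F := fun i => T * (bas P.E i : F)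
    let γ : Fin (RR.ell P.E) → F := fun i => (G i - algebraMap Qb F (P.e v i)) / t
    have hGb : ∀ i, Bd v (G i) 0 := fun i => bd_unif_mul.mpr (by rw [zero_add]; exact bd_of_mem (bas P.E i).2)
    have hGv : ∀ i, AJ.val v (G i) = P.e v i := fun i => rfl
    have hγ : ∀ i, Bd v (γ i) 0 := fun i => P.bd_tang v i
    have hγv : ∀ i, AJ.val v (γ i) = P.tang v i := fun i => rfl
    have htb : Bd v t (-1) := (RR.bd_iff_ord ht0).mpr (by omega)
    have hdG : ∀ i, Bd v (RR.der htt (G i)) 0 ∧ AJ.val v (RR.der htt (G i)) = P.tang v i := by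
      intro i
      have e : G i = algebraMap Qb F (P.e v i) + t * γ i := by
        simp only [γ]; field_simp; ring
      have e' : RR.der htt (G i) = γ i + t * RR.der htt (γ i) := by
        rw [e, RR.der_add, RR.der_const, RR.der_mul, RR.der_self, zero_add, mul_one]; ring
      have hd := RR.der_regular v ht1 (γ i) (hγ i)
      have hz : Bd v (t * RR.der htt (γ i)) (-1) := (htb.mul hd).mono (by norm_num)
      refine ⟨e' ▸ (hγ i).add (hz.mono (by norm_num)), ?_⟩
      rw [e', AJ.val_add (hγ i) (hz.mono (by norm_num)), hγv,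
        (AJ.val_eq_zero_iff (hz.mono (by norm_num))).mpr hz, add_zero]
    let H : Fin (RR.ell P.E) × Fin (RR.ell P.E) → F := fun p =>
      G p.1 * RR.der htt (G p.2) - G p.2 * RR.der htt (G p.1)
    have hHb : ∀ p, Bd v (H p) 0 := fun p =>
      ((hGb p.1).mul (hdG p.2).1).sub ((hGb p.2).mul (hdG p.1).1) |>.mono (by norm_num)
    have hHv : ∀ p, AJ.val v (H p) = P.del v v p := fun p => by
      have h1 : Bd v (G p.1 * RR.der htt (G p.2)) 0 := ((hGb p.1).mul (hdG p.2).1).mono (by norm_num)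
      have h2 : Bd v (algebraMap Qb F (-1) * (G p.2 * RR.der htt (G p.1))) 0 :=
        ((RR.Bd.of_algebraMap _).mul ((hGb p.2).mul (hdG p.1).1)).mono (by norm_num)
      rw [show H p = G p.1 * RR.der htt (G p.2) +
          algebraMap Qb F (-1) * (G p.2 * RR.der htt (G p.1)) by simp [H]; ring,
        AJ.val_add h1 h2, AJ.val_mul (hGb p.1) (hdG p.2).1,
        AJ.val_mul (RR.Bd.of_algebraMap _) (((hGb p.2).mul (hdG p.1).1).mono (by norm_num)),
        AJ.val_mul (hGb p.2) (hdG p.1).1, AJ.val_algebraMap, hGv, hGv, (hdG p.1).2, (hdG p.2).2,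
        P.del_self, wedge]
      ring
    set w₀ : F := t ^ Kx v * s with hw₀
    have hw₀0 : w₀ ≠ 0 := mul_ne_zero (zpow_ne_zero _ ht0) hs0
    have hw₀ord : v.ord w₀ = 0 := by
      rw [hw₀, v.ord_mul (zpow_ne_zero _ ht0) hs0, ord_unif_zpow, hords, add_neg_cancel]
    have hw₀b : Bd v w₀ 0 := (RR.bd_iff_ord hw₀0).mpr (by omega)
    refine ⟨AJ.val v w₀, fun h => ?_, fun p => ?_⟩
    · have := (AJ.val_eq_zero_iff hw₀b).mp h
      rw [RR.bd_iff_ord hw₀0] at this
      omega
    have e : t ^ E2 v * fp p = H p * w₀ := by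
      rw [hE2, Finsupp.add_apply, Finsupp.add_apply, zpow_add₀ ht0, zpow_add₀ ht0, hw₀]
      simp only [fp, H, RR.der_chain hx htt (bas P.E _ : F), G, RR.der_mul]
      rw [← hT, ← hs]
      ring
    have hb : Bd v (t ^ E2 v * fp p) 0 := e ▸ ((hHb p).mul hw₀b).mono (by norm_num)
    refine ⟨by simpa using bd_unif_mul.mp hb, ?_⟩
    rw [ev, e, AJ.val_mul (hHb p) hw₀b, hHv, mul_comm]
  have hmem : ∀ p, fp p ∈ riemannRochSpace E2 := fun p => AJ.mem_rrSpace.mpr fun v => by
    obtain ⟨u, -, hu⟩ := key v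
    exact (hu p).1
  let A : Matrix (Fin (RR.ell P.E) × Fin (RR.ell P.E)) (Fin (RR.ell E2)) Qb :=
    Matrix.of fun p => crd E2 (hmem p)
  have hAv : ∀ v, ∃ u : Qb, u ≠ 0 ∧ A.mulVec (vec E2 v) = u • P.del v v := fun v => by
    obtain ⟨u, hu0, hu⟩ := key v
    refine ⟨u, hu0, funext fun p => ?_⟩
    show ∑ k, crd E2 (hmem p) k * vec E2 v k = _
    rw [← ev_eq_dot (hmem p), (hu p).2]
    rfl
  obtain ⟨CA, hCA⟩ := exists_ht_image (E := E2) (by omega) A fun v => by
    obtain ⟨u, hu0, hu⟩ := hAv v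
    rw [hu]
    exact smul_ne_zero hu0 (P.del_ne v v)
  -- additivity
  set J : Divisor Qb F := Finsupp.single P.O (2 * g + 2) with hJ
  set K' : Divisor Qb F := Kx + J with hK'
  have hdJ : Divisor.degree J = 2 * g + 2 := by rw [hJ, degree_single_int]
  have hdK' : Divisor.degree K' = 4 * g := by rw [hK', map_add, hdK, hdJ]; ring
  have hn' : (6 * g + 2 : ℤ) ≤ P.n := by rw [hg]; exact_mod_cast hnn
  obtain ⟨C3, hC3⟩ := exists_ht_add (E := E2) (E' := J) (D := P.E + (P.E + K'))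
    (by rw [hE2, hK']; abel) (by omega) (by omega)
    (by rw [map_add, map_add, P.degree_E, hdK']; omega)
  obtain ⟨C4, hC4⟩ := exists_ht_add (E := P.E) (E' := P.E + K') (D := P.E + (P.E + K')) rfl
    (by rw [P.degree_E]; omega) (by rw [map_add, P.degree_E, hdK']; omega)
    (by rw [map_add, map_add, P.degree_E, hdK']; omega)
  obtain ⟨C5, hC5⟩ := exists_ht_add (E := P.E) (E' := K') (D := P.E + K') rfl
    (by rw [P.degree_E]; omega) (by omega) (by rw [map_add, P.degree_E, hdK']; omega)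
  obtain ⟨ZK, bK, CK, hZK, hCK⟩ := height_vec P K' (by omega) (by omega)
  obtain ⟨ZJ, bJ, CJ, hZJ, hCJ⟩ := height_vec P J (by omega) (by omega)
  obtain ⟨CB, hCB⟩ := height_base P
  refine ⟨Finsupp.single P.O (2 * (P.n : ℤ)) + ZK - ZJ, bK ∪ bJ ∪ {P.O},
    CA + C3 + C4 + C5 + CK + CJ + 2 * CB, ?_, fun v hv => ?_⟩
  · rw [map_sub, map_add, degree_single_int, hZK, hZJ, hdK', hdJ]; ring
  simp only [Finset.mem_union, Finset.mem_singleton, not_or] at hv
  obtain ⟨u, hu0, hu⟩ := hAv v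
  have hA' := abs_le.mp (hCA v)
  rw [hu, ht_smul _ hu0] at hA'
  rw [sub_eq_add_neg (Finsupp.single P.O _ + ZK),
    Finsupp.sum_add_index' (by simp) (by intros; push_cast; ring),
    Finsupp.sum_add_index' (by simp) (by intros; push_cast; ring),
    Finsupp.sum_single_index (by simp), Finsupp.sum_neg_index (by simp)]
  simp only [Int.cast_neg, neg_mul, Finsupp.sum, Finset.sum_neg_distrib]
  have h3 := abs_le.mp (hC3 v)
  have h4 := abs_le.mp (hC4 v)
  have h5 := abs_le.mp (hC5 v)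
  have hK := abs_le.mp (hCK v hv.1.1)
  have hJ' := abs_le.mp (hCJ v hv.1.2)
  have hB := abs_le.mp (hCB v hv.2)
  simp only [Finsupp.sum] at hK hJ'
  have e1 : ht (vec P.E v) = P.hP v := rfl
  rw [abs_le]
  push_cast
  constructor <;> linarith

end FLTAgent.MW
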