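import Fermat.Agent.MW.HeightSum

/-!
Heights on `ℚ̄`: the calculus of `Dom`, absolute logarithmic height of tuples, passage from local
domination to height inequalities, Northcott.
-/

set_option autoImplicit false

noncomputable section

open NumberField Module Real IntermediateField Polynomial

namespace FLTAgent.MW

attribute [local instance] numberField_intermediate isAlgebraic_intermediate

theorem isAlgebraic_Qb : Algebra.IsAlgebraic ℚ Qb := AlgebraicClosure.isAlgebraic ℚ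

attribute [local instance] isAlgebraic_Qb

variable {X Y : Type*} {ι κ : Type*} [Fintype ι] [Fintype κ]

/-! ### Norms and constants -/

theorem Pl.nonneg (w : Pl) (a : Qb) : 0 ≤ w a := w.1.nonneg a

theorem le_nrm (w : Pl) (a : ι → Qb) (i : ι) : w (a i) ≤ nrm w a :=
  le_ciSup (f := fun i => w (a i)) (Set.finite_range _).bddAbove i

theorem nrm_le {w : Pl} {a : ι → Qb} {B : ℝ} (hB : 0 ≤ B) (h : ∀ i, w (a i) ≤ B) : nrm w a ≤ B :=
  Real.iSup_le h hB

theorem nrm_nonneg (w : Pl) (a : ι → Qb) : 0 ≤ nrm w a :=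
  Real.iSup_nonneg fun _ => w.nonneg _

theorem nrm_pos (w : Pl) {a : ι → Qb} (ha : a ≠ 0) : 0 < nrm w a := by
  obtain ⟨i, hi⟩ := Function.ne_iff.mp ha
  exact lt_of_lt_of_le (w.1.pos hi) (le_nrm w a i)

theorem nrm_smul (w : Pl) (c : Qb) (a : ι → Qb) : nrm w (c • a) = w c * nrm w a := by
  simp only [nrm, Pi.smul_apply, smul_eq_mul, map_mul]
  exact (Real.mul_iSup_of_nonneg (w.nonneg c) _).symm

theorem nrm_tensor (w : Pl) (a : ι → Qb) (b : κ → Qb) :
    nrm w (fun p : ι × κ => a p.1 * b p.2) = nrm w a * nrm w b := by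
  refine le_antisymm (nrm_le (mul_nonneg (nrm_nonneg w a) (nrm_nonneg w b)) fun p => ?_) ?_
  · rw [map_mul]
    exact mul_le_mul (le_nrm w a _) (le_nrm w b _) (w.nonneg _) (nrm_nonneg w a)
  · rw [nrm, Real.iSup_mul_of_nonneg (nrm_nonneg w b)]
    refine Real.iSup_le (fun i => ?_) (nrm_nonneg _ _)
    rw [nrm, Real.mul_iSup_of_nonneg (w.nonneg _)]
    refine Real.iSup_le (fun k => ?_) (nrm_nonneg _ _)
    rw [← map_mul]
    exact le_nrm w (fun p : ι × κ => a p.1 * b p.2) (i, k)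

theorem nrm_pi_tensor {β : Type*} [Fintype β] [DecidableEq β] {μ : β → Type*} [∀ b, Fintype (μ b)]
    (w : Pl) (a : ∀ b, μ b → Qb) :
    nrm w (fun p : (∀ b, μ b) => ∏ b, a b (p b)) = ∏ b, nrm w (a b) := by
  refine le_antisymm (nrm_le (Finset.prod_nonneg fun b _ => nrm_nonneg _ _) fun p => ?_) ?_
  · rw [map_prod]
    exact Finset.prod_le_prod (fun b _ => w.nonneg _) fun b _ => le_nrm w _ _
  · by_cases h : ∀ b, Nonempty (μ b)
    · choose p hp using fun b => (haveI := h b; exists_eq_ciSup_of_finite (f := fun i => w (a b i)))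
      refine le_of_eq_of_le ?_ (le_nrm w (fun p : (∀ b, μ b) => ∏ b, a b (p b)) p)
      rw [map_prod]
      exact Finset.prod_congr rfl fun b _ => (hp b).symm
    · push Not at h
      obtain ⟨b, hb⟩ := h
      rw [Finset.prod_eq_zero (Finset.mem_univ b) (by simp [nrm])]
      exact nrm_nonneg _ _

theorem one_le_gcst (Γ : List Qb) (w : Pl) : 1 ≤ gcst Γ w :=
  List.rec (by simp [gcst]) (fun c Γ ih => by
    simpa [gcst] using one_le_mul_of_one_le_of_one_le (le_max_left 1 (w c)) ih) Γ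

theorem gcst_nonneg (Γ : List Qb) (w : Pl) : 0 ≤ gcst Γ w := zero_le_one.trans (one_le_gcst Γ w)

theorem gcst_append (Γ Γ' : List Qb) (w : Pl) : gcst (Γ ++ Γ') w = gcst Γ w * gcst Γ' w := by
  simp [gcst]

theorem gcst_le_append_left (Γ Γ' : List Qb) (w : Pl) : gcst Γ w ≤ gcst (Γ ++ Γ') w := by
  rw [gcst_append]
  exact le_mul_of_one_le_right (gcst_nonneg Γ w) (one_le_gcst Γ' w)

theorem gcst_le_append_right (Γ Γ' : List Qb) (w : Pl) : gcst Γ' w ≤ gcst (Γ ++ Γ') w := by
  rw [gcst_append]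
  exact le_mul_of_one_le_left (gcst_nonneg Γ' w) (one_le_gcst Γ w)

theorem le_gcst_of_mem {Γ : List Qb} {c : Qb} (hc : c ∈ Γ) (w : Pl) : w c ≤ gcst Γ w := by
  obtain ⟨l, l', rfl⟩ := List.append_of_mem hc
  refine le_trans ?_ (gcst_le_append_right l _ w)
  refine le_trans (le_max_right 1 (w c)) ?_
  simp only [gcst, List.map_cons, List.prod_cons]
  exact le_mul_of_one_le_right (zero_le_one.trans (le_max_left _ _)) (one_le_gcst l' w)

/-! ### The calculus of `Dom` -/

theorem Dom.of_le {f g : X → Pl → ℝ} (h : ∀ x w, f x w ≤ g x w) : Dom f g :=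
  ⟨[], fun x w => by simpa [gcst] using h x w⟩

theorem Dom.trans {f g k : X → Pl → ℝ} (h : Dom f g) (h' : Dom g k) : Dom f k := by
  obtain ⟨Γ, hΓ⟩ := h
  obtain ⟨Δ, hΔ⟩ := h'
  refine ⟨Γ ++ Δ, fun x w => (hΓ x w).trans ?_⟩
  rw [gcst_append, mul_assoc]
  exact mul_le_mul_of_nonneg_left (hΔ x w) (gcst_nonneg Γ w)

theorem Dom.mul {f g f' g' : X → Pl → ℝ} (h : Dom f g) (h' : Dom f' g')
    (hf' : ∀ x w, 0 ≤ f' x w) (hg : ∀ x w, 0 ≤ g x w) :
    Dom (fun x w => f x w * f' x w) (fun x w => g x w * g' x w) := by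
  obtain ⟨Γ, hΓ⟩ := h
  obtain ⟨Δ, hΔ⟩ := h'
  refine ⟨Γ ++ Δ, fun x w => ?_⟩
  refine (mul_le_mul (hΓ x w) (hΔ x w) (hf' x w)
    (mul_nonneg (gcst_nonneg Γ w) (hg x w))).trans (le_of_eq ?_)
  rw [gcst_append]
  ring

theorem Dom.pow {f g : X → Pl → ℝ} (h : Dom f g) (hf : ∀ x w, 0 ≤ f x w) (n : ℕ) :
    Dom (fun x w => f x w ^ n) (fun x w => g x w ^ n) := by
  obtain ⟨Γ, hΓ⟩ := h
  refine ⟨(List.replicate n Γ).flatten, fun x w => ?_⟩
  refine (pow_le_pow_left₀ (hf x w) (hΓ x w) n).trans (le_of_eq ?_)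
  rw [mul_pow]
  congr 1
  clear hΓ
  induction n with
  | zero => simp [gcst]
  | succ n ih => rw [List.replicate_succ, List.flatten_cons, gcst_append, ← ih, pow_succ']

theorem Dom.prod {α : Type*} (s : Finset α) {f g : α → X → Pl → ℝ} (h : ∀ a ∈ s, Dom (f a) (g a))
    (hf : ∀ a ∈ s, ∀ x w, 0 ≤ f a x w) :
    Dom (fun x w => ∏ a ∈ s, f a x w) (fun x w => ∏ a ∈ s, g a x w) := by
  classical
  choose! Γ hΓ using h
  refine ⟨(s.toList.map Γ).flatten, fun x w => ?_⟩
  refine (Finset.prod_le_prod (hf · · x w) fun a ha => hΓ a ha x w).trans (le_of_eq ?_)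
  rw [Finset.prod_mul_distrib, ← Finset.prod_map_toList s fun a => gcst (Γ a) w]
  congr 1
  induction s.toList with
  | nil => simp [gcst]
  | cons a l ih => simp [gcst_append, ih]

theorem Dom.comp {f g : X → Pl → ℝ} (h : Dom f g) (φ : Y → X) :
    Dom (fun y => f (φ y)) (fun y => g (φ y)) := by
  obtain ⟨Γ, hΓ⟩ := h
  exact ⟨Γ, fun y => hΓ (φ y)⟩

theorem Dom.const_mul {f : X → Pl → ℝ} (hf : ∀ x w, 0 ≤ f x w) (c : Qb) :
    Dom (fun x w => w c * f x w) f :=
  ⟨[c], fun x w => mul_le_mul_of_nonneg_right (le_gcst_of_mem (by simp) w) (hf x w)⟩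

theorem Dom.const_mul_rev {f : X → Pl → ℝ} (hf : ∀ x w, 0 ≤ f x w) {c : Qb} (hc : c ≠ 0) :
    Dom f (fun x w => w c * f x w) := by
  refine ⟨[c⁻¹], fun x w => ?_⟩
  calc f x w = w c⁻¹ * (w c * f x w) := by
        rw [← mul_assoc, ← map_mul, inv_mul_cancel₀ hc, map_one, one_mul]
    _ ≤ _ := mul_le_mul_of_nonneg_right (le_gcst_of_mem (by simp) w)
        (mul_nonneg (w.nonneg c) (hf x w))

theorem Dom.iSup {α : Type*} [Fintype α] {f : α → X → Pl → ℝ} {g : X → Pl → ℝ}
    (h : ∀ a, Dom (f a) g) (hg : ∀ x w, 0 ≤ g x w) : Dom (fun x w => ⨆ a, f a x w) g := by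
  classical
  choose Γ hΓ using h
  refine ⟨(Finset.univ.toList.map Γ).flatten, fun x w =>
    Real.iSup_le (fun a => (hΓ a x w).trans ?_) (mul_nonneg (gcst_nonneg _ w) (hg x w))⟩
  refine mul_le_mul_of_nonneg_right ?_ (hg x w)
  obtain ⟨l, l', hl⟩ := List.append_of_mem (List.mem_map.mpr
    ⟨a, Finset.mem_toList.mpr (Finset.mem_univ a), rfl⟩ : Γ a ∈ Finset.univ.toList.map Γ)
  rw [hl, List.flatten_append, List.flatten_cons]
  exact (gcst_le_append_left _ _ w).trans (gcst_le_append_right _ _ w)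

theorem sum_le_natCast_mul {ι : Type*} (w : Pl) (s : Finset ι) (b : ι → Qb) {B : ℝ} (hB : 0 ≤ B)
    (h : ∀ i ∈ s, w (b i) ≤ B) : w (∑ i ∈ s, b i) ≤ max 1 (w (s.card : Qb)) * B := by
  rcases w.2 with hna | harch
  · refine le_trans ?_ (le_mul_of_one_le_left hB (le_max_left _ _))
    induction s using Finset.cons_induction with
    | empty => simpa using hB
    | cons a s ha ih =>
      rw [Finset.sum_cons]
      exact (hna _ _).trans (max_le (h a (Finset.mem_cons_self a s))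
        (ih fun i hi => h i (Finset.mem_cons_of_mem hi)))
  · refine (w.1.sum_le s b).trans ((Finset.sum_le_card_nsmul s _ B h).trans ?_)
    rw [nsmul_eq_mul, harch s.card]
    exact mul_le_mul_of_nonneg_right (le_max_right _ _) hB

theorem dom_sum : Dom (fun (a : ι → Qb) w => w (∑ i, a i)) (fun a w => nrm w a) :=
  ⟨[((Finset.univ : Finset ι).card : Qb)], fun a w => by
    simpa [gcst] using sum_le_natCast_mul w Finset.univ a (nrm_nonneg w a) fun i _ => le_nrm w a i⟩

theorem dom_dot : Dom (fun (a : (ι → Qb) × (ι → Qb)) w => w (∑ i, a.1 i * a.2 i))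
    (fun a w => nrm w a.1 * nrm w a.2) :=
  ⟨[((Finset.univ : Finset ι).card : Qb)], fun a w => by
    simpa [gcst] using sum_le_natCast_mul w Finset.univ (fun i => a.1 i * a.2 i)
      (mul_nonneg (nrm_nonneg w a.1) (nrm_nonneg w a.2)) fun i _ => by
        rw [map_mul]
        exact mul_le_mul (le_nrm w _ i) (le_nrm w _ i) (w.nonneg _) (nrm_nonneg _ _)⟩

theorem dom_linear (A : Matrix κ ι Qb) :
    Dom (fun (a : ι → Qb) w => nrm w (A.mulVec a)) (fun a w => nrm w a) := by
  classical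
  refine ⟨[((Finset.univ : Finset ι).card : Qb)] ++
    (Finset.univ : Finset (κ × ι)).toList.map (fun p => A p.1 p.2), fun a w => ?_⟩
  refine nrm_le (mul_nonneg (gcst_nonneg _ w) (nrm_nonneg w a)) fun k => ?_
  rw [gcst_append, mul_assoc]
  set Γ := (Finset.univ : Finset (κ × ι)).toList.map fun p => A p.1 p.2
  refine (sum_le_natCast_mul w Finset.univ (fun i => A k i * a i) (B := gcst Γ w * nrm w a)
    (mul_nonneg (gcst_nonneg _ w) (nrm_nonneg w a)) fun i _ => ?_).trans (le_of_eq (by simp [gcst]))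
  rw [map_mul]
  exact mul_le_mul (le_gcst_of_mem (List.mem_map_of_mem (f := fun p : κ × ι => A p.1 p.2)
    (Finset.mem_toList.mpr (Finset.mem_univ (k, i)))) w) (le_nrm w a i) (w.nonneg _)
    (gcst_nonneg _ _)

/-! ### Global quantities -/

/-- `f` is the family of local terms of the global quantity `r` -/
def HasH (f : Pl → ℝ) (r : ℝ) : Prop :=
  (∀ w, 0 < f w) ∧ ∃ L₀ : IntermediateField ℚ Qb, FiniteDimensional ℚ L₀ ∧
    ∀ (L : IntermediateField ℚ Qb) [FiniteDimensional ℚ L], L₀ ≤ L →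
      FS L f ∧ S L f = r * finrank ℚ L

theorem S_mul (L : IntermediateField ℚ Qb) [FiniteDimensional ℚ L] {f g : Pl → ℝ}
    (hf : ∀ w, 0 < f w) (hg : ∀ w, 0 < g w) (hfs : FS L f) (hgs : FS L g) :
    FS L (fun w => f w * g w) ∧ S L (fun w => f w * g w) = S L f + S L g := by
  have h : ∀ w, log (f w * g w) = log (f w) + log (g w) := fun w =>
    log_mul (hf w).ne' (hg w).ne'
  refine ⟨(hfs.union hgs).subset ?_, ?_⟩
  · simp only [h]
    exact Function.support_add _ _
  · simp only [S, h, Finset.sum_add_distrib]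
    rw [finsum_add_distrib hfs hgs]
    ring

theorem S_inv (L : IntermediateField ℚ Qb) [FiniteDimensional ℚ L] {f : Pl → ℝ} (hfs : FS L f) :
    FS L (fun w => (f w)⁻¹) ∧ S L (fun w => (f w)⁻¹) = -S L f := by
  refine ⟨by simpa [FS, log_inv, Function.support_neg] using hfs, ?_⟩
  simp only [S, log_inv, Finset.sum_neg_distrib, finsum_neg_distrib]
  ring

theorem HasH.pos {f : Pl → ℝ} {r : ℝ} (h : HasH f r) (w : Pl) : 0 < f w := h.1 w

theorem HasH.common {f g : Pl → ℝ} {r s : ℝ} (h : HasH f r) (h' : HasH g s) :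
    ∃ L₀ : IntermediateField ℚ Qb, FiniteDimensional ℚ L₀ ∧
      ∀ (L : IntermediateField ℚ Qb) [FiniteDimensional ℚ L], L₀ ≤ L →
        (FS L f ∧ S L f = r * finrank ℚ L) ∧ FS L g ∧ S L g = s * finrank ℚ L := by
  obtain ⟨-, L₁, h₁, hL₁⟩ := h
  obtain ⟨-, L₂, h₂, hL₂⟩ := h'
  exact ⟨L₁ ⊔ L₂, inferInstance, fun L _ hL =>
    ⟨hL₁ L (le_sup_left.trans hL), hL₂ L (le_sup_right.trans hL)⟩⟩

theorem hasH_one : HasH (fun _ => 1) 0 :=
  ⟨fun _ => one_pos, ⊥, inferInstance, fun L _ _ => by simp [FS, S]⟩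

theorem HasH.mul {f g : Pl → ℝ} {r s : ℝ} (h : HasH f r) (h' : HasH g s) :
    HasH (fun w => f w * g w) (r + s) := by
  obtain ⟨L₀, hfd, hL₀⟩ := h.common h'
  refine ⟨fun w => mul_pos (h.pos w) (h'.pos w), L₀, hfd, fun L _ hL => ?_⟩
  obtain ⟨⟨hf, hfr⟩, hg, hgs⟩ := hL₀ L hL
  obtain ⟨h1, h2⟩ := S_mul L h.pos h'.pos hf hg
  exact ⟨h1, by rw [h2, hfr, hgs, add_mul]⟩

theorem HasH.inv {f : Pl → ℝ} {r : ℝ} (h : HasH f r) : HasH (fun w => (f w)⁻¹) (-r) := by
  obtain ⟨hp, L₀, hfd, hL₀⟩ := h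
  refine ⟨fun w => inv_pos.mpr (hp w), L₀, hfd, fun L _ hL => ?_⟩
  obtain ⟨hf, hfr⟩ := hL₀ L hL
  obtain ⟨h1, h2⟩ := S_inv L hf
  exact ⟨h1, by rw [h2, hfr, neg_mul]⟩

theorem HasH.div {f g : Pl → ℝ} {r s : ℝ} (h : HasH f r) (h' : HasH g s) :
    HasH (fun w => f w / g w) (r - s) := by
  simpa [div_eq_mul_inv, sub_eq_add_neg] using h.mul h'.inv

theorem HasH.pow {f : Pl → ℝ} {r : ℝ} (h : HasH f r) (n : ℕ) :
    HasH (fun w => f w ^ n) (n * r) := by
  induction n with
  | zero => simpa using hasH_one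
  | succ n ih => simpa [pow_succ, add_mul] using ih.mul h

theorem HasH.prod {α : Type*} (s : Finset α) {f : α → Pl → ℝ} {r : α → ℝ}
    (h : ∀ a ∈ s, HasH (f a) (r a)) : HasH (fun w => ∏ a ∈ s, f a w) (∑ a ∈ s, r a) := by
  induction s using Finset.cons_induction with
  | empty => simpa using hasH_one
  | cons a s ha ih =>
    simp only [Finset.prod_cons, Finset.sum_cons]
    exact (h a (Finset.mem_cons_self a s)).mul (ih fun b hb => h b (Finset.mem_cons_of_mem hb))

theorem finrank_pos' (L : IntermediateField ℚ Qb) [FiniteDimensional ℚ L] :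
    (0 : ℝ) < finrank ℚ L := Nat.cast_pos.mpr Module.finrank_pos

theorem HasH.le {f g : Pl → ℝ} {r s : ℝ} (h : HasH f r) (h' : HasH g s) (hle : ∀ w, f w ≤ g w) :
    r ≤ s := by
  obtain ⟨L₀, hfd, hL₀⟩ := h.common h'
  obtain ⟨⟨hf, hfr⟩, hg, hgs⟩ := hL₀ L₀ le_rfl
  have : S L₀ f ≤ S L₀ g := by
    refine add_le_add (Finset.sum_le_sum fun φ _ => log_le_log (h.pos _) (hle _)) ?_
    classical
    rw [finsum_eq_sum_of_support_subset _ (s := hf.toFinset ∪ hg.toFinset)
        (fun P hP => Finset.mem_union_left _ (hf.mem_toFinset.mpr hP)),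
      finsum_eq_sum_of_support_subset _ (s := hf.toFinset ∪ hg.toFinset)
        (fun P hP => Finset.mem_union_right _ (hg.mem_toFinset.mpr hP))]
    exact Finset.sum_le_sum fun P _ => log_le_log (h.pos _) (hle _)
  rw [hfr, hgs] at this
  exact le_of_mul_le_mul_right this (finrank_pos' L₀)

theorem HasH.unique {f : Pl → ℝ} {r s : ℝ} (h : HasH f r) (h' : HasH f s) : r = s :=
  le_antisymm (h.le h' fun _ => le_rfl) (h'.le h fun _ => le_rfl)

theorem hasH_abs {c : Qb} (hc : c ≠ 0) : HasH (fun w => w c) 0 := by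
  refine ⟨fun w => w.1.pos hc, adjoin ℚ {c},
    adjoin.finiteDimensional ((Algebra.IsAlgebraic.isAlgebraic c).isIntegral), fun L _ hL => ?_⟩
  set y : L := ⟨c, hL (mem_adjoin_simple_self ℚ c)⟩
  have hy : y ≠ 0 := fun h => hc (congrArg Subtype.val h)
  have hP : ∀ P : FinitePlace L, extF P c = P y := fun P => extF_apply P y
  have hφ : ∀ φ : L →+* ℂ, extI φ c = ‖φ y‖ := fun φ => extI_apply φ y
  refine ⟨(FinitePlace.hasFiniteMulSupport hy).subset fun P hP' => ?_, ?_⟩
  · simp only [Function.mem_mulSupport]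
    intro h1
    exact hP' (by simp [hP, h1])
  · have hprod := NumberField.prod_abs_eq_one hy
    rw [zero_mul]
    simp only [S, hP, hφ]
    rw [← log_finprod (fun P : FinitePlace L => FinitePlace.pos_iff.mpr hy), ← log_prod
      (fun φ _ => norm_ne_zero_iff.mpr ((map_ne_zero φ).mpr hy)), ← log_mul, ← log_one]
    · congr 1
      rw [← hprod]
      congr 1
      classical
      rw [← Finset.prod_fiberwise Finset.univ InfinitePlace.mk fun φ : L →+* ℂ => ‖φ y‖]
      refine Finset.prod_congr rfl fun v _ => ?_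
      rw [Finset.prod_congr rfl fun φ hφ' => show ‖φ y‖ = v y by
        rw [← (Finset.mem_filter.mp hφ').2, InfinitePlace.apply], Finset.prod_const,
        InfinitePlace.card_filter_mk_eq]
    · exact Finset.prod_ne_zero_iff.mpr fun φ _ => norm_ne_zero_iff.mpr ((map_ne_zero φ).mpr hy)
    · intro h0
      rw [h0, mul_zero] at hprod
      exact zero_ne_one hprod

theorem exists_integral {a : ι → Qb} : ∃ c : Qb, c ≠ 0 ∧ ∀ i, IsIntegral ℤ (c * a i) := by
  classical
  choose y hy0 hy using fun i => IsAlgebraic.exists_integral_multiple (R := ℤ)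
    ((IsFractionRing.isAlgebraic_iff ℤ ℚ Qb).mpr (Algebra.IsAlgebraic.isAlgebraic (a i)))
  refine ⟨((∏ i, y i : ℤ) : Qb), Int.cast_ne_zero.mpr (Finset.prod_ne_zero_iff.mpr fun i _ => hy0 i),
    fun i => ?_⟩
  rw [← Finset.mul_prod_erase Finset.univ y (Finset.mem_univ i), Int.cast_mul, mul_comm (y i : Qb),
    mul_assoc]
  have hi := hy i
  rw [zsmul_eq_mul] at hi
  exact (isIntegral_algebraMap (x := ∏ j ∈ Finset.univ.erase i, y j)).mul hi

/-- the formula for the height of an integral tuple of a number field -/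
theorem hasH_integral {K : Type} [Field K] [NumberField K] [Algebra K Qb] {a : ι → 𝓞 K}
    (ha : a ≠ 0) :
    HasH (fun w => nrm w fun i => algebraMap K Qb (a i)) (FK a / finrank ℚ K) := by
  refine ⟨fun w => nrm_pos w fun h => ha (funext fun i => RingOfIntegers.coe_injective
    ((algebraMap K Qb).injective (by simpa using congrFun h i))),
    (IsScalarTower.toAlgHom ℚ K Qb).fieldRange, ?_, fun L _ hL => ?_⟩
  · exact (AlgEquiv.ofInjectiveField (IsScalarTower.toAlgHom ℚ K Qb)).toLinearEquiv.finiteDimensional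
  · let j : K →+* L := RingHom.codRestrict (algebraMap K Qb) L.toSubring fun x => hL ⟨x, rfl⟩
    obtain ⟨h1, h2⟩ := S_integral L j a ha
    refine ⟨h1, ?_⟩
    rw [div_mul_eq_mul_div, eq_div_iff (Nat.cast_ne_zero.mpr Module.finrank_pos.ne'), mul_comm,
      mul_comm (FK a)]
    exact h2

theorem exists_hasH {a : ι → Qb} (ha : a ≠ 0) : ∃ r, HasH (fun w => nrm w a) r := by
  obtain ⟨c, hc, hint⟩ := exists_integral (a := a)
  let K : IntermediateField ℚ Qb := adjoin ℚ (Set.range (c • a))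
  have : FiniteDimensional ℚ K := finiteDimensional_adjoin fun x _ =>
    (Algebra.IsAlgebraic.isAlgebraic x).isIntegral
  let b : ι → 𝓞 K := fun i => ⟨⟨c * a i, subset_adjoin ℚ _ ⟨i, rfl⟩⟩,
    (isIntegral_algebraMap_iff (algebraMap K Qb).injective).mp (hint i)⟩
  have hb : b ≠ 0 := by
    obtain ⟨i, hi⟩ := Function.ne_iff.mp ha
    refine Function.ne_iff.mpr ⟨i, fun h => mul_ne_zero hc hi ?_⟩
    exact congrArg (fun z : 𝓞 K => ((z : K) : Qb)) h
  have h := (hasH_integral hb).div (hasH_abs hc)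
  refine ⟨FK b / finrank ℚ K - 0, ?_⟩
  convert h using 2 with w
  rw [eq_div_iff (w.1.pos hc).ne', mul_comm, ← nrm_smul]
  rfl

open Classical in
/-- absolute logarithmic height of a tuple -/
def ht (a : ι → Qb) : ℝ :=
  if h : a ≠ 0 then (exists_hasH h).choose else 0

theorem hasH_nrm {a : ι → Qb} (ha : a ≠ 0) : HasH (fun w => nrm w a) (ht a) := by
  rw [ht, dif_pos ha]
  exact (exists_hasH ha).choose_spec

theorem ne_zero_one_pair (c : Qb) : (![1, c] : Fin 2 → Qb) ≠ 0 := fun h => by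
  simpa using congrFun h 0

theorem nrm_one_pair (w : Pl) (c : Qb) : nrm w ![1, c] = max 1 (w c) := by
  refine le_antisymm (nrm_le (zero_le_one.trans (le_max_left _ _)) fun i => ?_) (max_le ?_ ?_)
  · fin_cases i <;> simp
  · simpa using le_nrm w ![1, c] 0
  · simpa using le_nrm w ![1, c] 1

theorem hasH_gcst (Γ : List Qb) :
    HasH (gcst Γ) ((Γ.map fun c => ht ![1, c]).sum) := by
  induction Γ with
  | nil =>
    have e : gcst [] = fun _ => 1 := funext fun w => by simp [gcst]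
    simpa [e] using hasH_one
  | cons c Γ ih =>
    simp only [List.map_cons, List.sum_cons]
    convert (hasH_nrm (ne_zero_one_pair c)).mul ih using 2 with w
    simp [gcst, nrm_one_pair]

/-- local domination gives a height inequality -/
theorem Dom.height {f g : X → Pl → ℝ} (h : Dom f g) :
    ∃ C : ℝ, ∀ x r s, HasH (f x) r → HasH (g x) s → r ≤ s + C := by
  obtain ⟨Γ, hΓ⟩ := h
  refine ⟨(Γ.map fun c => ht ![1, c]).sum, fun x r s hf hg => ?_⟩
  have := hf.le ((hasH_gcst Γ).mul hg) (hΓ x)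
  linarith

theorem ht_smul (a : ι → Qb) {c : Qb} (hc : c ≠ 0) : ht (c • a) = ht a := by
  by_cases ha : a = 0
  · simp [ha]
  · have h := hasH_nrm (smul_ne_zero hc ha)
    simp only [nrm_smul] at h
    simpa using h.unique ((hasH_abs hc).mul (hasH_nrm ha))

theorem ht_nonneg (a : ι → Qb) : 0 ≤ ht a := by
  by_cases ha : a = 0
  · simp [ht, ha]
  · obtain ⟨i, hi⟩ := Function.ne_iff.mp ha
    rw [← ht_smul a (inv_ne_zero hi)]
    have h1 : ((a i)⁻¹ • a) i = 1 := by simpa using inv_mul_cancel₀ hi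
    refine hasH_one.le (hasH_nrm fun h => one_ne_zero (h1.symm.trans (congrFun h i))) fun w => ?_
    have := le_nrm w ((a i)⁻¹ • a) i
    rwa [h1, map_one] at this

theorem ht_comp_le (f : κ → ι) (a : ι → Qb) : ht (a ∘ f) ≤ ht a := by
  by_cases h : a ∘ f = 0
  · rw [h]
    simpa [ht] using ht_nonneg a
  · have ha : a ≠ 0 := by rintro rfl; exact h rfl
    exact (hasH_nrm h).le (hasH_nrm ha) fun w =>
      nrm_le (nrm_nonneg w a) fun k => le_nrm w a (f k)

/-! ### Northcott -/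

theorem ht_conj {t : Qb} (σ : Qb ≃ₐ[ℚ] Qb) : ht ![1, σ t] = ht ![1, t] := by
  obtain ⟨c, hc, hint⟩ := exists_integral (a := ![1, t])
  let K : IntermediateField ℚ Qb := adjoin ℚ (Set.range (c • ![1, t]))
  have : FiniteDimensional ℚ K := finiteDimensional_adjoin fun x _ =>
    (Algebra.IsAlgebraic.isAlgebraic x).isIntegral
  let b : Fin 2 → 𝓞 K := fun i => ⟨⟨c * (![1, t] : Fin 2 → Qb) i, subset_adjoin ℚ _ ⟨i, rfl⟩⟩,
    (isIntegral_algebraMap_iff (algebraMap K Qb).injective).mp (hint i)⟩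
  have hb : b ≠ 0 := Function.ne_iff.mpr ⟨0, fun h => by
    have := congrArg (fun z : 𝓞 K => ((z : K) : Qb)) h
    simp [b] at this
    exact hc this⟩
  have h1 := hasH_integral hb
  letI : Algebra K Qb := (σ.toRingHom.comp (algebraMap K Qb)).toAlgebra
  have h2 := hasH_integral hb
  have e1 : (fun w : Pl => nrm w fun i => (c • ![1, t]) i) = fun w => nrm w (c • ![1, t]) := rfl
  have key : ∀ i, σ (c * (![1, t] : Fin 2 → Qb) i) = (σ c • ![1, σ t]) i := fun i => by
    fin_cases i <;> simp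
  have e2 : (fun i => algebraMap K Qb (b i)) = σ c • ![1, σ t] := funext fun i => key i
  have h2' : HasH (fun w => nrm w (σ c • ![1, σ t])) (FK b / finrank ℚ K) := by
    rw [e2] at h2
    exact h2
  have := (hasH_nrm (smul_ne_zero ((map_ne_zero σ).mpr hc) (ne_zero_one_pair (σ t)))).unique h2'
  rw [ht_smul _ ((map_ne_zero σ).mpr hc)] at this
  rw [this, ← ht_smul ![1, t] hc]
  exact h1.unique (e1 ▸ hasH_nrm (smul_ne_zero hc (ne_zero_one_pair t)))

theorem coeff_prod_X_sub_C_le (w : Pl) (s : Multiset Qb) (k : ℕ) :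
    w ((s.map fun t => Polynomial.X - C t).prod.coeff k) ≤
      (s.map fun t => max 1 (w 2) * max 1 (w t)).prod := by
  induction s using Multiset.induction_on generalizing k with
  | empty => rcases k with - | k <;> simp [coeff_one]
  | cons t s ih =>
    simp only [Multiset.map_cons, Multiset.prod_cons]
    set P := (s.map fun t => X - C t).prod
    set B := (s.map fun t => max 1 (w 2) * max 1 (w t)).prod
    have hB : 0 ≤ B := (w.nonneg _).trans (ih 0)
    have ht1 : 1 ≤ max 1 (w t) := le_max_left _ _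
    have h2 : 1 ≤ max 1 (w 2) := le_max_left _ _
    rw [sub_mul, coeff_sub]
    have hC : w ((C t * P).coeff k) ≤ max 1 (w t) * B := by
      rw [coeff_C_mul, map_mul]
      exact mul_le_mul (le_max_right _ _) (ih k) (w.nonneg _) (zero_le_one.trans ht1)
    have hX : w ((Polynomial.X * P).coeff k) ≤ max 1 (w t) * B := by
      rcases k with - | k
      · simpa using mul_nonneg (zero_le_one.trans ht1) hB
      · rw [coeff_X_mul]
        exact (ih k).trans (le_mul_of_one_le_left hB ht1)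
    have := sum_le_natCast_mul w Finset.univ ![(Polynomial.X * P).coeff k, -(C t * P).coeff k]
      (mul_nonneg (zero_le_one.trans ht1) hB) fun i _ => by
        fin_cases i
        · simpa using hX
        · simpa using hC
    simp only [Fin.sum_univ_two, Matrix.cons_val_zero, Matrix.cons_val_one, ← sub_eq_add_neg,
      Finset.card_univ, Fintype.card_fin, Nat.cast_ofNat] at this
    rw [mul_assoc]
    exact this

theorem ht_rat_bound (B : ℝ) : {q : ℚ | ht ![1, (q : Qb)] ≤ B}.Finite := by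
  set N := ⌈exp B⌉₊
  refine ((Finset.Icc (-(N : ℤ)) N ×ˢ Finset.Icc (-(N : ℤ)) N).finite_toSet.image
    fun p : ℤ × ℤ => (p.1 / p.2 : ℚ)).subset fun q hq => ?_
  let a : Fin 2 → 𝓞 ℚ := ![(q.den : 𝓞 ℚ), (q.num : 𝓞 ℚ)]
  have ha : a ≠ 0 := Function.ne_iff.mpr ⟨0, by simp [a]⟩
  have h := hasH_integral ha
  have hv : (fun i => algebraMap ℚ Qb (a i)) = (q.den : Qb) • ![1, (q : Qb)] := by
    funext i
    fin_cases i
    · simp [a]
    · simp [a, Rat.cast_def q]
      field_simp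
  rw [hv] at h
  have hden : (q.den : Qb) ≠ 0 := Nat.cast_ne_zero.mpr q.den_nz
  have heq := (hasH_nrm (smul_ne_zero hden (ne_zero_one_pair (q : Qb)))).unique h
  rw [ht_smul _ hden] at heq
  have hspan : Ideal.span (Set.range a) = ⊤ := by
    rw [Ideal.eq_top_iff_one]
    obtain ⟨u, v, huv⟩ := Int.isCoprime_iff_gcd_eq_one.mpr
      (by simpa [Int.gcd, Nat.Coprime] using q.reduced : Int.gcd q.num q.den = 1)
    have : (1 : 𝓞 ℚ) = (u : 𝓞 ℚ) * a 1 + (v : 𝓞 ℚ) * a 0 := by
      simp only [a, Matrix.cons_val_zero, Matrix.cons_val_one]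
      exact_mod_cast congrArg (Int.cast : ℤ → 𝓞 ℚ) huv.symm
    rw [this]
    exact add_mem (Ideal.mul_mem_left _ _ (Ideal.subset_span ⟨1, rfl⟩))
      (Ideal.mul_mem_left _ _ (Ideal.subset_span ⟨0, rfl⟩))
  have hbound : ∀ i, ‖((algebraMap ℚ ℂ) (a i))‖ ≤ N := by
    intro i
    have hval : ht ![1, (q : Qb)] = log (⨆ i, ‖algebraMap ℚ ℂ (a i)‖) := by
      rw [heq, FK, hspan, Ideal.absNorm_top]
      rw [Fintype.sum_subsingleton _ (algebraMap ℚ ℂ)]
      simp
    have hsup : 0 < ⨆ i, ‖algebraMap ℚ ℂ (a i)‖ :=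
      lt_of_lt_of_le (by simpa [a] using q.den_pos : (0 : ℝ) < ‖algebraMap ℚ ℂ (a 0)‖)
        (le_ciSup (f := fun i => ‖algebraMap ℚ ℂ (a i)‖) (Set.finite_range _).bddAbove 0)
    calc ‖algebraMap ℚ ℂ (a i)‖ ≤ ⨆ i, ‖algebraMap ℚ ℂ (a i)‖ :=
          le_ciSup (f := fun i => ‖algebraMap ℚ ℂ (a i)‖) (Set.finite_range _).bddAbove i
      _ ≤ exp B := (log_le_iff_le_exp hsup).mp (hval ▸ hq)
      _ ≤ N := Nat.le_ceil _
  refine ⟨(q.num, q.den), ?_, by simpa using q.num_div_den⟩
  have h0 := hbound 0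
  have h1 := hbound 1
  simp [a] at h0 h1
  simp only [Finset.coe_product, Set.mem_prod, Finset.coe_Icc, Set.mem_Icc, ← abs_le]
  constructor
  · exact_mod_cast h1
  · rw [abs_of_nonneg (Int.natCast_nonneg q.den)]
    exact_mod_cast h0

/-- Northcott: bounded degree and bounded height -/
theorem finite_deg_ht (d : ℕ) (B : ℝ) :
    {t : Qb | Module.finrank ℚ (IntermediateField.adjoin ℚ ({t} : Set Qb)) ≤ d ∧
      ht ![1, t] ≤ B}.Finite := by
  set R := (d : ℝ) * (ht ![1, (2 : Qb)] + max B 0)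
  have hQ := ht_rat_bound R
  have hP : {P : ℚ[X] | P.natDegree ≤ d ∧ ∀ k, ht ![1, (P.coeff k : Qb)] ≤ R}.Finite := by
    refine ((Set.Finite.pi fun _ : Fin (d + 1) => hQ).image
      fun c => ∑ k : Fin (d + 1), monomial (k : ℕ) (c k)).subset fun P hP' => ?_
    refine ⟨fun k => P.coeff k, fun k _ => hP'.2 k, ?_⟩
    exact (Fin.sum_univ_eq_sum_range (fun k => monomial k (P.coeff k)) (d + 1)).trans
      (P.as_sum_range' (d + 1) (Nat.lt_succ_of_le hP'.1)).symm
  refine ((hP.subset fun P (hP' : P ∈ {P : ℚ[X] | (P.natDegree ≤ d ∧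
    ∀ k, ht ![1, (P.coeff k : Qb)] ≤ R) ∧ P ≠ 0}) => hP'.1).biUnion
      fun P _ => (P.rootSet_finite Qb)).subset fun t ht' => ?_
  have htI : IsIntegral ℚ t := (Algebra.IsAlgebraic.isAlgebraic t).isIntegral
  set P := minpoly ℚ t
  have hdeg : P.natDegree ≤ d := by
    rw [← IntermediateField.adjoin.finrank htI]
    exact ht'.1
  have hne : P ≠ 0 := minpoly.ne_zero htI
  simp only [Set.mem_iUnion]
  refine ⟨P, ⟨⟨hdeg, fun k => ?_⟩, hne⟩, by simp [mem_rootSet, hne, P]⟩
  set s := (P.map (algebraMap ℚ Qb)).roots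
  have hsplit : P.map (algebraMap ℚ Qb) = (s.map fun u => Polynomial.X - C u).prod :=
    (IsAlgClosed.splits _).eq_prod_roots_of_monic ((minpoly.monic htI).map _)
  have hconj : ∀ u ∈ s, ht ![1, u] ≤ max B 0 := by
    intro u hu
    haveI : IsAlgClosure ℚ Qb := ⟨inferInstance, isAlgebraic_Qb⟩
    haveI : Normal ℚ Qb := IsAlgClosure.normal ℚ Qb
    obtain ⟨σ, hσ⟩ := minpoly.exists_algEquiv_of_root' (K := ℚ) (x := u) (y := t)
      (Algebra.IsAlgebraic.isAlgebraic t) (by
        simpa [s, aeval_def, eval_map, hne, P] using hu)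
    rw [← hσ, ht_conj]
    exact ht'.2.trans (le_max_left _ _)
  have hc : (P.coeff k : Qb) = ((s.map fun u => Polynomial.X - C u).prod).coeff k := by
    rw [← hsplit, coeff_map]
    rfl
  have hH : HasH (fun w => (s.map fun u => max 1 (w 2) * max 1 (w u)).prod)
      ((s.map fun u => ht ![1, (2 : Qb)] + ht ![1, u]).sum) := by
    clear hsplit hconj hc
    induction s using Multiset.induction_on with
    | empty => simpa using hasH_one
    | cons u s ih =>
      simp only [Multiset.map_cons, Multiset.prod_cons, Multiset.sum_cons]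
      have h2 := hasH_nrm (ne_zero_one_pair (2 : Qb))
      have hu := hasH_nrm (ne_zero_one_pair u)
      simp only [nrm_one_pair] at h2 hu
      exact (h2.mul hu).mul ih
  have hle : ht ![1, (P.coeff k : Qb)] ≤ (s.map fun u => ht ![1, (2 : Qb)] + ht ![1, u]).sum := by
    refine (hasH_nrm (ne_zero_one_pair _)).le hH fun w => ?_
    rw [nrm_one_pair]
    refine max_le ?_ (hc ▸ coeff_prod_X_sub_C_le w s k)
    clear hsplit hconj hc hH
    induction s using Multiset.induction_on with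
    | empty => simp
    | cons u s ih =>
      simp only [Multiset.map_cons, Multiset.prod_cons]
      exact one_le_mul_of_one_le_of_one_le
        (one_le_mul_of_one_le_of_one_le (le_max_left _ _) (le_max_left _ _)) ih
  refine hle.trans ((Multiset.sum_le_card_nsmul _ (ht ![1, (2 : Qb)] + max B 0) fun y hy => ?_).trans ?_)
  · obtain ⟨u, hu, rfl⟩ := Multiset.mem_map.mp hy
    linarith [hconj u hu]
  · rw [Multiset.card_map, nsmul_eq_mul]
    refine mul_le_mul_of_nonneg_right (Nat.cast_le.mpr ?_)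
      (add_nonneg (ht_nonneg _) (le_max_right _ _))
    exact (card_roots' _).trans (natDegree_map_le.trans hdeg)

end FLTAgent.MW

end
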