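import Fermat.Agent.MW.Places

/-!
The normalised sum of local terms over a number field inside `ℚ̄`, evaluated on integral tuples.
-/

set_option autoImplicit false

noncomputable section

open NumberField Module Real IntermediateField

namespace FLTAgent.MW

theorem numberField_intermediate (L : IntermediateField ℚ Qb) [FiniteDimensional ℚ L] :
    NumberField L := {}

attribute [local instance] numberField_intermediate

theorem isAlgebraic_intermediate (L : IntermediateField ℚ Qb) : Algebra.IsAlgebraic L Qb :=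
  haveI : Algebra.IsAlgebraic ℚ Qb := AlgebraicClosure.isAlgebraic ℚ
  Algebra.IsAlgebraic.tower_top (K := ℚ) (A := Qb) L

attribute [local instance] isAlgebraic_intermediate

/-- sum of the logarithms of the local terms over the places of `L` -/
def S (L : IntermediateField ℚ Qb) [FiniteDimensional ℚ L] (f : Pl → ℝ) : ℝ :=
  ∑ φ : L →+* ℂ, log (f (extI φ)) + ∑ᶠ P : FinitePlace L, log (f (extF P))

/-- only finitely many finite local terms are nonzero -/
def FS (L : IntermediateField ℚ Qb) [FiniteDimensional ℚ L] (f : Pl → ℝ) : Prop :=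
  (Function.support fun P : FinitePlace L => log (f (extF P))).Finite

variable {ι : Type*} [Finite ι]

/-- height of an integral tuple, times the degree -/
def FK {K : Type} [Field K] [NumberField K] (a : ι → 𝓞 K) : ℝ :=
  ∑ ψ : K →+* ℂ, log (⨆ i, ‖ψ (a i)‖) - log (Ideal.absNorm (Ideal.span (Set.range a)))

theorem sum_embeddings {K L : Type} [Field K] [NumberField K] [Field L] [NumberField L]
    [Algebra K L] (g : (K →+* ℂ) → ℝ) :
    ∑ φ : L →+* ℂ, g (φ.comp (algebraMap K L)) = finrank K L * ∑ ψ, g ψ := by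
  classical
  rw [← Finset.sum_fiberwise Finset.univ (fun φ : L →+* ℂ => φ.comp (algebraMap K L)) _,
    Finset.mul_sum]
  refine Finset.sum_congr rfl fun ψ _ => ?_
  rw [Finset.sum_congr rfl fun φ hφ => by rw [(Finset.mem_filter.mp hφ).2], Finset.sum_const,
    nsmul_eq_mul]
  congr 2
  letI : Algebra K ℂ := ψ.toAlgebra
  rw [← AlgHom.card K L ℂ, ← Fintype.card_subtype]
  refine Fintype.card_congr
    { toFun := fun φ => ⟨φ.1, fun x => RingHom.congr_fun φ.2 x⟩
      invFun := fun σ => ⟨σ.toRingHom, RingHom.ext σ.commutes⟩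
      left_inv := fun φ => rfl
      right_inv := fun σ => rfl }

theorem S_integral {K : Type} [Field K] [NumberField K] (L : IntermediateField ℚ Qb)
    [FiniteDimensional ℚ L] (j : K →+* L) (a : ι → 𝓞 K) (ha : a ≠ 0) :
    FS L (fun w => nrm w fun i => ((j (a i) : L) : Qb)) ∧
      finrank ℚ K * S L (fun w => nrm w fun i => ((j (a i) : L) : Qb)) = finrank ℚ L * FK a := by
  letI : Algebra K L := j.toAlgebra
  set b : ι → 𝓞 L := fun i => algebraMap (𝓞 K) (𝓞 L) (a i) with hbdef
  have hcoe : ∀ i, ((b i : 𝓞 L) : L) = j (a i) := fun i => rfl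
  have hb : b ≠ 0 := by
    obtain ⟨i, hi⟩ := Function.ne_iff.mp ha
    refine Function.ne_iff.mpr ⟨i, fun h => hi ?_⟩
    exact (FaithfulSMul.algebraMap_injective (𝓞 K) (𝓞 L)) (h.trans (map_zero _).symm)
  obtain ⟨i0, hi0⟩ := Function.ne_iff.mp hb
  have hF : ∀ P : FinitePlace L,
      nrm (extF P) (fun i => ((j (a i) : L) : Qb)) = ⨆ i, P (b i : L) := fun P => by
    simp only [nrm, ← hcoe]
    exact iSup_congr fun i => extF_apply P _
  have hI : ∀ φ : L →+* ℂ,
      nrm (extI φ) (fun i => ((j (a i) : L) : Qb)) = ⨆ i, ‖φ.comp (algebraMap K L) (a i)‖ := fun φ => by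
    simp only [nrm]
    exact iSup_congr fun i => extI_apply φ _
  have hle : ∀ (P : FinitePlace L) i, P (b i : L) ≤ 1 := fun P i => by
    rw [← FinitePlace.norm_embedding_eq]
    exact FinitePlace.norm_le_one L P.maximalIdeal (b i)
  have hpos : ∀ P : FinitePlace L, 0 < ⨆ i, P (b i : L) := fun P =>
    lt_of_lt_of_le ((FinitePlace.pos_iff (w := P) (x := (b i0 : L))).mpr (by simpa using hi0))
      (le_ciSup (f := fun i => P (b i : L)) (Set.finite_range _).bddAbove i0)
  have : Nonempty ι := ⟨i0⟩
  refine ⟨((FinitePlace.hasFiniteMulSupport_int hi0).subset fun P hP => ?_), ?_⟩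
  · simp only [Function.mem_mulSupport]
    intro h1
    apply hP
    have : (⨆ i, P (b i : L)) = 1 := le_antisymm (ciSup_le fun i => hle P i)
      (h1 ▸ le_ciSup (f := fun i => P (b i : L)) (Set.finite_range _).bddAbove i0)
    simp [hF, this]
  · have h1 := NumberField.absNorm_mul_finprod_finitePlace_eq_one (x := b) hb
    have hfin : (∑ᶠ P : FinitePlace L, log (⨆ i, P (b i : L))) =
        -log (Ideal.absNorm (Ideal.span (Set.range b))) := by
      rw [← log_finprod hpos, ← log_inv]
      congr 1
      exact (inv_eq_of_mul_eq_one_right h1).symm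
    have hspan : Ideal.span (Set.range b) =
        (Ideal.span (Set.range a)).map (algebraMap (𝓞 K) (𝓞 L)) := by
      rw [Ideal.map_span, ← Set.range_comp]
      rfl
    have hrk : finrank (𝓞 K) (𝓞 L) = finrank K L :=
      (IsFractionRing.finrank_eq (𝓞 K) K (𝓞 L) L).symm
    simp only [S, hF, hI]
    rw [hfin, sum_embeddings (fun ψ : K →+* ℂ => log (⨆ i, ‖ψ (a i)‖)), hspan,
      Ideal.absNorm_algebraMap, Nat.cast_pow, log_pow, hrk, FK,
      ← Module.finrank_mul_finrank ℚ K L]
    push_cast
    ring

end FLTAgent.MW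

end
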