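import Fermat.Agent.MW.Resultant

/-!
The law of the resultant: sections against distances to their zeros.
-/

set_option autoImplicit false

noncomputable section

open AlgebraicCurve
open FLTAgent.RR (Bd)

namespace FLTAgent.MW

section Hom

variable {β : Type*} [DecidableEq β] {ι : β → Type*}

theorem isMH_C (a : Qb) : IsMH (β := β) (ι := ι) (MvPolynomial.C a) 0 :=
  MvPolynomial.isWeightedHomogeneous_C _ _

theorem isMH_X (s : Σ b, ι b) :
    IsMH (MvPolynomial.X s : MvPolynomial (Σ b, ι b) Qb) (Pi.single s.1 1) :=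
  MvPolynomial.isWeightedHomogeneous_X _ _ _

/-- row-wise homogeneous matrices have homogeneous determinant -/
theorem isMH_det {m : Type*} [Fintype m] [DecidableEq m]
    (M : Matrix m m (MvPolynomial (Σ b, ι b) Qb)) (r : m → β → ℕ) (h : ∀ i j, IsMH (M i j) (r i)) :
    IsMH M.det (∑ i, r i) := by
  rw [Matrix.det_apply]
  refine MvPolynomial.IsWeightedHomogeneous.sum _ _ _ fun σ _ => ?_
  rw [← Equiv.sum_comp σ r]
  have h1 : IsMH (∏ i, M (σ i) i) (∑ i, r (σ i)) :=
    MvPolynomial.IsWeightedHomogeneous.prod _ _ _ fun i _ => h (σ i) i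
  rcases Int.units_eq_one_or (Equiv.Perm.sign σ) with hs | hs
  · rw [hs, one_smul]; exact h1
  · rw [hs, Units.smul_def, Units.val_neg, Units.val_one, neg_smul, one_smul]
    exact Submodule.neg_mem (MvPolynomial.weightedHomogeneousSubmodule Qb _ _) h1

/-- renaming along an embedding of block sets -/
theorem isMH_rename {γ : Type*} [DecidableEq γ] [Fintype β] [Fintype γ] {κ : γ → Type*}
    [∀ b, Fintype (ι b)] [∀ c, Fintype (κ c)] (φ : β → γ) (f : ∀ b, ι b → κ (φ b))
    {q : MvPolynomial (Σ b, ι b) Qb} {e : β → ℕ} (hq : IsMH q e) :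
    IsMH (MvPolynomial.rename (fun s : Σ b, ι b => (⟨φ s.1, f s.1 s.2⟩ : Σ c, κ c)) q)
      (∑ b, Pi.single (φ b) (e b)) := by
  rw [q.as_sum, map_sum]
  refine MvPolynomial.IsWeightedHomogeneous.sum _ _ _ fun m hm => ?_
  rw [MvPolynomial.rename_monomial]
  refine MvPolynomial.isWeightedHomogeneous_monomial _ _ _ ?_
  rw [Finsupp.weight_apply, Finsupp.sum_mapDomain_index
      (h := fun (s : Σ c, κ c) (k : ℕ) => k • (Pi.single s.1 1 : γ → ℕ))
      (fun _ => zero_smul _ _) (fun _ _ _ => add_smul _ _ _), Finsupp.sum_fintype _ _ (fun _ => by simp),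
    Fintype.sum_sigma]
  refine Finset.sum_congr rfl fun b _ => ?_
  rw [← hq.sum_eq hm b]
  funext c
  simp [Finset.sum_apply, Pi.single_apply]

theorem exists_tangent {F : Type} [Field F] [Algebra Qb F] [RR.FnField Qb F] (D : Divisor Qb F)
    (v : Place Qb F) : ∃ τ : Fin (RR.ell D) → Qb, ∀ c, ev D v (lc D c) = 0 →
      ∑ i, c i * τ i = ev (D - Finsupp.single v 1) v (lc D c) := by
  let K := LinearMap.ker (evL D v ∘ₗ (bas D).equivFun.symm.toLinearMap)
  have hK : ∀ c : K, lc D c ∈ riemannRochSpace (D - Finsupp.single v 1) := fun c =>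
    (ev_eq_zero_iff_mem (lc_mem _ _)).mp (LinearMap.mem_ker.mp c.2)
  let φ : K →ₗ[Qb] Qb := evL (D - Finsupp.single v 1) v ∘ₗ
    (((lc D).comp K.subtype).codRestrict _ hK)
  obtain ⟨L, hL⟩ := LinearMap.exists_extend φ
  refine ⟨fun i => L (Pi.single i 1), fun c hc => ?_⟩
  have h1 : L c = φ ⟨c, LinearMap.mem_ker.mpr hc⟩ := by rw [← hL]; rfl
  refine Eq.trans ?_ h1
  conv_rhs => rw [show c = ∑ i, c i • Pi.single i (1 : Qb) by
    funext k; simp [Finset.sum_apply, Pi.single_apply]]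
  simp [map_sum, map_smul]

end Hom

variable {F : Type} [Field F] [Algebra Qb F] [RR.FnField Qb F]

namespace Par

variable (P : Par F)

/-- a section through `y` built from an antisymmetrised tensor -/
def cU {R : Type*} [CommRing R] [Algebra Qb R]
    (U : Fin (RR.ell P.E) × Fin (RR.ell P.E) → Qb) (y : Fin (RR.ell P.E) → R)
    (j : Fin (RR.ell P.E)) : R :=
  ∑ a, algebraMap Qb R (U (a, j) - U (j, a)) * y a

theorem sum_cU (U : Fin (RR.ell P.E) × Fin (RR.ell P.E) → Qb) (y z : Fin (RR.ell P.E) → Qb) :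
    ∑ j, P.cU U y j * z j = ∑ p, U p * wedge y z p := by
  simp only [cU, wedge, Algebra.algebraMap_self, RingHom.id_apply, sub_mul, Finset.sum_sub_distrib,
    Finset.sum_mul, mul_sub, Fintype.sum_prod_type]
  congr 1
  · rw [Finset.sum_comm]
    exact Finset.sum_congr rfl fun _ _ => Finset.sum_congr rfl fun _ _ => by ring
  · exact Finset.sum_congr rfl fun _ _ => Finset.sum_congr rfl fun _ _ => by ring

theorem sum_cU_self (U : Fin (RR.ell P.E) × Fin (RR.ell P.E) → Qb) (y : Fin (RR.ell P.E) → Qb) :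
    ∑ j, P.cU U y j * y j = 0 := by
  rw [P.sum_cU]
  refine Finset.sum_eq_zero fun p _ => ?_
  simp [wedge, mul_comm]

/-- the cofactor vector -/
def W {R : Type*} [CommRing R] [Algebra Qb R]
    (U : Fin (RR.ell P.E) × Fin (RR.ell P.E) → Qb) (c y : Fin (RR.ell P.E) → R) (z : Fin P.n → R) :
    P.RI → R :=
  Matrix.mulVec (Matrix.adjugate (P.mat c (P.cU U y))) (Sum.elim z 0)

theorem map_mat {R S : Type*} [CommRing R] [Algebra Qb R] [CommRing S] [Algebra Qb S]
    (φ : R →ₐ[Qb] S) (c c' : Fin (RR.ell P.E) → R) :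
    (P.mat c c').map φ = P.mat (φ ∘ c) (φ ∘ c') := by
  ext r k
  rcases r with i | i <;>
    simp [mat, Matrix.map_apply, map_sum, map_mul, AlgHom.commutes]

theorem map_W {R S : Type*} [CommRing R] [Algebra Qb R] [CommRing S] [Algebra Qb S]
    (φ : R →ₐ[Qb] S) (U : Fin (RR.ell P.E) × Fin (RR.ell P.E) → Qb)
    (c y : Fin (RR.ell P.E) → R) (z : Fin P.n → R) (r : P.RI) :
    φ (P.W U c y z r) = P.W U (φ ∘ c) (φ ∘ y) (φ ∘ z) r := by
  have h1 : φ ∘ P.cU U y = P.cU U (φ ∘ y) := by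
    funext j
    simp [cU, map_sum, map_mul, AlgHom.commutes]
  have h2 : φ ∘ (Sum.elim z 0 : P.RI → R) = Sum.elim (φ ∘ z) 0 := by
    funext k; rcases k with i | i <;> simp
  unfold W
  rw [← h1, ← P.map_mat, ← h2]
  have h3 := RingHom.map_mulVec (φ : R →+* S) (Matrix.adjugate (P.mat c (P.cU U y)))
    (Sum.elim z 0) r
  have h4 : (Matrix.adjugate (P.mat c (P.cU U y))).map φ =
      Matrix.adjugate ((P.mat c (P.cU U y)).map φ) := AlgHom.map_adjugate φ _
  rw [← h4]
  exact h3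

theorem adj_cancel (M : Matrix P.RI P.RI Qb) (x : P.RI → Qb) :
    Matrix.mulVec M.adjugate (Matrix.mulVec M x) = M.det • x := by
  rw [Matrix.mulVec_mulVec, Matrix.adjugate_mul, Matrix.smul_mulVec, Matrix.one_mulVec]

/-- the resultant identity at a place which is at most a simple zero -/
theorem law_identity {c : Fin (RR.ell P.E) → Qb} {e : Fin P.n → Place Qb F}
    (he : IsZeros P.E (lc P.E c) e) (v : Place Qb F)
    (hv : ∀ i j, e i = v → e j = v → i = j) :
    ∃ σ κ : Qb, σ ≠ 0 ∧ κ ≠ 0 ∧ (∀ c', (P.mat c c').det = κ * ∏ k, ∑ j, c' j * P.e (e k) j) ∧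
      (ev P.E v (lc P.E c) ≠ 0 → σ = ev P.E v (lc P.E c)) ∧
      ∀ U, σ • P.W U c (P.e v) (P.e1 v) =
        (κ * ∏ k, ∑ p, U p * P.del v (e k) p) • P.e2 v := by
  classical
  obtain ⟨κ, hκ, hdet⟩ := P.exists_factor he
  by_cases h0 : ev P.E v (lc P.E c) = 0
  swap
  · refine ⟨_, κ, h0, hκ, hdet, fun _ => rfl, fun U => ?_⟩
    have hev : ev P.E v (lc P.E (P.cU U (P.e v))) = 0 := by rw [ev_lc]; exact P.sum_cU_self U _
    have h := P.adj_cancel (P.mat c (P.cU U (P.e v))) (P.e2 v)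
    rw [P.mulVec_e2, hev, zero_smul, hdet] at h
    have e0 : (Sum.elim (ev P.E v (lc P.E c) • P.e1 v) (0 : Fin P.n → Qb) : P.RI → Qb) =
        ev P.E v (lc P.E c) • Sum.elim (P.e1 v) (0 : Fin P.n → Qb) := by
      funext r; rcases r with i | i <;> simp
    rw [e0, Matrix.mulVec_smul] at h
    rw [W, h]
    congr 2
    refine Finset.prod_congr rfl fun k _ => ?_
    rw [P.sum_cU, P.del_of_ne fun hvk => h0 ((he.ev_eq_zero_iff v).mpr ⟨k, hvk.symm⟩)]
  obtain ⟨i₀, rfl⟩ := (he.ev_eq_zero_iff v).mp h0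
  have hσ : ev (P.E - Finsupp.single (e i₀) 1) (e i₀) (lc P.E c) ≠ 0 := by
    have hmem : lc P.E c ∈ riemannRochSpace (P.E - Finsupp.single (e i₀) 1) :=
      (ev_eq_zero_iff_mem he.mem).mp h0
    rw [Ne, ev_eq_zero_iff (bd_of_mem hmem), RR.bd_iff_ord he.ne]
    have h1 : AJ.sumPts e (e i₀) = zdiv P.E (lc P.E c) (e i₀) := by rw [he.sum_eq]
    rw [zdiv_apply he.ne, AJ.sumPts, Finsupp.finsetSum_apply,
      Finset.sum_eq_single_of_mem i₀ (Finset.mem_univ _)
        fun k _ hk => Finsupp.single_eq_of_ne (fun h => hk (hv k i₀ h.symm rfl)),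
      Finsupp.single_eq_same] at h1
    rw [Finsupp.sub_apply, Finsupp.single_eq_same]
    omega
  refine ⟨-ev (P.E - Finsupp.single (e i₀) 1) (e i₀) (lc P.E c), κ, neg_ne_zero.mpr hσ, hκ, hdet,
    fun h => absurd h0 h, fun U => ?_⟩
  set v := e i₀ with hvdef
  set cu := P.cU U (P.e v) with hcu
  have hev : ev P.E v (lc P.E cu) = 0 := by rw [ev_lc]; exact P.sum_cU_self U _
  set M := P.mat c cu with hM
  -- the other cofactor vector, by cancelling the factor vanishing on the line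
  have hW2 : Matrix.mulVec M.adjugate (Sum.elim (0 : Fin P.n → Qb) (P.e1 v)) =
      (κ * ∏ k ∈ Finset.univ.erase i₀, ∑ j, cu j * P.e (e k) j) • P.e2 v := by
    obtain ⟨f, hf, hfne⟩ := exists_ev_ne (E := P.E) (by have := P.two_g_le; omega) v
    obtain ⟨φ, rfl⟩ := exists_lc hf
    rw [ev_lc] at hfne
    let path : Fin (RR.ell P.E) → Polynomial Qb := fun j =>
      Polynomial.C (cu j) + Polynomial.X * Polynomial.C (φ j)
    let L : P.RI → Polynomial Qb := fun r => Matrix.mulVec (Matrix.adjugate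
      (P.mat (fun j => Polynomial.C (c j)) path)) (Sum.elim (0 : Fin P.n → Polynomial Qb) fun i => Polynomial.C (P.e1 v i)) r
    let R : P.RI → Polynomial Qb := fun r => Polynomial.C κ *
      (∏ k ∈ Finset.univ.erase i₀, ∑ j, path j * Polynomial.C (P.e (e k) j)) *
        Polynomial.C (P.e2 v r)
    have hLe : ∀ (t : Qb) r, (L r).eval t = Matrix.mulVec (Matrix.adjugate
        (P.mat c (fun j => cu j + t * φ j))) (Sum.elim (0 : Fin P.n → Qb) (P.e1 v)) r := by
      intro t r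
      let φt : Polynomial Qb →ₐ[Qb] Qb := Polynomial.aeval t
      have h3 := RingHom.map_mulVec (φt : Polynomial Qb →+* Qb) (Matrix.adjugate
        (P.mat (fun j => Polynomial.C (c j)) path)) (Sum.elim (0 : Fin P.n → Polynomial Qb) fun i => Polynomial.C (P.e1 v i)) r
      have h4 : (Matrix.adjugate (P.mat (fun j => Polynomial.C (c j)) path)).map φt =
          Matrix.adjugate ((P.mat (fun j => Polynomial.C (c j)) path).map φt) :=
        AlgHom.map_adjugate φt _
      rw [← Polynomial.coe_aeval_eq_eval]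
      refine h3.trans ?_
      show Matrix.mulVec ((Matrix.adjugate _).map φt) _ r = _
      rw [h4, P.map_mat]
      have e1 : (φt ∘ fun j => Polynomial.C (c j)) = c := by funext j; simp [φt]
      have e2 : (φt ∘ path) = fun j => cu j + t * φ j := by
        funext j
        simp only [φt, path, Function.comp_apply, map_add, map_mul, Polynomial.aeval_C,
          Polynomial.aeval_X, Algebra.algebraMap_self, RingHom.id_apply]
      have e3 : ((φt : Polynomial Qb →+* Qb) ∘
          (Sum.elim (0 : Fin P.n → Polynomial Qb) fun i => Polynomial.C (P.e1 v i) : P.RI → Polynomial Qb)) =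
          Sum.elim (0 : Fin P.n → Qb) (P.e1 v) := by
        funext k; rcases k with i | i <;> simp [φt]
      rw [e1, e2, e3]
    have hRe : ∀ (t : Qb) r, (R r).eval t = κ *
        (∏ k ∈ Finset.univ.erase i₀, ∑ j, (cu j + t * φ j) * P.e (e k) j) * P.e2 v r := by
      intro t r
      simp [R, path, Polynomial.eval_prod, Polynomial.eval_finsetSum, mul_comm t]
    funext r
    have hpoly : L r = R r := by
      refine Polynomial.eq_of_infinite_eval_eq _ _
        (Set.Infinite.mono (s := {0}ᶜ) (fun t ht => ?_)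
          (Set.Finite.infinite_compl (Set.finite_singleton 0)))
      show (L r).eval t = (R r).eval t
      rw [hLe, hRe]
      set c't : Fin (RR.ell P.E) → Qb := fun j => cu j + t * φ j with hc't
      have hdot : ∑ j, c't j * P.e v j = t * ∑ j, φ j * P.e v j := by
        simp only [hc't, add_mul, Finset.sum_add_distrib, Finset.mul_sum, mul_assoc]
        rw [hcu, P.sum_cU_self, zero_add]
      have h := P.adj_cancel (P.mat c c't) (P.e2 v)
      rw [P.mulVec_e2, h0, zero_smul, ev_lc, hdot, hdet,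
        ← Finset.mul_prod_erase _ _ (Finset.mem_univ i₀), hdot] at h
      have e0 : (Sum.elim (0 : Fin P.n → Qb) ((t * ∑ j, φ j * P.e v j) • P.e1 v) : P.RI → Qb) =
          (t * ∑ j, φ j * P.e v j) • Sum.elim (0 : Fin P.n → Qb) (P.e1 v) := by
        funext r; rcases r with i | i <;> simp
      rw [e0, Matrix.mulVec_smul] at h
      have h' := congrFun h r
      simp only [Pi.smul_apply, smul_eq_mul] at h'
      refine mul_left_cancel₀ (mul_ne_zero ht hfne) ?_
      linear_combination h'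
    have h := congrArg (Polynomial.eval (0 : Qb)) hpoly
    rw [hLe, hRe] at h
    simpa [hM, mul_comm, mul_assoc, mul_left_comm] using h
  -- the tangent of the target vector
  obtain ⟨τ, hτ⟩ := exists_tangent P.b v
  have hMτ : Matrix.mulVec M (fun r => τ (P.idx r)) =
      ev (P.E - Finsupp.single v 1) v (lc P.E c) • Sum.elim (P.e1 v) (0 : Fin P.n → Qb) +
        ev (P.E - Finsupp.single v 1) v (lc P.E cu) • Sum.elim (0 : Fin P.n → Qb) (P.e1 v) := by
    have key : ∀ d : Fin (RR.ell P.E) → Qb, ev P.E v (lc P.E d) = 0 → ∀ i,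
        ∑ r, P.crdb (P.mulL d (P.basA i)) r * τ (P.idx r) =
          ev (P.E - Finsupp.single v 1) v (lc P.E d) * P.e1 v i := by
      intro d hd i
      have hcrd : ∑ r, P.crdb (P.mulL d (P.basA i)) r * τ (P.idx r) =
          ∑ k, crd P.b (P.mulL d (P.basA i)).2 k * τ k := by
        rw [← P.idx.sum_comp]
        rfl
      have hz : ev P.b v (lc P.b (crd P.b (P.mulL d (P.basA i)).2)) = 0 := by
        rw [lc_crd]
        show ev (P.E + P.a) v (lc P.E d * (P.basA i : F)) = 0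
        rw [ev_mul (bd_of_mem (lc_mem _ d)) (bd_of_mem (P.basA i).2), hd, zero_mul]
      rw [hcrd, hτ _ hz, lc_crd]
      show ev (P.E + P.a - Finsupp.single v 1) v (lc P.E d * (P.basA i : F)) = _
      rw [add_sub_right_comm]
      exact ev_mul (bd_of_mem ((ev_eq_zero_iff_mem (lc_mem _ d)).mp hd))
        (bd_of_mem (P.basA i).2)
    funext r
    rcases r with i | i
    · show ∑ k, P.mat c cu (Sum.inl i) k * τ (P.idx k) = _
      rw [P.mat_inl, key c h0]
      simp
    · show ∑ k, P.mat c cu (Sum.inr i) k * τ (P.idx k) = _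
      rw [P.mat_inr, key cu hev]
      simp
  have hdet0 : M.det = 0 := P.det_eq_zero_of_common h0 hev
  have h := P.adj_cancel M (fun r => τ (P.idx r))
  rw [hMτ, hdet0, zero_smul, Matrix.mulVec_add, Matrix.mulVec_smul, Matrix.mulVec_smul, hW2,
    add_eq_zero_iff_eq_neg] at h
  rw [W, ← hcu, ← hM, neg_smul, h, neg_neg, smul_smul]
  congr 1
  rw [← Finset.mul_prod_erase _ (fun k => ∑ p, U p * P.del v (e k) p) (Finset.mem_univ i₀)]
  have e1 : ev (P.E - Finsupp.single v 1) v (lc P.E cu) = ∑ p, U p * P.del v (e i₀) p := by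
    rw [← hvdef, P.del_self, ← P.sum_mul_tang v cu hev, hcu, P.sum_cU]
  have e2 : ∏ k ∈ Finset.univ.erase i₀, ∑ j, cu j * P.e (e k) j =
      ∏ k ∈ Finset.univ.erase i₀, ∑ p, U p * P.del v (e k) p := by
    refine Finset.prod_congr rfl fun k hk => ?_
    rw [hcu, P.sum_cU, P.del_of_ne fun hvk =>
      Finset.ne_of_mem_erase hk (hv k i₀ hvk.symm rfl)]
  rw [e1, e2]
  ring

/-! ### the bounds -/

/-- the blocks: section, point, auxiliary vector -/
def blocks : Fin 3 → Divisor Qb F := ![P.E, P.E, P.a]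

/-- the tuple of a section and a place -/
def tuple (c : Fin (RR.ell P.E) → Qb) (v : Place Qb F) :
    ∀ b : Fin 3, Fin (RR.ell (P.blocks b)) → Qb
  | 0 => c
  | 1 => vec P.E v
  | 2 => vec P.a v

/-- the cofactor vector as polynomials -/
def Wpoly (U : Fin (RR.ell P.E) × Fin (RR.ell P.E) → Qb) :
    P.RI → MvPolynomial (Σ b : Fin 3, Fin (RR.ell (P.blocks b))) Qb :=
  P.W U (fun j => MvPolynomial.X ⟨0, j⟩) (fun j => MvPolynomial.X ⟨1, j⟩)
    (fun i => MvPolynomial.X ⟨2, (finCongr P.ell_a).symm i⟩)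

theorem eval_Wpoly (U : Fin (RR.ell P.E) × Fin (RR.ell P.E) → Qb)
    (y : ∀ b : Fin 3, Fin (RR.ell (P.blocks b)) → Qb) (r : P.RI) :
    evalMH y (P.Wpoly U r) = P.W U (y 0) (y 1) (fun i => y 2 ((finCongr P.ell_a).symm i)) r := by
  have h := P.map_W (MvPolynomial.aeval (R := Qb)
    fun s : Σ b : Fin 3, Fin (RR.ell (P.blocks b)) => y s.1 s.2) U (fun j => MvPolynomial.X ⟨0, j⟩)
    (fun j => MvPolynomial.X ⟨1, j⟩) (fun i => MvPolynomial.X ⟨2, (finCongr P.ell_a).symm i⟩) r
  rw [evalMH]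
  refine Eq.trans ?_ (h.trans ?_)
  · rfl
  · simp [Function.comp_def]

theorem isMH_Wpoly (U : Fin (RR.ell P.E) × Fin (RR.ell P.E) → Qb) (r : P.RI) :
    IsMH (P.Wpoly U r) ![P.n - 1, P.n, 1] := by
  classical
  refine MvPolynomial.IsWeightedHomogeneous.sum _ _ _ fun k _ => ?_
  rcases k with l | l
  swap
  · simpa using MvPolynomial.isWeightedHomogeneous_zero Qb _ _
  rw [show (![P.n - 1, P.n, 1] : Fin 3 → ℕ) =
      (∑ i : P.RI, if i = Sum.inl l then 0 else
        Sum.elim (fun _ => Pi.single 0 1) (fun _ => Pi.single 1 1) i) + Pi.single 2 1 by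
    funext b
    rw [Pi.add_apply, Finset.sum_apply, Fintype.sum_sum_type]
    fin_cases b
    · simp [apply_ite (fun f : Fin 3 → ℕ => f 0), Finset.sum_ite, Finset.filter_ne']
    · simp [apply_ite (fun f : Fin 3 → ℕ => f 1)]
    · simp [apply_ite (fun f : Fin 3 → ℕ => f 2)]]
  refine MvPolynomial.IsWeightedHomogeneous.mul ?_ (isMH_X _)
  dsimp only
  rw [Matrix.adjugate_apply]
  refine isMH_det _ _ fun i j => ?_
  rw [Matrix.updateRow_apply]
  split_ifs with h
  · subst h
    rw [Pi.single_apply]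
    split_ifs
    · exact MvPolynomial.isWeightedHomogeneous_one Qb _
    · exact MvPolynomial.isWeightedHomogeneous_zero Qb _ _
  · rcases i with i | i <;> simp only [Sum.elim_inl, Sum.elim_inr, mat, cU, Matrix.of_apply] <;>
      refine MvPolynomial.IsWeightedHomogeneous.sum _ _ _ fun a _ => ?_ <;>
      rw [← add_zero (Pi.single _ 1 : Fin 3 → ℕ)] <;>
      refine MvPolynomial.IsWeightedHomogeneous.mul ?_ (isMH_C _)
    · exact isMH_X _
    · refine MvPolynomial.IsWeightedHomogeneous.sum _ _ _ fun b _ => ?_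
      rw [← zero_add (Pi.single _ 1 : Fin 3 → ℕ)]
      exact MvPolynomial.IsWeightedHomogeneous.mul (isMH_C _) (isMH_X _)

theorem tuple_ne {c : Fin (RR.ell P.E) → Qb} (hc : c ≠ 0) (v : Place Qb F) :
    ∀ b, P.tuple c v b ≠ 0
  | 0 => hc
  | 1 => P.e_ne v
  | 2 => vec_ne_zero P.two_g_le_a v

/-- a cofactor vector is non-zero -/
theorem exists_W_ne {c : Fin (RR.ell P.E) → Qb} (hc : c ≠ 0) (v : Place Qb F) :
    ∃ U, P.W U c (P.e v) (P.e1 v) ≠ 0 := by
  classical
  have hs : lc P.E c ≠ 0 := fun h => hc (lc_injective _ (h.trans (map_zero _).symm))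
  obtain ⟨e, he⟩ := exists_isZeros (lc_mem P.E c) hs P.degree_E
  let K := LinearMap.ker (evL P.E v ∘ₗ (bas P.E).equivFun.symm.toLinearMap)
  have hK : ∀ x : K, lc P.E x ∈ riemannRochSpace (P.E - Finsupp.single v 1) := fun x =>
    (ev_eq_zero_iff_mem (lc_mem _ _)).mp (LinearMap.mem_ker.mp x.2)
  let lift : K →ₗ[Qb] riemannRochSpace (P.E - Finsupp.single v 1) :=
    ((lc P.E).comp K.subtype).codRestrict _ hK
  have hlift : ∀ u, ∃ x : K, ev (P.E - Finsupp.single v 1) u (lc P.E x) ≠ 0 := by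
    intro u
    obtain ⟨f, hf, hne⟩ := exists_ev_ne (E := P.E - Finsupp.single v 1)
      (by rw [map_sub, degree_single_one]; have := P.two_g_le; omega) u
    obtain ⟨d, rfl⟩ := exists_lc (rr_sub_single_le P.E v hf)
    exact ⟨⟨d, LinearMap.mem_ker.mpr ((ev_eq_zero_iff_mem (lc_mem _ _)).mpr hf)⟩, hne⟩
  obtain ⟨x, hx⟩ := exists_forall_dual_ne (insert v (Finset.univ.image e))
    (fun u => evL (P.E - Finsupp.single v 1) u ∘ₗ lift) fun u _ h => by
      obtain ⟨d, hd⟩ := hlift u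
      exact hd (DFunLike.congr_fun h d)
  have hx0 : ev P.E v (lc P.E x) = 0 := LinearMap.mem_ker.mp x.2
  obtain ⟨a₀, ha₀⟩ := Function.ne_iff.mp (P.e_ne v)
  rw [Pi.zero_apply] at ha₀
  let U : Fin (RR.ell P.E) × Fin (RR.ell P.E) → Qb := fun p =>
    if p.1 = a₀ then x.1 p.2 / P.e v a₀ else 0
  have hU : P.cU U (P.e v) = x.1 := by
    funext j
    simp only [cU, U, Algebra.algebraMap_self, RingHom.id_apply, sub_mul, Finset.sum_sub_distrib]
    rw [Finset.sum_eq_single a₀ (fun a _ ha => by simp [ha]) (by simp), if_pos rfl,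
      div_mul_cancel₀ _ ha₀]
    by_cases hj : j = a₀
    · subst hj
      simp only [if_true, div_mul_eq_mul_div, ← Finset.sum_div]
      rw [show ∑ a, x.1 a * P.e v a = 0 from (ev_lc P.E v x.1).symm.trans hx0, zero_div, sub_zero]
    · simp [hj]
  refine ⟨U, fun hW => ?_⟩
  set M := P.mat c x.1 with hM
  obtain ⟨r₀, hr₀⟩ := Function.ne_iff.mp (P.e2_ne v)
  rw [Pi.zero_apply] at hr₀
  have hdet : (M.updateCol r₀ (Sum.elim (P.e1 v) (0 : Fin P.n → Qb))).det = 0 := by
    rw [← Matrix.cramer_apply, Matrix.cramer_eq_adjugate_mulVec]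
    rw [W, hU] at hW
    exact congrFun hW r₀
  obtain ⟨y, hy0, hy⟩ := Matrix.exists_vecMul_eq_zero_iff.mpr hdet
  have hyb : ∑ r, y r * Sum.elim (P.e1 v) (0 : Fin P.n → Qb) r = 0 := by
    have := congrFun hy r₀
    simpa [Matrix.vecMul, dotProduct, Matrix.updateCol_self] using this
  have hyM : Matrix.vecMul y M = 0 := by
    have hne : ∀ k, k ≠ r₀ → Matrix.vecMul y M k = 0 := fun k hk => by
      have := congrFun hy k
      simpa [Matrix.vecMul, dotProduct, Matrix.updateCol_ne hk] using this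
    funext k
    rcases eq_or_ne k r₀ with rfl | hk
    · have h1 : ∑ k, Matrix.vecMul y M k * P.e2 v k =
          ∑ r, y r * Matrix.mulVec M (P.e2 v) r := (Matrix.dotProduct_mulVec y M (P.e2 v)).symm
      rw [P.mulVec_e2, hx0, zero_smul, Finset.sum_eq_single k
        (fun j _ hj => by rw [hne j hj, zero_mul]) (by simp)] at h1
      have h2 : ∑ r, y r * (Sum.elim (ev P.E v (lc P.E c) • P.e1 v) 0 : P.RI → Qb) r =
          ev P.E v (lc P.E c) * ∑ r, y r * Sum.elim (P.e1 v) (0 : Fin P.n → Qb) r := by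
        rw [Finset.mul_sum]
        refine Finset.sum_congr rfl fun r _ => ?_
        rcases r with i | i <;> simp [mul_left_comm]
      rw [h2, hyb, mul_zero, mul_eq_zero, or_iff_left hr₀] at h1
      exact h1
    · exact hne k hk
  rw [hM, P.vecMul_mat, LinearEquiv.map_eq_zero_iff] at hyM
  have h' := congrArg Subtype.val hyM
  rw [Submodule.coe_add, coe_mulL, coe_mulL] at h'
  have hp0 : ev P.a v ((∑ i, y (Sum.inl i) • P.basA i : riemannRochSpace P.a) : F) = 0 := by
    rw [← evL_apply, map_sum, ← hyb, Fintype.sum_sum_type]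
    simp only [Sum.elim_inl, Sum.elim_inr, Pi.zero_apply, mul_zero, Finset.sum_const_zero,
      add_zero, map_smul, smul_eq_mul]
    rfl
  have hno : ∀ u, ev P.E u (lc P.E c) = 0 → ev P.E u (lc P.E x.1) = 0 →
      u = v ∧ ev (P.E - Finsupp.single v 1) v (lc P.E x.1) ≠ 0 := fun u hu hu' => by
    obtain ⟨k, rfl⟩ := (he.ev_eq_zero_iff u).mp hu
    by_cases hk : e k = v
    · exact ⟨hk, hx v (Finset.mem_insert_self _ _)⟩
    · exfalso
      refine hx (e k) (Finset.mem_insert_of_mem (Finset.mem_image_of_mem _ (Finset.mem_univ _))) ?_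
      show ev (P.E - Finsupp.single v 1) (e k) (lc P.E x.1) = 0
      rw [ev, Finsupp.sub_apply, Finsupp.single_eq_of_ne hk, sub_zero]
      exact hu'
  obtain ⟨hp, hq⟩ := P.eq_zero_of_relation' (lc_mem _ c) (lc_mem _ x.1) (v := v)
    hno (SetLike.coe_mem _) (SetLike.coe_mem _) hp0 h'
  have e1 := Fintype.linearIndependent_iff.mp P.basA.linearIndependent (fun i => y (Sum.inl i))
    (Subtype.ext hp)
  have e2 := Fintype.linearIndependent_iff.mp P.basA.linearIndependent (fun i => y (Sum.inr i))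
    (Subtype.ext hq)
  exact hy0 (funext fun r => by rcases r with i | i <;> simp [e1, e2])

theorem exists_dom_W_ge : ∃ s : Finset (P.RI × (Fin (RR.ell P.E) × Fin (RR.ell P.E) → Qb)),
    Dom (fun (z : {c : Fin (RR.ell P.E) → Qb // c ≠ 0} × Place Qb F) w =>
        nrm w z.1.1 ^ (P.n - 1) * nrm w (P.e z.2) ^ P.n * nrm w (vec P.a z.2))
      (fun z w => nrm w (fun m : s => P.W m.1.2 z.1.1 (P.e z.2) (P.e1 z.2) m.1.1)) := by
  classical
  have hno : ∀ y : ∀ b : Fin 3, Fin (RR.ell (P.blocks b)) → Qb, (∀ b, y b ≠ 0) →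
      (∀ q e, IsMH q e → (∀ z : {c : Fin (RR.ell P.E) → Qb // c ≠ 0} × Place Qb F,
        evalMH (P.tuple z.1.1 z.2) q = 0) → evalMH y q = 0) →
      ∃ m : P.RI × (Fin (RR.ell P.E) × Fin (RR.ell P.E) → Qb),
        evalMH y (P.Wpoly m.2 m.1) ≠ 0 := by
    intro y hy hcl
    let D2 : Fin 2 → Divisor Qb F := fun b => P.blocks b.succ
    obtain ⟨v, hv⟩ := exists_place_of_closed D2 (fun b => y b.succ) (fun b => hy b.succ)
      (fun b => by
        have := P.two_g_le; have := P.two_g_le_a; have := P.degree_a; have := P.hn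
        fin_cases b <;> simp [D2, blocks] <;> omega)
      (fun q e hq h => by
        let f : ∀ b : Fin 2, Fin (RR.ell (D2 b)) → Fin (RR.ell (P.blocks b.succ)) := fun b i => i
        have h1 := hcl _ _ (isMH_rename (κ := fun b => Fin (RR.ell (P.blocks b))) Fin.succ f hq)
          fun z => by
            rw [evalMH, MvPolynomial.eval_rename]
            refine Eq.trans ?_ (h z.2)
            rw [evalMH]
            refine congrArg (fun g => MvPolynomial.eval g q) (funext fun ⟨b, i⟩ => ?_)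
            fin_cases b <;> rfl
        rw [evalMH, MvPolynomial.eval_rename] at h1
        exact h1)
    obtain ⟨U, hU⟩ := P.exists_W_ne (hy 0) v
    obtain ⟨l₁, hl₁, hy1⟩ := hv 0
    obtain ⟨l₂, hl₂, hy2⟩ := hv 1
    obtain ⟨r, hr⟩ := Function.ne_iff.mp hU
    rw [Pi.zero_apply] at hr
    refine ⟨(r, U), fun h0 => hr ?_⟩
    let cs : Fin 3 → Qb := ![1, l₁, l₂]
    have h1 : evalMH (fun b => cs b • P.tuple (y 0) v b) (P.Wpoly U r) = 0 := by
      refine Eq.trans (congrArg (fun g => evalMH g (P.Wpoly U r)) (funext fun b => ?_)) h0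
      fin_cases b
      · exact one_smul _ _
      · exact hy1.symm
      · exact hy2.symm
    rw [evalMH_smul (P.isMH_Wpoly U r), mul_eq_zero, or_iff_right
      (Finset.prod_ne_zero_iff.mpr fun b _ => pow_ne_zero _ (by
        fin_cases b <;> simp [cs, hl₁, hl₂])), eval_Wpoly] at h1
    rw [P.e1_eq]
    exact h1
  obtain ⟨s, hs⟩ := exists_dom_mh_ge
    (fun (z : {c : Fin (RR.ell P.E) → Qb // c ≠ 0} × Place Qb F) => P.tuple z.1.1 z.2)
    (fun z b => P.tuple_ne z.1.2 z.2 b)
    (fun m : P.RI × (Fin (RR.ell P.E) × Fin (RR.ell P.E) → Qb) => P.Wpoly m.2 m.1)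
    ![P.n - 1, P.n, 1] (fun m => P.isMH_Wpoly m.2 m.1) hno
  refine ⟨s, ?_⟩
  convert hs using 3 with z w z w
  · simp [Fin.prod_univ_three, tuple]
    rfl
  · congr 1
    funext m
    rw [eval_Wpoly, P.e1_eq]
    rfl

theorem dom_e2_tensor : Dom
    (fun (v : Place Qb F) w => nrm w (P.e v) * nrm w (vec P.a v)) (fun v w => nrm w (P.e2 v)) := by
  classical
  let A : Matrix (Fin (RR.ell P.E) × Fin (RR.ell P.a)) P.RI Qb := Matrix.of fun p r =>
    P.crdb (P.mulL (Pi.single p.1 1) (bas P.a p.2)) r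
  refine (Dom.of_le fun v w => le_of_eq ?_).trans ((dom_linear A).comp P.e2)
  rw [← nrm_tensor]
  congr 1
  funext p
  show _ = ∑ r, A p r * P.e2 v r
  show P.e v p.1 * vec P.a v p.2 = ∑ r, P.crdb (P.mulL (Pi.single p.1 1) (bas P.a p.2)) r * P.e2 v r
  rw [P.sum_crdb, coe_mulL]
  show _ = ev (P.E + P.a) v _
  rw [ev_mul (bd_of_mem (lc_mem _ _)) (bd_of_mem (bas P.a p.2).2), ev_lc]
  simp [Pi.single_apply, vec]

theorem dom_tensor_e2 : Dom (fun (v : Place Qb F) w => nrm w (P.e2 v))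
    (fun v w => nrm w (P.e v) * nrm w (vec P.a v)) := by
  classical
  obtain ⟨f, hf, hfne⟩ := exists_ev_ne (E := P.E) (by have := P.two_g_le; omega) P.O
  obtain ⟨c, rfl⟩ := exists_lc hf
  obtain ⟨e, he⟩ := exists_isZeros (lc_mem P.E c) (fun h => hfne (by
    rw [h]
    have h' := ev_smul (E := P.E) (v := P.O) (0 : Qb) (f := (0 : F)) RR.Bd.zero
    rwa [zero_smul, zero_mul] at h')) P.degree_E
  obtain ⟨c', hc'⟩ := exists_forall_dual_ne (Finset.univ : Finset (Fin P.n))
    (fun l => evL P.E (e l) ∘ₗ (bas P.E).equivFun.symm.toLinearMap) fun l _ h => by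
      obtain ⟨g, hg, hne⟩ := exists_ev_ne (E := P.E) (by have := P.two_g_le; omega) (e l)
      obtain ⟨d, hd⟩ := exists_lc hg
      exact hne (hd ▸ DFunLike.congr_fun h d)
  set M := P.mat c c' with hM
  have hdet : M.det ≠ 0 := P.det_ne_zero fun v hv => by
    obtain ⟨l, rfl⟩ := (he.ev_eq_zero_iff v).mp hv
    exact hc' l (Finset.mem_univ _)
  let B : Matrix P.RI (Fin (RR.ell P.E) × Fin (RR.ell P.a)) Qb :=
    Matrix.of fun r p => Sum.elim
      (fun i => c p.1 * (Pi.single ((finCongr P.ell_a).symm i) 1 : Fin (RR.ell P.a) → Qb) p.2)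
      (fun i => c' p.1 * (Pi.single ((finCongr P.ell_a).symm i) 1 : Fin (RR.ell P.a) → Qb) p.2) r
  refine (Dom.of_le fun v w => le_of_eq ?_).trans (((dom_linear (M⁻¹ * B)).comp
    (fun v p => P.e v p.1 * vec P.a v p.2)).trans (Dom.of_le fun v w => le_of_eq (nrm_tensor w _ _)))
  congr 1
  rw [← Matrix.mulVec_mulVec]
  have hB : Matrix.mulVec B (fun p => P.e v p.1 * vec P.a v p.2) = Matrix.mulVec M (P.e2 v) := by
    rw [P.mulVec_e2, P.e1_eq]
    funext r
    rcases r with i | i <;>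
    · show ∑ p, _ * _ = _
      simp [B, Fintype.sum_prod_type, Pi.single_apply, ev_lc, Finset.sum_mul, mul_assoc]
  rw [hB, Matrix.mulVec_mulVec, Matrix.nonsing_inv_mul M (Ne.isUnit hdet), Matrix.one_mulVec]

set_option maxHeartbeats 1000000 in
theorem exists_dom_chow : ∀ κ : ((Fin (RR.ell P.E) → Qb) × (Fin P.n → Place Qb F)) → Qb,
    (∀ q, IsZeros P.E (lc P.E q.1) q.2 →
      ∀ c', (P.mat q.1 c').det = κ q * ∏ k, ∑ j, c' j * P.e (q.2 k) j) →
    Dom (fun (q : {q : (Fin (RR.ell P.E) → Qb) × (Fin P.n → Place Qb F) //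
        IsZeros P.E (lc P.E q.1) q.2}) w => nrm w q.1.1 ^ P.n)
      (fun q w => w (κ q.1) * ∏ k, nrm w (P.e (q.1.2 k))) ∧
    Dom (fun (q : {q : (Fin (RR.ell P.E) → Qb) × (Fin P.n → Place Qb F) //
        IsZeros P.E (lc P.E q.1) q.2}) w => w (κ q.1) * ∏ k, nrm w (P.e (q.1.2 k)))
      (fun q w => nrm w q.1.1 ^ P.n) := by
  classical
  intro κ hκ
  let ι : Fin 1 → Type := fun _ => Fin (RR.ell P.E)
  let p : (Fin (RR.ell P.E) → Qb) → MvPolynomial (Σ b, ι b) Qb := fun c' =>
    (P.mat (fun j => MvPolynomial.X (⟨0, j⟩ : Σ b, ι b)) (fun j => MvPolynomial.C (c' j))).det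
  have hpeval : ∀ (y : ∀ b, ι b → Qb) c', evalMH y (p c') = (P.mat (y 0) c').det := by
    intro y c'
    let φ : MvPolynomial (Σ b, ι b) Qb →ₐ[Qb] Qb := MvPolynomial.aeval fun s => y s.1 s.2
    show φ (p c') = _
    rw [AlgHom.map_det]
    congr 1
    show (P.mat _ _).map φ = _
    rw [P.map_mat]
    congr 1 <;> funext j <;> simp [φ]
  have hpMH : ∀ c', IsMH (p c') (fun _ => P.n) := by
    intro c'
    rw [show (fun _ : Fin 1 => P.n) =
      ∑ i : P.RI, Sum.elim (fun _ => Pi.single 0 1) (fun _ => 0) i by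
        funext b; fin_cases b; simp [Fintype.sum_sum_type, Finset.sum_apply]]
    refine isMH_det _ _ fun i j => ?_
    rcases i with i | i <;> simp only [Sum.elim_inl, Sum.elim_inr, mat, Matrix.of_apply] <;>
      refine MvPolynomial.IsWeightedHomogeneous.sum _ _ _ fun a _ => ?_
    · rw [← add_zero (Pi.single _ 1 : Fin 1 → ℕ)]
      exact MvPolynomial.IsWeightedHomogeneous.mul (isMH_X (ι := ι) ⟨0, a⟩) (isMH_C _)
    · rw [← add_zero (0 : Fin 1 → ℕ)]
      exact MvPolynomial.IsWeightedHomogeneous.mul (isMH_C _) (isMH_C _)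
  have hne : ∀ q : {q : (Fin (RR.ell P.E) → Qb) × (Fin P.n → Place Qb F) //
      IsZeros P.E (lc P.E q.1) q.2}, q.1.1 ≠ 0 := fun q h => q.2.ne (by rw [h, map_zero])
  constructor
  · obtain ⟨s, hs⟩ := exists_dom_mh_ge (β := Fin 1) (ι := ι)
      (fun (q : {q : (Fin (RR.ell P.E) → Qb) × (Fin P.n → Place Qb F) //
        IsZeros P.E (lc P.E q.1) q.2}) (_ : Fin 1) => q.1.1) (fun q _ => hne q) p (fun _ => P.n)
      hpMH fun y hy _ => by
        obtain ⟨e, he⟩ := exists_isZeros (lc_mem P.E (y 0))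
          (fun h => hy 0 (lc_injective _ (h.trans (map_zero _).symm))) P.degree_E
        obtain ⟨c', hc'⟩ := exists_forall_dual_ne (Finset.univ : Finset (Fin P.n))
          (fun l => evL P.E (e l) ∘ₗ (bas P.E).equivFun.symm.toLinearMap) fun l _ h => by
            obtain ⟨g, hg, hne⟩ := exists_ev_ne (E := P.E) (by have := P.two_g_le; omega) (e l)
            obtain ⟨d, hd⟩ := exists_lc hg
            exact hne (hd ▸ DFunLike.congr_fun h d)
        refine ⟨c', ?_⟩
        rw [hpeval]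
        refine P.det_ne_zero fun v hv => ?_
        obtain ⟨l, rfl⟩ := (he.ev_eq_zero_iff v).mp hv
        exact hc' l (Finset.mem_univ _)
    refine (Dom.of_le fun q w => le_of_eq (by simp)).trans (hs.trans ?_)
    refine Dom.iSup (fun m => ?_) fun q w =>
      mul_nonneg (w.nonneg _) (Finset.prod_nonneg fun k _ => nrm_nonneg _ _)
    refine (Dom.of_le fun q w => le_of_eq (?_ : _ = w (κ q.1) *
      ∏ k, w (∑ j, m.1 j * P.e (q.1.2 k) j))).trans ?_
    · show w (evalMH (fun _ => q.1.1) (p m.1)) = _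
      rw [hpeval, hκ q.1 q.2, map_mul, map_prod]
    refine Dom.mul (Dom.of_le fun q w => le_rfl) (Dom.prod Finset.univ (fun k _ => ?_)
      fun k _ q w => w.nonneg _) (fun q w => Finset.prod_nonneg fun k _ => w.nonneg _)
      fun q w => w.nonneg _
    refine (Dom.of_le fun q w => le_of_eq ?_).trans
      ((dom_linear (Matrix.of fun (_ : Unit) j => m.1 j)).comp
        fun q : {q : (Fin (RR.ell P.E) → Qb) × (Fin P.n → Place Qb F) //
          IsZeros P.E (lc P.E q.1) q.2} => P.e (q.1.2 k))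
    simp [nrm, Matrix.mulVec, dotProduct]
  · obtain ⟨N, U, hU⟩ := exists_test_points (Fin (RR.ell P.E)) P.n
    refine (Dom.mul (Dom.of_le (f := fun q w => w (κ q.1)) fun q w => le_rfl)
      (hU.comp fun (q : {q : (Fin (RR.ell P.E) → Qb) × (Fin P.n → Place Qb F) //
          IsZeros P.E (lc P.E q.1) q.2}) k => P.e (q.1.2 k))
      (fun q w => Finset.prod_nonneg fun k _ => nrm_nonneg _ _) fun q w => w.nonneg _).trans ?_
    refine ((Dom.of_le fun q w => le_of_eq ?_).trans ((dom_mh_le (fun j => p (U j)) (fun _ => P.n)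
      fun j => hpMH _).comp fun (q : {q : (Fin (RR.ell P.E) → Qb) × (Fin P.n → Place Qb F) //
          IsZeros P.E (lc P.E q.1) q.2}) (_ : Fin 1) => q.1.1)).trans
        (Dom.of_le fun q w => le_of_eq (by simp))
    rw [← nrm_smul]
    congr 1
    funext j
    rw [hpeval, hκ q.1 q.2, Pi.smul_apply, smul_eq_mul]

end Par

variable (P : Par F)

/-- both directions of the law, with `σ` the value or the derivative of the section -/
theorem Par.dom_law (Q : Type*) (q : Q → ((Fin (RR.ell P.E) → Qb) × (Fin P.n → Place Qb F)) ×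
    Place Qb F) (hq : ∀ x, IsZeros P.E (lc P.E (q x).1.1) (q x).1.2)
    (hs : ∀ x i j, (q x).1.2 i = (q x).2 → (q x).1.2 j = (q x).2 → i = j) :
    ∃ σ : Q → Qb, (∀ x, σ x ≠ 0) ∧
      (∀ x, ev P.E (q x).2 (lc P.E (q x).1.1) ≠ 0 → σ x = ev P.E (q x).2 (lc P.E (q x).1.1)) ∧
      Dom (fun x w => w (σ x)) (fun x w =>
        nrm w (q x).1.1 * nrm w (P.e (q x).2) * ∏ k, P.dloc w (q x).2 ((q x).1.2 k)) ∧
      Dom (fun x w => nrm w (q x).1.1 * nrm w (P.e (q x).2) * ∏ k, P.dloc w (q x).2 ((q x).1.2 k))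
        (fun x w => w (σ x)) := by
  classical
  choose σ κ hσ hκ0 hdet hσev hW using fun x => P.law_identity (hq x) (q x).2 (hs x)
  let c : Q → Fin (RR.ell P.E) → Qb := fun x => (q x).1.1
  let v : Q → Place Qb F := fun x => (q x).2
  let e : Q → Fin P.n → Place Qb F := fun x => (q x).1.2
  have hc : ∀ x, c x ≠ 0 := fun x h => (hq x).ne (by
    show lc P.E (c x) = 0
    rw [h, map_zero])
  obtain ⟨κf, hκf⟩ : ∃ κf : ((Fin (RR.ell P.E) → Qb) × (Fin P.n → Place Qb F)) → Qb,
      ∀ q, IsZeros P.E (lc P.E q.1) q.2 →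
        ∀ c', (P.mat q.1 c').det = κf q * ∏ k, ∑ j, c' j * P.e (q.2 k) j := by
    refine ⟨fun q => if h : IsZeros P.E (lc P.E q.1) q.2 then (P.exists_factor h).choose else 0,
      fun q h c' => ?_⟩
    dsimp only
    rw [dif_pos h]
    exact (P.exists_factor h).choose_spec.2 c'
  have hκeq : ∀ x, κ x = κf (q x).1 := by
    intro x
    obtain ⟨c', hc'⟩ := exists_forall_dual_ne (Finset.univ : Finset (Fin P.n))
      (fun l => evL P.E (e x l) ∘ₗ (bas P.E).equivFun.symm.toLinearMap) fun l _ h => by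
        obtain ⟨g, hg, hne⟩ := exists_ev_ne (E := P.E) (by have := P.two_g_le; omega) (e x l)
        obtain ⟨d, hd⟩ := exists_lc hg
        exact hne (hd ▸ DFunLike.congr_fun h d)
    refine mul_right_cancel₀ (Finset.prod_ne_zero_iff.mpr fun l _ => ?_)
      ((hdet x c').symm.trans (hκf _ (hq x) c'))
    rw [← ev_lc]
    exact hc' l (Finset.mem_univ _)
  obtain ⟨hlow, hup⟩ := P.exists_dom_chow κf hκf
  let toZ : Q → {q : (Fin (RR.ell P.E) → Qb) × (Fin P.n → Place Qb F) //
      IsZeros P.E (lc P.E q.1) q.2} := fun x => ⟨(q x).1, hq x⟩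
  have hlow' : Dom (fun x w => nrm w (c x) ^ P.n) (fun x w => w (κ x) * ∏ k, nrm w (P.e (e x k))) :=
    (hlow.comp toZ).trans (Dom.of_le fun x w => le_of_eq (by rw [hκeq]))
  have hup' : Dom (fun x w => w (κ x) * ∏ k, nrm w (P.e (e x k))) (fun x w => nrm w (c x) ^ P.n) :=
    (Dom.of_le fun x w => le_of_eq (by rw [hκeq])).trans (hup.comp toZ)
  have hn : P.n - 1 + 1 = P.n := by have := P.hn; omega
  -- the common factor
  let G : Q → Pl → ℝ := fun x w =>
    nrm w (c x) ^ (P.n - 1) * nrm w (P.e (v x)) ^ P.n * nrm w (vec P.a (v x))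
  have hG : ∀ x w, 0 < G x w := fun x w => mul_pos (mul_pos (pow_pos (nrm_pos w (hc x)) _)
    (pow_pos (nrm_pos w (P.e_ne _)) _)) (nrm_pos w (vec_ne_zero P.two_g_le_a _))
  let D : Q → Pl → ℝ := fun x w =>
    nrm w (c x) * nrm w (P.e (v x)) * ∏ k, P.dloc w (v x) (e x k)
  have hdel : ∀ x w, (∏ k, nrm w (P.del (v x) (e x k))) =
      (∏ k, P.dloc w (v x) (e x k)) * nrm w (P.e (v x)) ^ P.n * ∏ k, nrm w (P.e (e x k)) := by
    intro x w
    rw [show nrm w (P.e (v x)) ^ P.n = ∏ _k : Fin P.n, nrm w (P.e (v x)) by simp,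
      ← Finset.prod_mul_distrib, ← Finset.prod_mul_distrib]
    refine Finset.prod_congr rfl fun k _ => ?_
    rw [Par.dloc, mul_assoc, div_mul_cancel₀]
    exact mul_ne_zero (nrm_pos w (P.e_ne _)).ne' (nrm_pos w (P.e_ne _)).ne'
  have cancel : ∀ {f g : Q → Pl → ℝ},
      Dom (fun x w => f x w * G x w) (fun x w => g x w * G x w) → Dom f g := by
    rintro f g ⟨Γ, hΓ⟩
    refine ⟨Γ, fun x w => le_of_mul_le_mul_right ?_ (hG x w)⟩
    calc f x w * G x w ≤ gcst Γ w * (g x w * G x w) := hΓ x w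
      _ = gcst Γ w * g x w * G x w := by ring
  refine ⟨σ, hσ, hσev, cancel ?_, cancel ?_⟩
  · -- the section is small near its zeros
    obtain ⟨s, hs'⟩ := P.exists_dom_W_ge
    have h1 : Dom (fun x w => w (σ x) * G x w)
        (fun x w => w (σ x) * nrm w (fun m : s => P.W m.1.2 (c x) (P.e (v x)) (P.e1 (v x)) m.1.1)) :=
      Dom.mul (Dom.of_le fun x w => le_rfl) (hs'.comp fun x => (⟨c x, hc x⟩, v x))
        (fun x w => (hG x w).le) fun x w => w.nonneg _
    refine h1.trans ((Dom.of_le fun x w => le_of_eq (nrm_smul w _ _).symm).trans ?_)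
    refine (Dom.iSup (g := fun x w =>
      w (κ x) * (∏ k, nrm w (P.del (v x) (e x k))) * nrm w (P.e2 (v x))) (fun m => ?_)
      fun x w => mul_nonneg (mul_nonneg (w.nonneg _)
        (Finset.prod_nonneg fun k _ => nrm_nonneg _ _)) (nrm_nonneg _ _)).trans ?_
    · refine (Dom.of_le fun x w => le_of_eq (?_ : _ = w (κ x) *
        (∏ k, w (∑ p, m.1.2 p * P.del (v x) (e x k) p)) * w (P.e2 (v x) m.1.1))).trans ?_
      · have h := congrFun (hW x m.1.2) m.1.1
        rw [Pi.smul_apply, Pi.smul_apply, smul_eq_mul, smul_eq_mul] at h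
        rw [Pi.smul_apply, smul_eq_mul, h, map_mul, map_mul, map_prod]
      refine Dom.mul (Dom.mul (Dom.of_le fun x w => le_rfl) (Dom.prod Finset.univ (fun k _ => ?_)
        fun k _ x w => w.nonneg _) (fun x w => Finset.prod_nonneg fun k _ => w.nonneg _)
        fun x w => w.nonneg _) (Dom.of_le fun x w => le_nrm w _ _) (fun x w => w.nonneg _)
        fun x w => mul_nonneg (w.nonneg _) (Finset.prod_nonneg fun k _ => nrm_nonneg _ _)
      refine (Dom.of_le fun x w => le_of_eq ?_).trans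
        ((dom_linear (Matrix.of fun (_ : Unit) p => m.1.2 p)).comp fun x => P.del (v x) (e x k))
      simp [nrm, Matrix.mulVec, dotProduct]
    have h2 : Dom (fun x w => (∏ k, P.dloc w (v x) (e x k)) * nrm w (P.e (v x)) ^ P.n *
        (w (κ x) * ∏ k, nrm w (P.e (e x k))) * nrm w (P.e2 (v x)))
        (fun x w => (∏ k, P.dloc w (v x) (e x k)) * nrm w (P.e (v x)) ^ P.n *
          nrm w (c x) ^ P.n * (nrm w (P.e (v x)) * nrm w (vec P.a (v x)))) :=
      Dom.mul (Dom.mul (Dom.of_le fun x w => le_rfl) hup'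
        (fun x w => mul_nonneg (w.nonneg _) (Finset.prod_nonneg fun k _ => nrm_nonneg _ _))
        fun x w => mul_nonneg (Finset.prod_nonneg fun k _ => P.dloc_nonneg _ _ _)
          (pow_nonneg (nrm_nonneg _ _) _)) (P.dom_tensor_e2.comp v) (fun x w => nrm_nonneg _ _)
        fun x w => mul_nonneg (mul_nonneg (Finset.prod_nonneg fun k _ => P.dloc_nonneg _ _ _)
          (pow_nonneg (nrm_nonneg _ _) _)) (pow_nonneg (nrm_nonneg _ _) _)
    refine ((Dom.of_le fun x w => le_of_eq ?_).trans h2).trans (Dom.of_le fun x w => le_of_eq ?_)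
    · rw [hdel]; ring
    · simp only [G]
      rw [show nrm w (c x) ^ P.n = nrm w (c x) ^ (P.n - 1) * nrm w (c x) by rw [← pow_succ, hn]]
      show _ = nrm w (c x) * nrm w (P.e (v x)) * _ * _
      ring
  · -- and not smaller
    obtain ⟨N, U, hU⟩ := exists_test_points (Fin (RR.ell P.E) × Fin (RR.ell P.E)) P.n
    have h1 : Dom (fun x w => D x w * G x w) (fun x w => (∏ k, P.dloc w (v x) (e x k)) *
        nrm w (P.e (v x)) ^ P.n * (w (κ x) * ∏ k, nrm w (P.e (e x k))) * nrm w (P.e2 (v x))) := by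
      refine (Dom.of_le fun x w => le_of_eq (?_ : _ = (∏ k, P.dloc w (v x) (e x k)) *
        nrm w (P.e (v x)) ^ P.n * nrm w (c x) ^ P.n *
          (nrm w (P.e (v x)) * nrm w (vec P.a (v x))))).trans ?_
      · simp only [D, G]
        rw [show nrm w (c x) ^ P.n = nrm w (c x) ^ (P.n - 1) * nrm w (c x) by rw [← pow_succ, hn]]
        ring
      exact Dom.mul (Dom.mul (Dom.of_le fun x w => le_rfl) hlow'
        (fun x w => pow_nonneg (nrm_nonneg _ _) _)
        fun x w => mul_nonneg (Finset.prod_nonneg fun k _ => P.dloc_nonneg _ _ _)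
          (pow_nonneg (nrm_nonneg _ _) _)) (P.dom_e2_tensor.comp v)
        (fun x w => mul_nonneg (nrm_nonneg _ _) (nrm_nonneg _ _))
        fun x w => mul_nonneg (mul_nonneg (Finset.prod_nonneg fun k _ => P.dloc_nonneg _ _ _)
          (pow_nonneg (nrm_nonneg _ _) _)) (mul_nonneg (w.nonneg _)
            (Finset.prod_nonneg fun k _ => nrm_nonneg _ _))
    refine h1.trans ((Dom.of_le fun x w => le_of_eq (?_ : _ = w (κ x) *
      (∏ k, nrm w (P.del (v x) (e x k))) * nrm w (P.e2 (v x)))).trans ?_)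
    · rw [hdel]; ring
    refine (Dom.mul (Dom.mul (Dom.of_le (f := fun x w => w (κ x)) fun x w => le_rfl)
      (hU.comp fun x k => P.del (v x) (e x k))
      (fun x w => Finset.prod_nonneg fun k _ => nrm_nonneg _ _) fun x w => w.nonneg _)
      (Dom.of_le fun x w => le_rfl) (fun x w => nrm_nonneg _ _)
      fun x w => mul_nonneg (w.nonneg _) (nrm_nonneg _ _)).trans ?_
    refine (Dom.of_le fun x w => le_of_eq (?_ : _ =
      w (σ x) * nrm w (fun m : P.RI × Fin N =>
        P.W (U m.2) (c x) (P.e (v x)) (P.e1 (v x)) m.1))).trans ?_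
    · rw [← nrm_smul, ← nrm_tensor, ← nrm_smul]
      refine le_antisymm (nrm_le (nrm_nonneg _ _) fun p => ?_) (nrm_le (nrm_nonneg _ _) fun m => ?_)
      · refine le_trans (le_of_eq (congrArg w ?_)) (le_nrm w _ (p.2, p.1))
        have h := congrFun (hW x (U p.1)) p.2
        simp only [Pi.smul_apply, smul_eq_mul] at h ⊢
        rw [h]
      · refine le_trans (le_of_eq (congrArg w ?_)) (le_nrm w _ (m.2, m.1))
        have h := congrFun (hW x (U m.2)) m.1
        simp only [Pi.smul_apply, smul_eq_mul] at h ⊢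
        rw [h]
    refine Dom.mul (Dom.of_le fun x w => le_rfl) ?_ (fun x w => nrm_nonneg _ _) fun x w => w.nonneg _
    refine ((Dom.of_le fun x w => le_of_eq ?_).trans
      ((dom_mh_le (fun m : P.RI × Fin N => P.Wpoly (U m.2) m.1) ![P.n - 1, P.n, 1]
        fun m => P.isMH_Wpoly _ _).comp fun x => P.tuple (c x) (v x))).trans
      (Dom.of_le fun x w => le_of_eq (by simp [Fin.prod_univ_three, Par.tuple, G]; rfl))
    congr 1
    funext m
    rw [Par.eval_Wpoly, Par.e1_eq]
    rfl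

/-- a section is at most its norm times the distances to its zeros -/
theorem dom_eval_le : Dom
    (fun (q : {q : ((Fin (RR.ell P.E) → Qb) × (Fin P.n → Place Qb F)) × Place Qb F //
      IsZeros P.E (lc P.E q.1.1) q.1.2}) w => w (∑ i, q.1.1.1 i * P.e q.1.2 i))
    (fun q w => nrm w q.1.1.1 * nrm w (P.e q.1.2) * ∏ k, P.dloc w q.1.2 (q.1.1.2 k)) := by
  let Q := {q : ((Fin (RR.ell P.E) → Qb) × (Fin P.n → Place Qb F)) × Place Qb F //
    IsZeros P.E (lc P.E q.1.1) q.1.2 ∧ ev P.E q.2 (lc P.E q.1.1) ≠ 0}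
  obtain ⟨σ, -, hσ, hle, -⟩ := P.dom_law Q Subtype.val (fun x => x.2.1) fun x i j hi _ =>
    absurd ((x.2.1.ev_eq_zero_iff _).mpr ⟨i, hi⟩) x.2.2
  obtain ⟨Γ, hΓ⟩ := hle
  refine ⟨Γ, fun q w => ?_⟩
  by_cases h0 : ev P.E q.1.2 (lc P.E q.1.1.1) = 0
  · dsimp only
    rw [show ∑ i, q.1.1.1 i * P.e q.1.2 i = 0 from (ev_lc P.E _ _).symm.trans h0, map_zero]
    exact mul_nonneg (gcst_nonneg _ _) (mul_nonneg (mul_nonneg (nrm_nonneg _ _) (nrm_nonneg _ _))
      (Finset.prod_nonneg fun k _ => P.dloc_nonneg _ _ _))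
  · let x : Q := ⟨q.1, q.2, h0⟩
    have e1 : ∑ i, q.1.1.1 i * P.e q.1.2 i = σ x := by
      rw [hσ x h0, ev_lc]
    have e2 : w (σ x) ≤ gcst Γ w *
        (nrm w q.1.1.1 * nrm w (P.e q.1.2) * ∏ k, P.dloc w q.1.2 (q.1.1.2 k)) := hΓ x w
    exact (le_of_eq (congrArg w e1)).trans e2

/-- the law -/
theorem height_law : ∃ C : ℝ, ∀ (c : Fin (RR.ell P.E) → Qb) (e : Fin P.n → Place Qb F) v,
    IsZeros P.E (lc P.E c) e → (∀ i j, e i = v → e j = v → i = j) →
    |∑ k, P.hd v (e k) - P.hP v - ht c| ≤ C := by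
  let Q := {q : ((Fin (RR.ell P.E) → Qb) × (Fin P.n → Place Qb F)) × Place Qb F //
    IsZeros P.E (lc P.E q.1.1) q.1.2 ∧ ∀ i j, q.1.2 i = q.2 → q.1.2 j = q.2 → i = j}
  obtain ⟨σ, hσ0, -, hle, hge⟩ := P.dom_law Q Subtype.val (fun x => x.2.1) fun x => x.2.2
  obtain ⟨C₁, h₁⟩ := hle.height
  obtain ⟨C₂, h₂⟩ := hge.height
  refine ⟨max C₁ C₂, fun c e v he hv => ?_⟩
  let x : Q := ⟨((c, e), v), he, hv⟩
  have hc : c ≠ 0 := fun h => he.ne (by rw [h, map_zero])
  have hl : HasH (fun w => w (σ x)) 0 := hasH_abs (hσ0 x)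
  have hr : HasH (fun w => nrm w c * nrm w (P.e v) * ∏ k, P.dloc w v (e k))
      (ht c + P.hP v + ∑ k, -P.hd v (e k)) :=
    ((hasH_nrm hc).mul (P.hasH_e v)).mul (HasH.prod _ fun k _ => P.hasH_dloc v (e k))
  have e1 := h₁ x _ _ hl hr
  have e2 := h₂ x _ _ hr hl
  rw [Finset.sum_neg_distrib] at e1 e2
  rw [abs_le]
  constructor <;> [linarith [le_max_right C₁ C₂]; linarith [le_max_left C₁ C₂]]

/-- the Chow form -/
theorem height_chow : ∃ C : ℝ, ∀ (c : Fin (RR.ell P.E) → Qb) (e : Fin P.n → Place Qb F),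
    IsZeros P.E (lc P.E c) e → |∑ k, P.hP (e k) - P.n * ht c| ≤ C := by
  classical
  let κ : (Fin (RR.ell P.E) → Qb) × (Fin P.n → Place Qb F) → Qb := fun q =>
    if h : IsZeros P.E (lc P.E q.1) q.2 then (P.exists_factor h).choose else 0
  have hκ : ∀ q, IsZeros P.E (lc P.E q.1) q.2 →
      ∀ c', (P.mat q.1 c').det = κ q * ∏ k, ∑ j, c' j * P.e (q.2 k) j := fun q h c' => by
    simp only [κ, dif_pos h]
    exact (P.exists_factor h).choose_spec.2 c'
  obtain ⟨hlow, hup⟩ := P.exists_dom_chow κ hκ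
  obtain ⟨C₁, h₁⟩ := hlow.height
  obtain ⟨C₂, h₂⟩ := hup.height
  refine ⟨max C₁ C₂, fun c e he => ?_⟩
  have hc : c ≠ 0 := fun h => he.ne (by rw [h, map_zero])
  have hκ0 : κ (c, e) ≠ 0 := by
    simp only [κ, dif_pos he]
    exact (P.exists_factor he).choose_spec.1
  have hl : HasH (fun w => w (κ (c, e)) * ∏ k, nrm w (P.e (e k))) (0 + ∑ k, P.hP (e k)) :=
    (hasH_abs hκ0).mul (HasH.prod _ fun k _ => P.hasH_e (e k))
  have hr : HasH (fun w => nrm w c ^ P.n) (P.n * ht c) := (hasH_nrm hc).pow _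
  have e1 := h₁ ⟨(c, e), he⟩ _ _ hr hl
  have e2 := h₂ ⟨(c, e), he⟩ _ _ hl hr
  rw [abs_le]
  constructor <;> [linarith [le_max_left C₁ C₂]; linarith [le_max_right C₁ C₂]]

/-- the height at `v` against the distance to the base point -/
theorem height_base : ∃ C : ℝ, ∀ v, v ≠ P.O → |(P.n : ℝ) * P.hd v P.O - P.hP v| ≤ C := by
  classical
  obtain ⟨C, hC⟩ := height_law P
  have h1 : (1 : F) ∈ riemannRochSpace P.E := AJ.mem_rrSpace.mpr fun u =>
    RR.bd_iff.mpr (Or.inr (by
      rw [u.ord_one, Par.E, Finsupp.single_apply]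
      split_ifs <;> omega))
  have he : IsZeros P.E (lc P.E (crd P.E h1)) (fun _ : Fin P.n => P.O) := by
    refine ⟨lc_mem _ _, by rw [lc_crd]; exact one_ne_zero, Finsupp.ext fun u => ?_⟩
    rw [lc_crd, zdiv_apply one_ne_zero, u.ord_one, add_zero]
    simp [AJ.sumPts, Par.E, Finsupp.single_apply]
  refine ⟨C + |ht (crd P.E h1)|, fun v hv => ?_⟩
  have := hC _ _ v he fun i j hi => absurd hi (Ne.symm hv)
  rw [Finset.sum_const, Finset.card_univ, Fintype.card_fin, nsmul_eq_mul, abs_le] at this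
  rw [abs_le]
  have h2 := le_abs_self (ht (crd P.E h1))
  have h3 := neg_abs_le (ht (crd P.E h1))
  constructor <;> linarith

end FLTAgent.MW
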