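import Fermat.Agent.MW.Setup

/-!
Members of complete linear systems in prescribed position; classes normalised at the base point.
-/

set_option autoImplicit false

noncomputable section

open AlgebraicCurve
open FLTAgent.RR (Bd)

namespace FLTAgent.MW

section Members

variable {K F : Type*} [Field K] [Field F] [Algebra K F] [IsAlgClosed K] [CharZero K]
  [RR.FnField K F] {E : Divisor K F}

theorem ev_zero (E : Divisor K F) (v : Place K F) : ev E v (0 : F) = 0 := by
  simpa [ev] using AJ.val_algebraMap v (0 : K)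

theorem zdiv_eq_zero_of_ev_ne {f : F} (hf : f ∈ riemannRochSpace E) {u : Place K F}
    (h : ev E u f ≠ 0) : zdiv E f u = 0 := by
  have hf0 : f ≠ 0 := fun h0 => h (by rw [h0, ev_zero])
  have h1 := zdiv_nonneg hf hf0 u
  rw [Ne, ev_eq_zero_iff (hf u), RR.bd_iff_ord hf0] at h
  rw [zdiv_apply hf0] at h1 ⊢
  omega

theorem isPrincipal_zdiv_sub {f : F} (hf : f ≠ 0) : (zdiv E f - E).IsPrincipal :=
  ⟨f, hf, fun v => by rw [Finsupp.sub_apply, zdiv_apply hf]; ring⟩

theorem exists_ev_ne_forall (hE : 2 * (genusFF K F : ℤ) ≤ Divisor.degree E)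
    (s : Finset (Place K F)) :
    ∃ f ∈ riemannRochSpace E, f ≠ 0 ∧ ∀ v ∈ s, ev E v f ≠ 0 := by
  classical
  obtain ⟨v₀, -⟩ := exists_place_avoid (K := K) (F := F) ∅
  obtain ⟨x, hx⟩ := exists_forall_dual_ne (insert v₀ s) (fun v => evL E v) fun v _ h => by
    obtain ⟨f, hf, hne⟩ := exists_ev_ne hE v
    exact hne (LinearMap.congr_fun h ⟨f, hf⟩)
  exact ⟨x, x.2, fun h0 => hx v₀ (Finset.mem_insert_self _ _) (by rw [evL_apply, h0, ev_zero]),
    fun v hv => hx v (Finset.mem_insert_of_mem hv)⟩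

/-- a reduced member avoiding finitely many places -/
theorem exists_reduced_member (hE : 2 * (genusFF K F : ℤ) ≤ Divisor.degree E)
    (s : Finset (Place K F)) :
    ∃ f ∈ riemannRochSpace E, f ≠ 0 ∧ (∀ v ∈ s, zdiv E f v = 0) ∧ ∀ v, zdiv E f v ≤ 1 := by
  classical
  obtain ⟨g, hg, hg0, hgs⟩ := exists_ev_ne_forall hE s
  rcases eq_or_ne (zdiv E g) 0 with hz | hz
  · exact ⟨g, hg, hg0, fun v _ => by simp [hz], fun v => by simp [hz]⟩
  obtain ⟨f, hf, hf0, hfz⟩ := exists_ev_ne_forall hE (zdiv E g).support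
  obtain ⟨u, hu⟩ := Finsupp.support_nonempty_iff.mpr hz
  have hgz : ∀ v ∈ (zdiv E g).support, ev E v g = 0 := fun v hv => by
    by_contra h
    exact Finsupp.mem_support_iff.mp hv (zdiv_eq_zero_of_ev_ne hg h)
  rcases RR.exists_const_or_transcendental (K := K) (f / g) with ⟨c, hc⟩ | hx
  · exfalso
    have e : f = c • g := by rw [Algebra.smul_def, hc, div_mul_cancel₀ _ hg0]
    exact hfz u hu (by rw [e, ev_smul c (hg u), hgz u hu, mul_zero])
  obtain ⟨c, hc⟩ := Infinite.exists_notMem_finset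
    ((s ∪ (RR.Kd hx).support).image fun v => RR.res (f / g) v)
  have hmem : f - c • g ∈ riemannRochSpace E := Submodule.sub_mem _ hf (Submodule.smul_mem _ c hg)
  have hne : f / g - algebraMap K F c ≠ 0 :=
    fun h => RR.transcendental_sub_const hx c (by rw [h]; exact isAlgebraic_zero)
  have heq : f - c • g = g * (f / g - algebraMap K F c) := by
    rw [mul_sub, mul_div_cancel₀ _ hg0, Algebra.smul_def, mul_comm g]
  have hF0 : f - c • g ≠ 0 := by rw [heq]; exact mul_ne_zero hg0 hne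
  have key : ∀ v, (v ∈ s → zdiv E (f - c • g) v = 0) ∧ zdiv E (f - c • g) v ≤ 1 := by
    intro v
    by_cases hv : v ∈ (zdiv E g).support
    · have h0 : zdiv E (f - c • g) v = 0 := zdiv_eq_zero_of_ev_ne hmem (by
        rw [sub_eq_add_neg, ← neg_smul, ev_add (hf v) ((RR.Bd.smul (hg v) _)), ev_smul _ (hg v),
          hgz v hv, mul_zero, add_zero]
        exact hfz v hv)
      exact ⟨fun _ => h0, by omega⟩
    rw [Finsupp.notMem_support_iff, zdiv_apply hg0] at hv
    have hval : zdiv E (f - c • g) v = v.ord (f / g - algebraMap K F c) := by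
      rw [zdiv_apply hF0, heq, v.ord_mul hg0 hne]
      omega
    have h1 := zdiv_nonneg hmem hF0 v
    rw [hval] at h1 ⊢
    by_cases hpos : 0 < v.ord (f / g - algebraMap K F c)
    · have hres := RR.res_eq_of_ord_pos hpos
      have hv' : v ∉ s ∪ (RR.Kd hx).support := fun h =>
        hc (Finset.mem_image.mpr ⟨v, h, hres⟩)
      rw [Finset.mem_union, not_or, Finsupp.notMem_support_iff, RR.Kd_apply,
        RR.kd_of_zero hpos] at hv'
      exact ⟨fun h => absurd h hv'.1, by omega⟩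
    · exact ⟨fun _ => by omega, by omega⟩
  exact ⟨_, hmem, hF0, fun v hv => (key v).1 hv, fun v => (key v).2⟩

end Members

namespace Par

variable {F : Type} [Field F] [Algebra Qb F] [RR.FnField Qb F] (P : Par F)

theorem cls_single_O (k : ℤ) : P.cls (Finsupp.single P.O k) = 0 := by
  rw [← Pic0.mk_zero]
  exact congrArg Pic0.mk (Subtype.ext (by simp [RR.deg_eq_one]))

theorem cls_E : P.cls P.E = 0 := P.cls_single_O _

theorem cls_eq_iff {D D' : Divisor Qb F} (h : Divisor.degree D = Divisor.degree D') :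
    P.cls D = P.cls D' ↔ (D - D').IsPrincipal := by
  show Pic0.mk _ = Pic0.mk _ ↔ _
  rw [Pic0.mk, Pic0.mk, QuotientAddGroup.eq_iff_sub_mem, AddSubgroup.mem_addSubgroupOf,
    ← Divisor.mem_principal, AddSubgroup.coe_sub]
  dsimp only
  rw [h, sub_sub_sub_cancel_right]

theorem cls_zdiv {D : Divisor Qb F} {f : F} (hf : f ≠ 0) : P.cls (zdiv D f) = P.cls D :=
  (P.cls_eq_iff (degree_zdiv hf)).mpr (isPrincipal_zdiv_sub hf)

theorem ell_congr {D D' : Divisor Qb F} (h : Divisor.degree D = Divisor.degree D')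
    (hc : P.cls D = P.cls D') : RR.ell D = RR.ell D' := by
  obtain ⟨f, hf, hD⟩ := (P.cls_eq_iff h).mp hc
  have := RR.ell_add_principal D' hf hD
  rwa [add_sub_cancel] at this

theorem exists_cls (x : Pic0 Qb F) (k : ℤ) :
    ∃ D : Divisor Qb F, Divisor.degree D = k ∧ P.cls D = x := by
  obtain ⟨D₀, rfl⟩ := Pic0.mk_surjective x
  have h0 : Divisor.degree (D₀ : Divisor Qb F) = 0 := Divisor.mem_degZero.mp D₀.2
  refine ⟨D₀ + Finsupp.single P.O k, ?_, ?_⟩
  · rw [map_add, h0, degree_single_int, zero_add]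
  · rw [map_add, P.cls_single_O, add_zero]
    exact congrArg Pic0.mk (Subtype.ext (by simp [h0]))

/-- reduced effective divisors in every class of large degree -/
theorem exists_member (x : Pic0 Qb F) {k : ℕ} (hk : 2 * genusFF Qb F ≤ k)
    (s : Finset (Place Qb F)) :
    ∃ D : Divisor Qb F, (∀ v, 0 ≤ D v) ∧ (∀ v, D v ≤ 1) ∧ (∀ v ∈ s, D v = 0) ∧
      Divisor.degree D = k ∧ P.cls D = x := by
  obtain ⟨D, hdeg, hcls⟩ := P.exists_cls x k
  obtain ⟨f, hf, hf0, hs, hle⟩ := exists_reduced_member (E := D) (by rw [hdeg]; exact_mod_cast hk) s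
  exact ⟨zdiv D f, zdiv_nonneg hf hf0, hle, hs, (degree_zdiv hf0).trans hdeg,
    (P.cls_zdiv hf0).trans hcls⟩

end Par

end FLTAgent.MW
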