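import Fermat.Agent.MW.WeakKummer
import Fermat.Agent.Reduction.API
import Fermat.Agent.EIS.Divisible
import Fermat.Agent.HeckeJ.API
import Fermat.Agent.Flat.API
import Fermat.Agent.SS2.Unramified

/-!
Weak Mordell-Weil at `2` for `J₀(N)` over `ℚ`.
-/

set_option autoImplicit false
set_option linter.style.haveILetI false
set_option linter.unusedSectionVars false

noncomputable section

open ModularCurve AlgebraicCurve
open scoped NumberField

namespace FLTAgent.MW

local notation "Qb" => AlgebraicClosure ℚ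
local notation "GQ" => AlgebraicClosure ℚ ≃ₐ[ℚ] AlgebraicClosure ℚ

variable (N : ℕ) [NeZero N]

/-- the kernel of the action on the two-torsion -/
def twoFix : Subgroup GQ where
  carrier := {σ | ∀ w : JZero N, 2 • w = 0 → σ • w = w}
  mul_mem' := fun {a b} ha hb w hw => by rw [mul_smul, hb w hw, ha w hw]
  one_mem' := fun w _ => one_smul _ w
  inv_mem' := fun {a} ha w hw => by rw [inv_smul_eq_iff, ha w hw]

variable {N}

theorem isOpen_twoFix : IsOpen (twoFix N : Set GQ) := by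
  classical
  choose L hL hLf using fun w : JZero N => HeckeJ.exists_level N w
  haveI := fun w => hL w
  haveI : Finite {w : JZero N | 2 • w = 0} := (Flat.finite_torsion (N := N) 2 two_pos).to_subtype
  refine Subgroup.isOpen_mono (H₁ := (⨆ w : {w : JZero N | 2 • w = 0}, L w.1).fixingSubgroup) ?_
    (IntermediateField.fixingSubgroup_isOpen _)
  intro σ hσ w hw
  exact hLf w σ fun y hy => (IntermediateField.mem_fixingSubgroup_iff _ σ).mp hσ y
    (le_iSup (fun v : {w : JZero N | 2 • w = 0} => L v.1) ⟨w, hw⟩ hy)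

theorem twoFix_quotient_finite : Finite (GQ ⧸ twoFix N) := by
  haveI := Common.isGalois_qbar
  exact Subgroup.quotient_finite_of_isOpen _ isOpen_twoFix

theorem nsmul_smul_comm (σ : GQ) (n : ℕ) (z : JZero N) : n • σ • z = σ • n • z :=
  (map_nsmul (DistribSMul.toAddMonoidHom (JZero N) σ) n z).symm

/-- inertia prime to `2N` fixes the halves of fixed classes -/
theorem inertia_fix_half {ℓ : ℕ} (hℓ : ℓ.Prime) (hℓN : ¬ ℓ ∣ 2 * N) {A : ValuationSubring Qb}
    (hA : A.LiesOverPrime ℓ) {σ : GQ} (hσ : σ ∈ A.inertiaSubgroupIn ℚ) {y : JZero N}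
    (hy : ∀ τ : GQ, τ • (2 • y) = 2 • y) : σ • y = y := by
  have C : Reduction.Ctx A N ℓ := ⟨hℓ, fun h => hℓN (h.mul_left 2), hA⟩
  refine sub_eq_zero.mp (Reduction.eq_zero_of_torsion C (m := 2) (fun h => hℓN (h.mul_right N)) ?_ ?_)
  · rw [nsmul_sub, nsmul_smul_comm, hy, sub_self]
  · rw [map_sub, Reduction.reductionModL_inertia C hσ, sub_self]

theorem inertia_le_twoFix {ℓ : ℕ} (hℓ : ℓ.Prime) (hℓN : ¬ ℓ ∣ 2 * N) {A : ValuationSubring Qb}
    (hA : A.LiesOverPrime ℓ) : A.inertiaSubgroupIn ℚ ≤ twoFix N := fun σ hσ w hw =>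
  inertia_fix_half hℓ hℓN hA hσ fun τ => by
    rw [hw]; exact map_zero (DistribSMul.toAddMonoidHom (JZero N) τ)

/-- an index two subgroup cut out by a square root -/
theorem exists_sqrt {H K : Subgroup GQ} (hK : IsOpen (K : Set GQ)) (hKH : K ≤ H) {σ₀ : GQ}
    (hσ₀ : σ₀ ∈ H) (hσ₀K : σ₀ ∉ K) (hmul : ∀ a ∈ H, ∀ b ∈ H, a ∉ K → b ∉ K → a * b ∈ K) :
    ∃ s : Qb, s ≠ 0 ∧ IsIntegral ℤ s ∧ (∀ h ∈ H, h (s ^ 2) = s ^ 2) ∧
      ∀ h ∈ H, (h s = s ↔ h ∈ K) := by
  classical
  haveI := Common.isGalois_qbar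
  have hfix : (IntermediateField.fixedField K).fixingSubgroup = K :=
    InfiniteGalois.fixingSubgroup_fixedField
      (⟨K, Subgroup.isClosed_of_isOpen K hK⟩ : ClosedSubgroup GQ)
  obtain ⟨z, hz, hzne⟩ : ∃ z ∈ IntermediateField.fixedField K, σ₀ z ≠ z := by
    by_contra hcon
    push Not at hcon
    exact hσ₀K (hfix ▸ (IntermediateField.mem_fixingSubgroup_iff _ σ₀).mpr hcon)
  rw [IntermediateField.mem_fixedField_iff] at hz
  have hd : ∃ d : ℤ, d ≠ 0 ∧ IsIntegral ℤ ((d : Qb) * z) := by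
    obtain ⟨d, hd, h⟩ := ((IsFractionRing.isAlgebraic_iff ℤ ℚ Qb (x := z)).mpr
      (Algebra.IsAlgebraic.isAlgebraic z)).exists_integral_multiple
    exact ⟨d, hd, by simpa [Algebra.smul_def] using h⟩
  obtain ⟨d, hd0, hdint⟩ := hd
  set z' : Qb := (d : Qb) * z with hz'
  have hz'K : ∀ k ∈ K, k z' = z' := fun k hk => by rw [hz', map_mul, map_intCast, hz k hk]
  have hz'ne : σ₀ z' ≠ z' := fun h => hzne (mul_left_cancel₀ (Int.cast_ne_zero.mpr hd0)
    (by rw [hz', map_mul, map_intCast] at h; exact h))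
  have hsq : σ₀ * σ₀ ∈ K := hmul σ₀ hσ₀ σ₀ hσ₀ hσ₀K hσ₀K
  set s := z' - σ₀ z' with hs
  have hKs : ∀ k ∈ K, k s = s := fun k hk => by
    have hconj : σ₀⁻¹ * k * σ₀ ∈ K := by
      have h1 : k * σ₀ ∈ H := mul_mem (hKH hk) hσ₀
      have h2 : k * σ₀ ∉ K := fun h => hσ₀K (by simpa using mul_mem (inv_mem hk) h)
      have h3 : σ₀⁻¹ ∉ K := fun h => hσ₀K (by simpa using inv_mem h)
      simpa [mul_assoc] using hmul σ₀⁻¹ (inv_mem hσ₀) _ h1 h3 h2
    have : k (σ₀ z') = σ₀ z' := by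
      have h := congrArg σ₀ (hz'K _ hconj)
      simpa [AlgEquiv.mul_apply, AlgEquiv.aut_inv] using h
    rw [hs, map_sub, hz'K k hk, this]
  have hσs : σ₀ s = -s := by
    have h := hz'K _ hsq
    rw [AlgEquiv.mul_apply] at h
    rw [hs, map_sub, h, neg_sub]
  have hs0 : s ≠ 0 := sub_ne_zero.mpr (Ne.symm hz'ne)
  have hnot : ∀ h ∈ H, h ∉ K → h s = -s := fun h hh hhK => by
    have h1 : σ₀⁻¹ * h ∈ K :=
      hmul σ₀⁻¹ (inv_mem hσ₀) h hh (fun e => hσ₀K (by simpa using inv_mem e)) hhK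
    have h2 := congrArg σ₀ (hKs _ h1)
    rw [hσs] at h2
    simpa [AlgEquiv.mul_apply, AlgEquiv.aut_inv] using h2
  refine ⟨s, hs0, hdint.sub (hdint.map (σ₀.toAlgHom.restrictScalars ℤ)), fun h hh => ?_,
    fun h hh => ⟨fun he => ?_, hKs h⟩⟩
  · by_cases hhK : h ∈ K
    · rw [map_pow, hKs h hhK]
    · rw [map_pow, hnot h hh hhK, neg_sq]
  · by_contra hhK
    rw [hnot h hh hhK, neg_eq_self] at he
    exact hs0 he

/-- a place over a prime of the integers of a subfield -/
theorem exists_place (k : IntermediateField ℚ Qb) (P : Ideal (𝓞 k)) [P.IsMaximal] :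
    ∃ A : ValuationSubring Qb, (∀ x ∈ P, A.valuation ((x : k) : Qb) < 1) ∧
      ∀ x, x ∉ P → A.valuation ((x : k) : Qb) = 1 := by
  let ι : 𝓞 k →+* Qb := (k.val : k →+* Qb).comp (algebraMap (𝓞 k) k)
  have hι : Function.Injective ι :=
    (k.val : k →+* Qb).injective.comp (FaithfulSMul.algebraMap_injective (𝓞 k) k)
  let e : 𝓞 k ≃+* ι.range := RingEquiv.ofBijective ι.rangeRestrict
    ⟨fun a b h => hι (RingHom.coe_rangeRestrict ι a ▸ RingHom.coe_rangeRestrict ι b ▸ Subtype.ext_iff.mp h), ι.rangeRestrict_surjective⟩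
  have hI : P.comap (e.symm : ι.range →+* 𝓞 k) ≠ ⊤ := fun h => (inferInstance : P.IsMaximal).ne_top
    (Ideal.eq_top_iff_one _ |>.mpr (by
      have := (Ideal.eq_top_iff_one _).mp h
      simpa [Ideal.mem_comap] using this))
  obtain ⟨A, hA, hPA⟩ := Ideal.image_subset_nonunits_valuationSubring _ hI
  have hmem : ∀ x : 𝓞 k, ((x : k) : Qb) ∈ A := fun x => hA ⟨x, rfl⟩
  have hin : ∀ x ∈ P, A.valuation ((x : k) : Qb) < 1 := fun x hx =>
    hPA ⟨e x, by simpa [Ideal.mem_comap] using hx, rfl⟩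
  refine ⟨A, hin, fun x hx => le_antisymm ((A.valuation_le_one_iff _).mpr (hmem x)) ?_⟩
  obtain ⟨c, y, hy, hcy⟩ := (inferInstance : P.IsMaximal).exists_inv hx
  refine not_lt.mp fun hlt => ?_
  have h1 : A.valuation ((((c * x + y : 𝓞 k)) : k) : Qb) < 1 := by
    push_cast
    refine lt_of_le_of_lt (Valuation.map_add _ _ _) (max_lt ?_ (hin y hy))
    rw [map_mul]
    exact mul_lt_one_of_nonneg_of_lt_one_right ((A.valuation_le_one_iff _).mpr (hmem c)) zero_le hlt
  rw [hcy] at h1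
  simp at h1

theorem exists_prime_dvd_mem {R : Type*} [CommRing R] {P : Ideal R} (hP : P.IsPrime) {n : ℕ}
    (hn : n ≠ 0) (h : (n : R) ∈ P) : ∃ q : ℕ, q.Prime ∧ (q : R) ∈ P := by
  induction n using Nat.recOnMul with
  | zero => exact absurd rfl hn
  | one => exact absurd (P.eq_top_iff_one.mpr (by simpa using h)) hP.ne_top
  | prime p hp => exact ⟨p, hp, h⟩
  | mul a b iha ihb =>
    rw [Nat.cast_mul] at h
    rcases hP.mem_or_mem h with ha | hb
    · exact iha (left_ne_zero_of_mul hn) ha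
    · exact ihb (right_ne_zero_of_mul hn) hb

/-- the quadratic characters occurring in halving are given by finitely many square roots -/
theorem exists_finite_sqrts :
    ∃ R : Finset Qb, ∀ y : JZero N, (∀ τ : GQ, τ • (2 • y) = 2 • y) →
      ∀ f : (nsmulAddMonoidHom (α := JZero N) 2).ker →+ ZMod 2,
      ∃ r ∈ R, ∀ h ∈ twoFix N, ∀ w : (nsmulAddMonoidHom (α := JZero N) 2).ker,
        (w : JZero N) = h • y - y → (f w = 0 ↔ h r = r) := by
  classical
  haveI := Common.isGalois_qbar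
  set H := twoFix N with hH
  have hHo : IsOpen (H : Set GQ) := isOpen_twoFix
  let k : IntermediateField ℚ Qb := IntermediateField.fixedField H
  have hkH : k.fixingSubgroup = H := InfiniteGalois.fixingSubgroup_fixedField
    (⟨H, Subgroup.isClosed_of_isOpen H hHo⟩ : ClosedSubgroup GQ)
  haveI : FiniteDimensional ℚ k :=
    (InfiniteGalois.isOpen_iff_finite k).mp (by rw [hkH]; exact hHo)
  haveI : NumberField k := { to_finiteDimensional := inferInstance }
  have hmem : ((2 * N : ℕ) : 𝓞 k) ≠ 0 :=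
    Nat.cast_ne_zero.mpr (Nat.mul_ne_zero two_ne_zero (NeZero.ne N))
  obtain ⟨T, hT⟩ := exists_finite_sqclasses (k := k)
    (UniqueFactorizationMonoid.normalizedFactors (Ideal.span {((2 * N : ℕ) : 𝓞 k)})).toFinset
  choose rt hrt using fun t : k => IsAlgClosed.exists_pow_nat_eq (t : Qb) two_pos
  refine ⟨insert 1 (T.image rt), fun y hy f => ?_⟩
  let c : GQ → (nsmulAddMonoidHom (α := JZero N) 2).ker := fun h => ⟨h • y - y, by
    show 2 • (h • y - y) = 0
    rw [nsmul_sub, nsmul_smul_comm, hy, sub_self]⟩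
  suffices hs : ∃ r ∈ insert 1 (T.image rt), ∀ h ∈ H, (f (c h) = 0 ↔ h r = r) by
    obtain ⟨r, hr, hrh⟩ := hs
    refine ⟨r, hr, fun h hh w hw => ?_⟩
    rw [show w = c h from Subtype.ext hw]
    exact hrh h hh
  have hc : ∀ a ∈ H, ∀ b, c (a * b) = c a + c b := fun a ha b => Subtype.ext (by
    show (a * b) • y - y = (a • y - y) + (b • y - y)
    have h1 : a • (b • y - y) = b • y - y := ha _ (c b).2
    rw [smul_sub] at h1
    rw [mul_smul, ← h1]
    abel)
  let K : Subgroup GQ :=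
    { carrier := {h | h ∈ H ∧ f (c h) = 0}
      mul_mem' := fun {a b} ha hb => ⟨mul_mem ha.1 hb.1, by
        rw [hc a ha.1, map_add, ha.2, hb.2, add_zero]⟩
      one_mem' := ⟨one_mem H, by
        rw [show c 1 = 0 from Subtype.ext (by show (1 : GQ) • y - y = 0; rw [one_smul, sub_self]),
          map_zero]⟩
      inv_mem' := fun {a} ha => ⟨inv_mem ha.1, by
        have h1 := congrArg f (hc a ha.1 a⁻¹)
        rw [map_add, ha.2, zero_add, mul_inv_cancel,
          show c 1 = 0 from Subtype.ext (by show (1 : GQ) • y - y = 0; rw [one_smul, sub_self]),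
          map_zero] at h1
        exact h1.symm⟩ }
  by_cases htriv : ∀ h ∈ H, f (c h) = 0
  · exact ⟨1, Finset.mem_insert_self _ _, fun h hh => by simp [htriv h hh]⟩
  push Not at htriv
  obtain ⟨σ₀, hσ₀, hσ₀K⟩ := htriv
  have hKo : IsOpen (K : Set GQ) := by
    obtain ⟨L, hL, hLy⟩ := HeckeJ.exists_level N y
    haveI := hL
    refine Subgroup.isOpen_mono (H₁ := H ⊓ L.fixingSubgroup) (fun h hh => ⟨hh.1, ?_⟩)
      (hHo.inter (IntermediateField.fixingSubgroup_isOpen L))
    rw [show c h = 0 from Subtype.ext (by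
      show h • y - y = 0
      rw [hLy h fun z hz => (IntermediateField.mem_fixingSubgroup_iff _ h).mp hh.2 z hz,
        sub_self]), map_zero]
  obtain ⟨s, hs0, hsint, hs2, hsK⟩ := exists_sqrt hKo (fun h hh => hh.1) hσ₀
    (fun h => hσ₀K h.2) fun a ha b hb haK hbK => ⟨mul_mem ha hb, by
      rw [hc a ha, map_add]
      have key : ∀ u v : ZMod 2, u ≠ 0 → v ≠ 0 → u + v = 0 := by decide
      exact key _ _ (fun e => haK ⟨ha, e⟩) (fun e => hbK ⟨hb, e⟩)⟩
  have hk : s ^ 2 ∈ k := (IntermediateField.mem_fixedField_iff _ _).mpr hs2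
  let b : 𝓞 k := ⟨⟨s ^ 2, hk⟩, (isIntegral_algHom_iff (k.val.restrictScalars ℤ)
    Subtype.val_injective).mp (hsint.pow 2)⟩
  have hb0 : b ≠ 0 := fun e => pow_ne_zero 2 hs0 (congrArg (fun z : 𝓞 k => ((z : k) : Qb)) e)
  obtain ⟨t, ht, d, hd⟩ := hT b hb0 fun P hP hP0 hPS => by
    haveI := hP.isMaximal hP0
    obtain ⟨A, hin, hout⟩ := exists_place k P
    obtain ⟨ℓ, hℓ, hℓP⟩ := exists_prime_dvd_mem hP
      (by rwa [Ne, Ideal.absNorm_eq_zero_iff]) (Ideal.absNorm_mem P)
    have hℓN : ¬ ℓ ∣ 2 * N := fun hd => hPS (by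
      rw [Multiset.mem_toFinset, Ideal.mem_normalizedFactors_iff
        (by rw [Ne, Ideal.span_singleton_eq_bot]; exact hmem)]
      refine ⟨hP, (Ideal.span_singleton_le_iff_mem _).mpr ?_⟩
      exact P.mem_of_dvd (Nat.cast_dvd_cast hd) hℓP)
    have hA : A.LiesOverPrime ℓ := by
      have := hin _ hℓP
      simpa [ValuationSubring.LiesOverPrime, ValuationSubring.mem_nonunits_iff] using this
    have hIs : ∀ σ ∈ A.inertiaSubgroupIn ℚ, σ s = s := fun σ hσ =>
      (hsK σ (inertia_le_twoFix hℓ hℓN hA hσ)).mpr ⟨inertia_le_twoFix hℓ hℓN hA hσ, by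
        rw [show c σ = 0 from Subtype.ext (by
          show σ • y - y = 0
          rw [inertia_fix_half hℓ hℓN hA hσ hy, sub_self]), map_zero]⟩
    haveI : FiniteDimensional ℚ (IntermediateField.adjoin ℚ {s}) :=
      IntermediateField.adjoin.finiteDimensional (Algebra.IsIntegral.isIntegral s)
    have hLfix : IntermediateField.adjoin ℚ {s} ≤
        IntermediateField.fixedField (A.inertiaSubgroupIn ℚ) :=
      IntermediateField.adjoin_simple_le_iff.mpr
        ((IntermediateField.mem_fixedField_iff _ _).mpr hIs)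
    obtain ⟨j, hj⟩ := SS2.exists_zpow_valuation hℓ hA _
      (fun σ hσ a ha => (IntermediateField.mem_fixedField_iff _ _).mp (hLfix ha) σ hσ)
      (IntermediateField.mem_adjoin_simple_self ℚ s) hs0
    obtain ⟨e, he, hv⟩ := exists_value_eq_pow
      (A.valuation.toMonoidWithZeroHom.comp
        ((k.val : k →+* Qb).comp (algebraMap (𝓞 k) k)).toMonoidWithZeroHom) hP hP0 hin hout
    have hℓ0 : ((ℓ : 𝓞 k)) ≠ 0 := Nat.cast_ne_zero.mpr hℓ.ne_zero
    have hvb : A.valuation (s ^ 2) = e ^ cnt P b := hv b hb0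
    have hvl : A.valuation ((ℓ : Qb)) = e ^ cnt P (ℓ : 𝓞 k) := by
      have h := hv (ℓ : 𝓞 k) hℓ0
      simpa using h
    rw [map_pow, hj, hvl, ← zpow_natCast (_ ^ _) 2, ← zpow_natCast e, ← zpow_natCast e,
      ← zpow_mul, ← zpow_mul] at hvb
    have he0 : e ≠ 0 := by
      intro h0
      have := cnt_pos_iff hP hℓ0 |>.mpr hℓP
      rw [h0, zero_pow this.ne', map_eq_zero] at hvl
      exact hℓ.ne_zero (Nat.cast_eq_zero.mp hvl)
    have h2 := zpow_right_injective₀ (zero_lt_iff.mpr he0) he.ne hvb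
    rw [← Int.even_coe_nat, ← h2]
    exact ⟨(cnt P (ℓ : 𝓞 k) : ℤ) * j, by push_cast; ring⟩
  refine ⟨rt t, Finset.mem_insert_of_mem (Finset.mem_image_of_mem _ ht), fun h hh => ?_⟩
  have hsd : s ^ 2 = (rt t * (d : Qb)) ^ 2 := by
    rw [mul_pow, hrt]
    exact congrArg (fun z : k => (z : Qb)) hd
  have hd0 : (d : Qb) ≠ 0 := fun e => hs0 (by
    rw [e, mul_zero, zero_pow two_ne_zero] at hsd
    exact pow_eq_zero_iff two_ne_zero |>.mp hsd)
  have hhd : h (d : Qb) = d := (IntermediateField.mem_fixedField_iff _ _).mp d.2 h hh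
  have hiff : h s = s ↔ h (rt t) = rt t := by
    rcases sq_eq_sq_iff_eq_or_eq_neg.mp hsd with e | e
    · rw [e, map_mul, hhd]
      exact mul_left_inj' hd0
    · rw [e, map_neg, map_mul, hhd, neg_inj]
      exact mul_left_inj' hd0
  rw [← hiff, hsK h hh]
  exact ⟨fun hf => ⟨hh, hf⟩, fun hK => hK.2⟩

/-- weak Mordell-Weil at two -/
theorem weak_mordell_weil :
    ∃ T : Finset (JZero N), (∀ t ∈ T, ∀ σ : GQ, σ • t = t) ∧
      ∀ x : JZero N, (∀ σ : GQ, σ • x = x) →
        ∃ t ∈ T, ∃ y : JZero N, (∀ σ : GQ, σ • y = y) ∧ x = t + 2 • y := by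
  classical
  let W := (nsmulAddMonoidHom (α := JZero N) 2).ker
  haveI : Finite W := ((Flat.finite_torsion (N := N) 2 two_pos).subset fun x hx => hx).to_subtype
  haveI : Finite (W →+ ZMod 2) := Finite.of_injective _ DFunLike.coe_injective
  haveI := twoFix_quotient_finite (N := N)
  haveI : Finite (GQ ⧸ twoFix N → W) := inferInstance
  let Fx := {x : JZero N // ∀ σ : GQ, σ • x = x}
  choose hf hhalf using fun x : Fx =>
    AJ.exists_nsmul_eq (K := Qb) (F := modularFunctionFieldBar N) 2 two_pos x.1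
  have hyfix : ∀ x : Fx, ∀ τ : GQ, τ • (2 • hf x) = 2 • hf x := fun x τ => by
    rw [hhalf x, x.2]
  let c : Fx → GQ → W := fun x h => ⟨h • hf x - hf x, by
    show 2 • (h • hf x - hf x) = 0
    rw [nsmul_sub, nsmul_smul_comm, hyfix, sub_self]⟩
  obtain ⟨R, hR⟩ := exists_finite_sqrts (N := N)
  choose r hr hrh using fun x : Fx => hR (hf x) (hyfix x)
  let key : Fx → ((W →+ ZMod 2) → R) × (GQ ⧸ twoFix N → W) :=
    fun x => (fun f => ⟨r x f, hr x f⟩, fun q => c x q.out)
  have hsame : ∀ x x' : Fx, key x = key x' → ∀ σ : GQ, σ • (hf x - hf x') = hf x - hf x' := by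
    intro x x' he σ
    obtain ⟨h1, h2⟩ := Prod.ext_iff.mp he
    have hH : ∀ h ∈ twoFix N, c x h = c x' h := by
      intro h hh
      letI : Module (ZMod 2) W := AddCommGroup.zmodModule fun w => Subtype.ext w.2
      have hf2 : ∀ f : W →+ ZMod 2, f (c x h) = f (c x' h) := by
        intro f
        have e1 : r x f = r x' f := congrArg Subtype.val (congrFun h1 f)
        have i1 := hrh x f h hh (c x h) rfl
        have i2 := hrh x' f h hh (c x' h) rfl
        rw [← e1] at i2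
        have key : ∀ u v : ZMod 2, (u = 0 ↔ v = 0) → u = v := by decide
        exact key _ _ (i1.trans i2.symm)
      rw [← sub_eq_zero, ← Module.forall_dual_apply_eq_zero_iff (ZMod 2)]
      intro φ
      rw [map_sub, sub_eq_zero]
      exact hf2 φ.toAddMonoidHom
    obtain ⟨h, hh⟩ := QuotientGroup.mk_out_eq_mul (twoFix N) σ
    have e1 : c x ((QuotientGroup.mk σ : GQ ⧸ twoFix N).out) =
        c x' ((QuotientGroup.mk σ : GQ ⧸ twoFix N).out) := congrFun h2 _
    have e2 : ∀ z : Fx, σ • hf z - hf z =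
        (c z (QuotientGroup.mk σ : GQ ⧸ twoFix N).out).1 - σ • (c z h.1).1 := by
      intro z
      show _ = (Quotient.out (QuotientGroup.mk σ : GQ ⧸ twoFix N)) • hf z - hf z -
        σ • (h.1 • hf z - hf z)
      rw [hh, mul_smul, smul_sub]
      abel
    have e3 : σ • hf x - hf x = σ • hf x' - hf x' := by
      rw [e2, e2, e1, hH h.1 h.2]
    rw [smul_sub, ← sub_eq_zero, show σ • hf x - σ • hf x' - (hf x - hf x') =
      (σ • hf x - hf x) - (σ • hf x' - hf x') by abel, e3, sub_self]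
  haveI := Fintype.ofFinite (Set.range key)
  refine ⟨(Finset.univ : Finset (Set.range key)).image (fun k => k.2.choose.1), ?_, fun x hx => ?_⟩
  · intro t ht
    obtain ⟨k, -, rfl⟩ := Finset.mem_image.mp ht
    exact k.2.choose.2
  · set k : Set.range key := ⟨key ⟨x, hx⟩, ⟨x, hx⟩, rfl⟩
    have hk : key k.2.choose = key ⟨x, hx⟩ := k.2.choose_spec
    refine ⟨k.2.choose.1, Finset.mem_image_of_mem _ (Finset.mem_univ k),
      hf ⟨x, hx⟩ - hf k.2.choose, hsame _ _ hk.symm, ?_⟩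
    rw [nsmul_sub, hhalf, hhalf]
    abel

end FLTAgent.MW
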