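import Fermat.Agent.MW.Positivity
import Fermat.Agent.MW.Finite
import Fermat.Agent.MW.Weak
import Fermat.Agent.EIS.CuspPlace

/-!
The Mordell–Weil theorem for `J₀(N)` over `ℚ`.
-/

set_option autoImplicit false

noncomputable section

open AlgebraicCurve ModularCurve

namespace FLTAgent.MW

variable {N : ℕ} [NeZero N]

/-- the rational points -/
abbrev JQ (N : ℕ) : AddSubgroup (JZero N) :=
  FixedPoints.addSubgroup (Qb ≃ₐ[ℚ] Qb) (JZero N)

theorem fg_of_base (O : Place Qb (Reduction.FB N))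
    (hO : ∀ σ : Qb ≃ₐ[ℚ] Qb, arithmeticGalois (modularFunctionFieldFull N) σ • O = O) :
    AddGroup.FG (JQ N) := by
  classical
  let P : Par (Reduction.FB N) := ⟨O, 6 * genusFF Qb (Reduction.FB N) + 2, le_rfl⟩
  obtain ⟨S, C₀, hS⟩ := exists_height P
  obtain ⟨C₂, h₂⟩ := beta_parallelogram P
  let h : JQ N → ℝ := fun x => P.H (x : JZero N) + C₀
  haveI : Northcott h := by
    refine ⟨fun b => ?_⟩
    refine ((finite_small P hO S ((P.n : ℝ) * b)).preimage Subtype.val_injective.injOn).subset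
      fun x hx => ?_
    obtain ⟨-, c, hc, R, hR, hR1, hle⟩ := hS (x : JZero N)
    exact ⟨x.2, c, hc, R, hR, hR1, hle.trans (mul_le_mul_of_nonneg_left hx (Nat.cast_nonneg _))⟩
  obtain ⟨T, hT, hTx⟩ := weak_mordell_weil (N := N)
  have hfin : (nsmulAddMonoidHom (α := JQ N) 2).range.FiniteIndex := by
    let mk : T → (JQ N) ⧸ (nsmulAddMonoidHom (α := JQ N) 2).range := fun t =>
      QuotientAddGroup.mk ⟨(t : JZero N), hT t t.2⟩
    have hmk : Function.Surjective mk := fun q => by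
      obtain ⟨⟨x, hx⟩, rfl⟩ := QuotientAddGroup.mk_surjective q
      obtain ⟨t, ht, y, hy, rfl⟩ := hTx x hx
      refine ⟨⟨t, ht⟩, QuotientAddGroup.eq.mpr ⟨⟨y, hy⟩, Subtype.ext ?_⟩⟩
      simp
    haveI := Finite.of_surjective mk hmk
    exact AddSubgroup.finiteIndex_of_finite_quotient
  refine AddCommGroup.fg_of_descent' (h := h) (C := C₂ + 2 * |C₀|) hfin (fun x => (hS x).1)
    fun x y => ?_
  have a := abs_le.mp (h₂ (x : JZero N) (y : JZero N))
  have b := abs_le.mp (le_refl |C₀|)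
  simp only [h, Par.H, AddSubgroup.coe_add, AddSubgroup.coe_sub]
  rw [abs_le]
  constructor <;> linarith

theorem fg_of_prime (hN : N.Prime) : AddGroup.FG (JQ N) :=
  fg_of_base (EIS.cuspInf N) fun σ => EIS.smul_cuspInf (hp := hN) σ

end FLTAgent.MW
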