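import Fermat.Agent.MW.Law
import Fermat.Agent.MW.Members

/-!
The pairing on divisor classes given by the height pairing of places.
-/

set_option autoImplicit false

noncomputable section

open AlgebraicCurve

namespace FLTAgent.MW

variable {F : Type} [Field F] [Algebra Qb F] [RR.FnField Qb F]

/-- bilinear extension of `hd` -/
def Par.pairB (P : Par F) (D E : Divisor Qb F) : ℝ :=
  D.sum fun v a => E.sum fun u b => (a : ℝ) * (b : ℝ) * P.hd v u

variable (P : Par F)

theorem pairB_add_left (D D' E : Divisor Qb F) :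
    P.pairB (D + D') E = P.pairB D E + P.pairB D' E := by
  refine Finsupp.sum_add_index' (fun v => by simp) fun v a a' => ?_
  rw [← Finsupp.sum_add]
  exact Finsupp.sum_congr fun u _ => by push_cast; ring

theorem pairB_comm (D E : Divisor Qb F) : P.pairB D E = P.pairB E D := by
  rw [Par.pairB, Finsupp.sum_comm]
  exact Finsupp.sum_congr fun u _ => Finsupp.sum_congr fun v _ => by rw [P.hd_comm v u]; ring

/-- the pairing against a fixed divisor -/
def Par.pairHom (P : Par F) (E : Divisor Qb F) : Divisor Qb F →+ ℝ :=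
  AddMonoidHom.mk' (fun D => P.pairB D E) fun D D' => pairB_add_left P D D' E

theorem pairB_add_right (D E E' : Divisor Qb F) :
    P.pairB D (E + E') = P.pairB D E + P.pairB D E' := by
  simp only [pairB_comm P D, pairB_add_left]

theorem pairB_sub_left (D D' E : Divisor Qb F) :
    P.pairB (D - D') E = P.pairB D E - P.pairB D' E := map_sub (P.pairHom E) D D'

theorem pairB_neg_left (D E : Divisor Qb F) : P.pairB (-D) E = -P.pairB D E :=
  map_neg (P.pairHom E) D

theorem pairB_sum_left {α : Type*} (t : Finset α) (D : α → Divisor Qb F) (E : Divisor Qb F) :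
    P.pairB (∑ i ∈ t, D i) E = ∑ i ∈ t, P.pairB (D i) E := map_sum (P.pairHom E) D t

theorem pairB_single (v u : Place Qb F) :
    P.pairB (Finsupp.single v 1) (Finsupp.single u 1) = P.hd v u := by
  simp [Par.pairB]

/-- total size of a divisor -/
def dsz {K F : Type*} [Field K] [Field F] [Algebra K F] (D : Divisor K F) : ℝ :=
  D.sum fun _ a => |(a : ℝ)|

theorem dsz_nonneg (D : Divisor Qb F) : 0 ≤ dsz D :=
  Finset.sum_nonneg fun _ _ => abs_nonneg _

theorem dsz_add_le (D D' : Divisor Qb F) : dsz (D + D') ≤ dsz D + dsz D' := by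
  classical
  rw [dsz, Finsupp.sum_of_support_subset _ Finsupp.support_add _ (fun _ _ => by simp),
    dsz, Finsupp.sum_of_support_subset _ Finset.subset_union_left _ (fun _ _ => by simp),
    dsz, Finsupp.sum_of_support_subset _ Finset.subset_union_right _ (fun _ _ => by simp),
    ← Finset.sum_add_distrib]
  exact Finset.sum_le_sum fun v _ => by rw [Finsupp.add_apply, Int.cast_add]; exact abs_add_le _ _

theorem dsz_neg (D : Divisor Qb F) : dsz (-D) = dsz D := by
  rw [dsz, Finsupp.sum_neg_index (fun _ => by simp)]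
  simp [dsz]

theorem dsz_sub_le (D D' : Divisor Qb F) : dsz (D - D') ≤ dsz D + dsz D' := by
  rw [sub_eq_add_neg]
  exact (dsz_add_le D (-D')).trans_eq (by rw [dsz_neg])

theorem dsz_sum_le {α : Type*} (t : Finset α) (D : α → Divisor Qb F) :
    dsz (∑ i ∈ t, D i) ≤ ∑ i ∈ t, dsz (D i) :=
  Finset.le_sum_of_subadditive dsz (by simp [dsz]) dsz_add_le t D

theorem dsz_single (v : Place Qb F) (a : ℤ) : dsz (Finsupp.single v a) = |(a : ℝ)| := by
  simp [dsz]

/-- against a degree zero divisor the members of `|nO|` pair like a linear form -/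
theorem exists_pairB_zdiv : ∃ C : ℝ, 0 ≤ C ∧ ∀ Z E : Divisor Qb F, (∀ v, 0 ≤ Z v) →
    Divisor.degree Z = P.n → P.cls Z = 0 → (∀ v ∈ E.support, Z v ≤ 1) → Divisor.degree E = 0 →
    |P.pairB Z E - E.sum (fun v b => (b : ℝ) * P.hP v)| ≤ C * dsz E := by
  classical
  obtain ⟨C, hC⟩ := height_law P
  refine ⟨max C 0, le_max_right _ _, fun Z E hZ0 hZd hZc hZ1 hE => ?_⟩
  obtain ⟨f, hf0, hf⟩ :=
    (P.cls_eq_iff (hZd.trans P.degree_E.symm)).mp (hZc.trans P.cls_E.symm)
  have hfE : f ∈ riemannRochSpace P.E := AJ.mem_rrSpace.mpr fun v => by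
    rw [RR.bd_iff_ord hf0, ← hf v, Finsupp.sub_apply]
    have := hZ0 v
    omega
  have hz : zdiv P.E f = Z := Finsupp.ext fun v => by
    rw [zdiv_apply hf0, ← hf v, Finsupp.sub_apply]
    ring
  obtain ⟨e, he⟩ := exists_isZeros hfE hf0 P.degree_E
  have hc : IsZeros P.E (lc P.E (crd P.E hfE)) e := by rw [lc_crd]; exact he
  have hsimple : ∀ v ∈ E.support, ∀ i j, e i = v → e j = v → i = j := by
    intro v hv i j hi hj
    by_contra hne
    have h := hZ1 v hv
    rw [← hz, ← he.sum_eq, AJ.sumPts, Finsupp.finsetSum_apply] at h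
    have hle := h.trans' (Finset.sum_le_sum_of_subset_of_nonneg (Finset.subset_univ {i, j})
      fun k _ _ => by rw [Finsupp.single_apply]; split_ifs <;> norm_num)
    rw [Finset.sum_pair hne, hi, hj, Finsupp.single_eq_same] at hle
    omega
  have hdeg : (∑ v ∈ E.support, (E v : ℝ)) = 0 := by
    rw [← Int.cast_sum, ← RR.degree_eq_sum, hE, Int.cast_zero]
  have h1 : P.pairB Z E = ∑ v ∈ E.support, (E v : ℝ) * ∑ k, P.hd v (e k) := by
    rw [← hz, ← he.sum_eq, AJ.sumPts, pairB_sum_left]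
    simp only [Finset.mul_sum]
    rw [Finset.sum_comm]
    refine Finset.sum_congr rfl fun k _ => ?_
    rw [Par.pairB, Finsupp.sum_single_index (by simp)]
    exact Finset.sum_congr rfl fun v _ => by
      dsimp only
      rw [Int.cast_one, one_mul, P.hd_comm]
  have h2 : P.pairB Z E - E.sum (fun v b => (b : ℝ) * P.hP v) = ∑ v ∈ E.support,
      (E v : ℝ) * (∑ k, P.hd v (e k) - P.hP v - ht (crd P.E hfE)) := by
    simp only [mul_sub, Finset.sum_sub_distrib, ← Finset.sum_mul, hdeg, zero_mul, sub_zero, h1]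
    rfl
  rw [h2, dsz, Finsupp.sum, Finset.mul_sum]
  refine (Finset.abs_sum_le_sum_abs _ _).trans (Finset.sum_le_sum fun v hv => ?_)
  rw [abs_mul, mul_comm (max C 0)]
  exact mul_le_mul_of_nonneg_left
    ((hC _ e v hc (hsimple v hv)).trans (le_max_left _ _)) (abs_nonneg _)

/-- equivalent divisors of small degree pair in the same way -/
theorem exists_pairB_move : ∃ C : ℝ, 0 ≤ C ∧ ∀ (Z Z' E : Divisor Qb F) (k : ℕ),
    k + 2 * genusFF Qb F ≤ P.n → (∀ v, 0 ≤ Z v) → (∀ v, 0 ≤ Z' v) → Divisor.degree Z = k →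
    Divisor.degree Z' = k → P.cls Z = P.cls Z' → (∀ v ∈ E.support, Z v ≤ 1) →
    (∀ v ∈ E.support, Z' v ≤ 1) → Divisor.degree E = 0 →
    |P.pairB Z E - P.pairB Z' E| ≤ C * dsz E := by
  obtain ⟨C, hC0, hC⟩ := exists_pairB_zdiv P
  refine ⟨2 * C, by linarith, fun Z Z' E k hk h0 h0' hd hd' hc h1 h1' hE => ?_⟩
  obtain ⟨W, hW0, -, hWs, hWd, hWc⟩ :=
    P.exists_member (-P.cls Z) (k := P.n - k) (by omega) E.support
  have key : ∀ X : Divisor Qb F, (∀ v, 0 ≤ X v) → Divisor.degree X = k → P.cls X = P.cls Z →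
      (∀ v ∈ E.support, X v ≤ 1) →
      |P.pairB X E + P.pairB W E - E.sum (fun v b => (b : ℝ) * P.hP v)| ≤ C * dsz E := by
    intro X hX0 hXd hXc hX1
    rw [← pairB_add_left]
    refine hC _ E (fun v => add_nonneg (hX0 v) (hW0 v)) ?_ ?_ (fun v hv => ?_) hE
    · rw [map_add, hXd, hWd]; omega
    · rw [map_add, hXc, hWc, add_neg_cancel]
    · rw [Finsupp.add_apply, hWs v hv, add_zero]; exact hX1 v hv
  have a := abs_le.mp (key Z h0 hd rfl h1)
  have b := abs_le.mp (key Z' h0' hd' hc.symm h1')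
  rw [abs_le]
  constructor <;> linarith

/-- linearly equivalent divisors pair in the same way up to a bound linear in their sizes -/
theorem exists_pairB_congr : ∃ C : ℝ, 0 ≤ C ∧ ∀ D D' E : Divisor Qb F,
    Divisor.degree D = Divisor.degree D' → P.cls D = P.cls D' → Divisor.degree E = 0 →
    |P.pairB D E - P.pairB D' E| ≤ C * dsz E * (dsz D + dsz D' + 1) := by
  classical
  obtain ⟨C, hC0, hC⟩ := exists_pairB_move P
  refine ⟨2 * C, by linarith, fun D D' E hdd hcc hE => ?_⟩
  have hn := P.hn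
  obtain ⟨AO, hA0, hA1, hAs, hAd, hAc⟩ :=
    P.exists_member 0 (k := 2 * genusFF Qb F + 1) (by omega) E.support
  obtain ⟨B, hB0, -, hBs, hBd, hBc⟩ :=
    P.exists_member 0 (k := 2 * genusFF Qb F) le_rfl E.support
  let δ : ℝ := P.pairB AO E - P.pairB B E
  have key : ∀ (j : ℕ) (p : Fin j → Place Qb F), ∃ A : Divisor Qb F, (∀ v, 0 ≤ A v) ∧
      (∀ v ∈ E.support, A v = 0) ∧ Divisor.degree A = (2 * genusFF Qb F + 1 : ℕ) ∧
      P.cls A = P.cls (AJ.sumPts p) ∧
      |P.pairB (AJ.sumPts p) E - P.pairB A E - (j : ℝ) * δ + P.pairB AO E| ≤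
        C * dsz E * j := by
    intro j
    induction j with
    | zero =>
      intro p
      refine ⟨AO, hA0, hAs, hAd, by rw [hAc]; simp [AJ.sumPts], ?_⟩
      simp [AJ.sumPts, Par.pairB]
    | succ j ih =>
      intro p
      obtain ⟨A, a0, as, ad, ac, ab⟩ := ih (fun i : Fin j => p i.succ)
      obtain ⟨A', a0', -, as', ad', ac'⟩ :=
        P.exists_member (P.cls (AJ.sumPts p)) (k := 2 * genusFF Qb F + 1) (by omega) E.support
      refine ⟨A', a0', as', ad', ac', ?_⟩
      have hs : AJ.sumPts p = Finsupp.single (p 0) 1 + AJ.sumPts (fun i : Fin j => p i.succ) :=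
        Fin.sum_univ_succ _
      have hb := hC (A + Finsupp.single (p 0) 1 + B) (A' + AO) E (4 * genusFF Qb F + 2) (by omega)
        (fun v => by
          have := a0 v; have := hB0 v
          rw [Finsupp.add_apply, Finsupp.add_apply, Finsupp.single_apply]
          split_ifs <;> omega)
        (fun v => add_nonneg (a0' v) (hA0 v))
        (by rw [map_add, map_add, ad, degree_single_one, hBd]; push_cast; ring)
        (by rw [map_add, ad', hAd]; push_cast; ring)
        (by rw [map_add, map_add, map_add, ac, hBc, ac', hAc, hs, map_add]; abel)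
        (fun v hv => by
          rw [Finsupp.add_apply, Finsupp.add_apply, as v hv, hBs v hv, Finsupp.single_apply]
          split_ifs <;> omega)
        (fun v hv => by rw [Finsupp.add_apply, as' v hv, hAs v hv]; norm_num) hE
      rw [pairB_add_left, pairB_add_left, pairB_add_left] at hb
      rw [hs, pairB_add_left]
      have h1 := abs_le.mp ab
      have h2 := abs_le.mp hb
      rw [abs_le]
      simp only [δ] at h1 ⊢
      push_cast
      constructor <;> linarith
  let Wp : Divisor Qb F := (D - D').mapRange (fun a => max a 0) (by simp)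
  let Wn : Divisor Qb F := (D - D').mapRange (fun a => max (-a) 0) (by simp)
  have hW : D - D' = Wp - Wn := Finsupp.ext fun v => by
    simp only [Wp, Wn, Finsupp.sub_apply, Finsupp.mapRange_apply]
    omega
  obtain ⟨j, hj⟩ := Int.eq_ofNat_of_zero_le (show 0 ≤ Divisor.degree Wp by
    rw [RR.degree_eq_sum]
    exact Finset.sum_nonneg fun v _ => by simp [Wp])
  have hjn : Divisor.degree Wn = j := by
    have h := congrArg Divisor.degree hW
    rw [map_sub, map_sub, hdd, hj] at h
    omega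
  obtain ⟨p, hp⟩ := exists_sumPts (D := Wp) (fun v => by simp [Wp]) hj
  obtain ⟨q, hq⟩ := exists_sumPts (D := Wn) (fun v => by simp [Wn]) hjn
  obtain ⟨A, a0, as, ad, ac, ab⟩ := key j p
  obtain ⟨A', a0', as', ad', ac', ab'⟩ := key j q
  have hAA : P.cls A = P.cls A' := by
    rw [ac, ac', hp, hq, ← sub_eq_zero, ← map_sub, ← hW, map_sub, hcc, sub_self]
  have hm := hC A A' E _ (by omega) a0 a0' ad ad' hAA (fun v hv => by rw [as v hv]; norm_num)
    (fun v hv => by rw [as' v hv]; norm_num) hE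
  have hjD : (j : ℝ) ≤ dsz D + dsz D' := by
    refine le_trans ?_ (dsz_sub_le D D')
    have h : ((Divisor.degree Wp : ℤ) : ℝ) ≤ dsz (D - D') := by
      rw [RR.degree_eq_sum, Int.cast_sum, dsz, Finsupp.sum]
      refine (Finset.sum_le_sum_of_subset_of_nonneg Finsupp.support_mapRange
        fun v _ _ => by simp [Wp]).trans (Finset.sum_le_sum fun v _ => ?_)
      simp only [Wp, Finsupp.mapRange_apply, Int.cast_max, Int.cast_zero]
      exact max_le (le_abs_self _) (abs_nonneg _)
    rwa [hj, Int.cast_natCast] at h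
  rw [← pairB_sub_left, hW, pairB_sub_left, ← hp, ← hq]
  have h1 := abs_le.mp ab
  have h2 := abs_le.mp ab'
  have h3 := abs_le.mp hm
  have hCE : 0 ≤ C * dsz E := mul_nonneg hC0 (dsz_nonneg E)
  have h4 := mul_le_mul_of_nonneg_left hjD hCE
  rw [abs_le]
  constructor <;> nlinarith

/-- a reduced representative of size at most `m` -/
structure Par.IsRep (m : ℕ) (x : Pic0 Qb F) (D : Divisor Qb F) : Prop where
  deg : Divisor.degree D = 0
  cls : P.cls D = x
  reduced : ∀ v, |D v| ≤ 1
  card : D.support.card ≤ m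

/-- every class has a reduced representative avoiding a given finite set -/
theorem exists_rep : ∃ m₀ : ℕ, ∀ (x : Pic0 Qb F) (s : Finset (Place Qb F)),
    ∃ D, P.IsRep m₀ x D ∧ ∀ v ∈ s, D v = 0 := by
  classical
  refine ⟨2 * (2 * genusFF Qb F + 1), fun x s => ?_⟩
  obtain ⟨A, hA0, hA1, hAs, hAd, hAc⟩ :=
    P.exists_member x (k := 2 * genusFF Qb F + 1) (by omega) s
  obtain ⟨B, hB0, hB1, hBs, hBd, hBc⟩ :=
    P.exists_member 0 (k := 2 * genusFF Qb F + 1) (by omega) (s ∪ A.support)
  have card : ∀ Z : Divisor Qb F, (∀ v, 0 ≤ Z v) →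
      Divisor.degree Z = (2 * genusFF Qb F + 1 : ℕ) → Z.support.card ≤ 2 * genusFF Qb F + 1 := by
    intro Z h0 hd
    have h1 : ∀ v ∈ Z.support, (1 : ℤ) ≤ Z v := fun v hv => by
      have := h0 v
      have := Finsupp.mem_support_iff.mp hv
      omega
    have h2 := Finset.card_nsmul_le_sum _ _ _ h1
    rw [← RR.degree_eq_sum, hd, nsmul_one] at h2
    omega
  refine ⟨A - B, ⟨?_, ?_, fun v => ?_, ?_⟩, fun v hv => ?_⟩
  · rw [map_sub, hAd, hBd, sub_self]
  · rw [map_sub, hAc, hBc, sub_zero]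
  · have := hA0 v; have := hA1 v; have := hB0 v; have := hB1 v
    rw [Finsupp.sub_apply, abs_le]
    omega
  · refine (Finset.card_le_card Finsupp.support_sub).trans ((Finset.card_union_le _ _).trans ?_)
    have := card A hA0 hAd
    have := card B hB0 hBd
    omega
  · rw [Finsupp.sub_apply, hAs v hv, hBs v (Finset.mem_union_left _ hv), sub_zero]

/-- the chosen representative -/
def Par.rep (P : Par F) (x : Pic0 Qb F) : Divisor Qb F :=
  ((exists_rep P).choose_spec x ∅).choose

theorem isRep_rep (x : Pic0 Qb F) : P.IsRep (exists_rep P).choose x (P.rep x) :=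
  ((exists_rep P).choose_spec x ∅).choose_spec.1

/-- the pairing -/
def Par.beta (P : Par F) (x y : Pic0 Qb F) : ℝ := -P.pairB (P.rep x) (P.rep y)

theorem beta_comm (x y : Pic0 Qb F) : P.beta x y = P.beta y x := by
  rw [Par.beta, Par.beta, pairB_comm]

theorem Par.IsRep.dsz_le {m : ℕ} {x : Pic0 Qb F} {D : Divisor Qb F} (h : P.IsRep m x D) :
    dsz D ≤ m := by
  refine (Finset.sum_le_card_nsmul _ _ (1 : ℝ) fun v _ => ?_).trans ?_
  · dsimp only; rw [← Int.cast_abs]; exact_mod_cast h.reduced v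
  · rw [nsmul_one]; exact_mod_cast h.card

/-- the pairing is computed by any representatives of bounded size -/
theorem beta_congr (M : ℝ) : ∃ C : ℝ, ∀ D E : Divisor Qb F, Divisor.degree D = 0 →
    Divisor.degree E = 0 → dsz D ≤ M → dsz E ≤ M →
    |P.beta (P.cls D) (P.cls E) + P.pairB D E| ≤ C := by
  obtain ⟨C, hC0, hC⟩ := exists_pairB_congr P
  set m : ℝ := (((exists_rep P).choose : ℕ) : ℝ)
  refine ⟨C * m * (m + M + 1) + C * M * (m + M + 1), fun D E hD hE hDM hEM => ?_⟩
  have hx := isRep_rep P (P.cls D)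
  have hy := isRep_rep P (P.cls E)
  have h1 := hC D (P.rep (P.cls D)) (P.rep (P.cls E)) (hD.trans hx.deg.symm) hx.cls.symm hy.deg
  have h2 := hC E (P.rep (P.cls E)) D (hE.trans hy.deg.symm) hy.cls.symm hD
  rw [pairB_comm P E D, pairB_comm P (P.rep (P.cls E)) D] at h2
  have hm : dsz (P.rep (P.cls D)) ≤ m := hx.dsz_le
  have hm' : dsz (P.rep (P.cls E)) ≤ m := hy.dsz_le
  have := dsz_nonneg (P.rep (P.cls D))
  have := dsz_nonneg (P.rep (P.cls E))
  have := dsz_nonneg D
  have := dsz_nonneg E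
  have b1 : C * dsz (P.rep (P.cls E)) * (dsz D + dsz (P.rep (P.cls D)) + 1) ≤
      C * m * (m + M + 1) :=
    mul_le_mul (mul_le_mul_of_nonneg_left hm' hC0) (by linarith) (by linarith)
      (mul_nonneg hC0 (by linarith))
  have b2 : C * dsz D * (dsz E + dsz (P.rep (P.cls E)) + 1) ≤ C * M * (m + M + 1) :=
    mul_le_mul (mul_le_mul_of_nonneg_left hDM hC0) (by linarith) (by linarith)
      (mul_nonneg hC0 (by linarith))
  have a1 := abs_le.mp h1
  have a2 := abs_le.mp h2
  rw [Par.beta, abs_le]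
  constructor <;> linarith

/-- the pairing is computed by any reduced representatives of bounded size -/
theorem beta_eq (m : ℕ) : ∃ C : ℝ, ∀ x y D E, P.IsRep m x D → P.IsRep m y E →
    |P.beta x y + P.pairB D E| ≤ C := by
  obtain ⟨C, hC⟩ := beta_congr P m
  refine ⟨C, fun x y D E hD hE => ?_⟩
  have := hC D E hD.deg hE.deg hD.dsz_le hE.dsz_le
  rwa [hD.cls, hE.cls] at this

theorem beta_add : ∃ C : ℝ, ∀ x x' y, |P.beta (x + x') y - P.beta x y - P.beta x' y| ≤ C := by
  obtain ⟨C, hC⟩ := beta_congr P (2 * ((exists_rep P).choose : ℕ))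
  refine ⟨C, fun x x' y => ?_⟩
  have hx := isRep_rep P x
  have hx' := isRep_rep P x'
  have hy := isRep_rep P y
  have hxd := hx.dsz_le
  have hxd' := hx'.dsz_le
  have hyd := hy.dsz_le
  have := dsz_nonneg (P.rep y)
  have h := hC (P.rep x + P.rep x') (P.rep y) (by rw [map_add, hx.deg, hx'.deg, add_zero]) hy.deg
    ((dsz_add_le _ _).trans (by linarith)) (by linarith)
  rw [map_add, hx.cls, hx'.cls, hy.cls, pairB_add_left] at h
  convert h using 2
  simp only [Par.beta]
  ring

theorem beta_neg : ∃ C : ℝ, ∀ x y, |P.beta (-x) y + P.beta x y| ≤ C := by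
  obtain ⟨C, hC⟩ := beta_congr P ((exists_rep P).choose : ℕ)
  refine ⟨C, fun x y => ?_⟩
  have hx := isRep_rep P x
  have hy := isRep_rep P y
  have h := hC (-P.rep x) (P.rep y) (by rw [map_neg, hx.deg, neg_zero]) hy.deg
    (by rw [dsz_neg]; exact hx.dsz_le) hy.dsz_le
  rw [map_neg, hx.cls, hy.cls, pairB_neg_left] at h
  convert h using 2
  rfl

theorem beta_parallelogram : ∃ C : ℝ, ∀ x y, |P.beta (x + y) (x + y) + P.beta (x - y) (x - y)
    - 2 * (P.beta x x + P.beta y y)| ≤ C := by
  obtain ⟨C, hC⟩ := beta_congr P (2 * ((exists_rep P).choose : ℕ))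
  refine ⟨2 * C, fun x y => ?_⟩
  have hx := isRep_rep P x
  have hy := isRep_rep P y
  have hxd := hx.dsz_le
  have hyd := hy.dsz_le
  have h1 := hC (P.rep x + P.rep y) (P.rep x + P.rep y) (by rw [map_add, hx.deg, hy.deg, add_zero])
    (by rw [map_add, hx.deg, hy.deg, add_zero]) ((dsz_add_le _ _).trans (by linarith))
    ((dsz_add_le _ _).trans (by linarith))
  have h2 := hC (P.rep x - P.rep y) (P.rep x - P.rep y) (by rw [map_sub, hx.deg, hy.deg, sub_zero])
    (by rw [map_sub, hx.deg, hy.deg, sub_zero]) ((dsz_sub_le _ _).trans (by linarith))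
    ((dsz_sub_le _ _).trans (by linarith))
  simp only [map_add, map_sub, hx.cls, hy.cls, pairB_add_left, pairB_add_right, pairB_sub_left,
    pairB_comm P (P.rep x) (P.rep x - P.rep y), pairB_comm P (P.rep y) (P.rep x - P.rep y)]
    at h1 h2
  rw [pairB_comm P (P.rep y) (P.rep x)] at h1 h2
  have a1 := abs_le.mp h1
  have a2 := abs_le.mp h2
  rw [show P.beta x x = -P.pairB (P.rep x) (P.rep x) from rfl,
    show P.beta y y = -P.pairB (P.rep y) (P.rep y) from rfl, abs_le]
  constructor <;> linarith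

theorem beta_sum (d : ℕ) : ∃ C : ℝ, ∀ x : Fin d → Pic0 Qb F,
    |P.beta (∑ i, x i) (∑ i, x i) - ∑ i, ∑ j, P.beta (x i) (x j)| ≤ C := by
  obtain ⟨C, hC⟩ := beta_congr P ((d : ℝ) * ((exists_rep P).choose : ℕ))
  refine ⟨C, fun x => ?_⟩
  have hdeg : Divisor.degree (∑ i, P.rep (x i)) = 0 := by
    rw [map_sum]
    exact Finset.sum_eq_zero fun i _ => (isRep_rep P (x i)).deg
  have hsz : dsz (∑ i, P.rep (x i)) ≤ (d : ℝ) * ((exists_rep P).choose : ℕ) :=
    (dsz_sum_le _ _).trans ((Finset.sum_le_sum fun i _ => (isRep_rep P (x i)).dsz_le).trans_eq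
      (by simp))
  have h := hC _ _ hdeg hdeg hsz hsz
  have hcls : P.cls (∑ i, P.rep (x i)) = ∑ i, x i := by
    rw [map_sum]
    exact Finset.sum_congr rfl fun i _ => (isRep_rep P (x i)).cls
  rw [hcls, pairB_sum_left] at h
  convert h using 2
  rw [sub_eq_add_neg, add_right_inj, ← Finset.sum_neg_distrib]
  refine Finset.sum_congr rfl fun i _ => ?_
  rw [pairB_comm P, pairB_sum_left, ← Finset.sum_neg_distrib]
  exact Finset.sum_congr rfl fun j _ => by rw [Par.beta, neg_neg, pairB_comm]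

theorem beta_pt_all : ∃ C : ℝ, ∀ u v,
    |P.beta (P.pt u) (P.pt v) - (P.hd u P.O + P.hd v P.O - P.hd u v)| ≤ C := by
  obtain ⟨C, hC⟩ := beta_congr P 2
  refine ⟨C + |P.hd P.O P.O|, fun u v => ?_⟩
  have hsz : ∀ w, dsz (Finsupp.single w 1 - Finsupp.single P.O 1) ≤ (2 : ℝ) := fun w =>
    (dsz_sub_le _ _).trans_eq (by rw [dsz_single, dsz_single]; norm_num)
  have hdeg : ∀ w : Place Qb F,
      Divisor.degree (Finsupp.single w 1 - Finsupp.single P.O 1) = 0 := fun w => by
    rw [map_sub, degree_single_one, degree_single_one, sub_self]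
  have hcls : ∀ w, P.cls (Finsupp.single w 1 - Finsupp.single P.O 1) = P.pt w := fun w => by
    rw [map_sub, P.cls_single_O, sub_zero]
    rfl
  have h := hC _ _ (hdeg u) (hdeg v) (hsz u) (hsz v)
  rw [hcls, hcls, pairB_sub_left, pairB_comm P (Finsupp.single u 1),
    pairB_comm P (Finsupp.single P.O 1), pairB_sub_left, pairB_sub_left] at h
  simp only [pairB_single] at h
  rw [P.hd_comm v u, P.hd_comm P.O u] at h
  have a1 := abs_le.mp h
  have a2 := abs_le.mp (le_refl |P.hd P.O P.O|)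
  rw [abs_le]
  constructor <;> linarith

theorem beta_pt : ∃ C : ℝ, ∀ u v, u ≠ v → u ≠ P.O → v ≠ P.O →
    |P.beta (P.pt u) (P.pt v) - (P.hd u P.O + P.hd v P.O - P.hd u v)| ≤ C := by
  obtain ⟨C, hC⟩ := beta_pt_all P
  exact ⟨C, fun u v _ _ _ => hC u v⟩

theorem beta_pt_self : ∃ C : ℝ, ∀ v, v ≠ P.O →
    |P.beta (P.pt v) (P.pt v) - (2 * P.hd v P.O - P.hd v v)| ≤ C := by
  obtain ⟨C, hC⟩ := beta_pt_all P
  exact ⟨C, fun v _ => by convert hC v v using 2; ring⟩

end FLTAgent.MW
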