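import Fermat.Agent.MW.Defs

/-!
Every place of a number field inside `ℚ̄` extends to an element of `Pl`.
-/

set_option autoImplicit false

noncomputable section

open NumberField IsDedekindDomain

namespace FLTAgent.MW

variable {K : Type} [Field K] [NumberField K] [Algebra K Qb] [Algebra.IsAlgebraic K Qb]

theorem exists_Pl_extend_finite (P : FinitePlace K) :
    ∃ w : Pl, ∀ x : K, w (algebraMap K Qb x) = P x := by
  set v := FinitePlace.maximalIdeal P
  obtain ⟨x, hxv, hx0⟩ := Submodule.exists_mem_ne_zero_of_ne_bot v.ne_bot
  letI : NontriviallyNormedField (v.adicCompletion K) :=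
    { (inferInstance : NormedField (v.adicCompletion K)) with
      non_trivial := ⟨(FinitePlace.embedding v (algebraMap (𝓞 K) K x))⁻¹, by
        show 1 < ‖_‖
        rw [norm_inv]
        refine one_lt_inv_iff₀.mpr ⟨norm_pos_iff.mpr ?_, (FinitePlace.norm_lt_one_iff_mem K v x).mpr hxv⟩
        simpa using hx0⟩ }
  let C := AlgebraicClosure (v.adicCompletion K)
  letI : Algebra K C := ((algebraMap (v.adicCompletion K) C).comp (FinitePlace.embedding v)).toAlgebra
  let g : Qb →ₐ[K] C := IsAlgClosed.lift
  let N := spectralMulAlgNorm (v.adicCompletion K) C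
  have hna : IsNonarchimedean (N : C → ℝ) := isNonarchimedean_spectralNorm
  refine ⟨⟨{ toFun := fun a => N (g a)
             map_mul' := fun a b => by simp
             nonneg' := fun a => apply_nonneg N _
             eq_zero' := fun a => by simp [map_eq_zero_iff_eq_zero]
             add_le' := fun a b => by simpa using map_add_le_add N (g a) (g b) },
    Or.inl fun a b => by simpa using hna (g a) (g b)⟩, fun y => ?_⟩
  show N (g (algebraMap K Qb y)) = P y
  rw [g.commutes]
  exact (spectralNorm_extends (FinitePlace.embedding v y)).trans (P.norm_embedding_eq y)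

theorem exists_Pl_extend_infinite (φ : K →+* ℂ) :
    ∃ w : Pl, ∀ x : K, w (algebraMap K Qb x) = ‖φ x‖ := by
  letI : Algebra K ℂ := φ.toAlgebra
  let g : Qb →ₐ[K] ℂ := IsAlgClosed.lift
  refine ⟨⟨NumberField.place g.toRingHom, Or.inr fun n => by
      show ‖g.toRingHom (n : Qb)‖ = n
      simp⟩, fun y => ?_⟩
  show ‖g (algebraMap K Qb y)‖ = ‖φ y‖
  rw [g.commutes]
  rfl

/-- chosen extension of a finite place -/
def extF (P : FinitePlace K) : Pl := (exists_Pl_extend_finite P).choose

theorem extF_apply (P : FinitePlace K) (x : K) : extF P (algebraMap K Qb x) = P x :=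
  (exists_Pl_extend_finite P).choose_spec x

/-- chosen extension of an archimedean embedding -/
def extI (φ : K →+* ℂ) : Pl := (exists_Pl_extend_infinite φ).choose

theorem extI_apply (φ : K →+* ℂ) (x : K) : extI φ (algebraMap K Qb x) = ‖φ x‖ :=
  (exists_Pl_extend_infinite φ).choose_spec x

end FLTAgent.MW

end
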