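import Fermat.Agent.MW.Members

/-!
Classes off the theta divisor: finitely many translates suffice; residual divisors.
-/

set_option autoImplicit false

noncomputable section

open AlgebraicCurve

namespace FLTAgent.MW

variable {F : Type} [Field F] [Algebra Qb F] [RR.FnField Qb F] (P : Par F)

/-- `(g-1)O - z` is not effective -/
def Par.Good (z : Pic0 Qb F) : Prop :=
  ∀ D : Divisor Qb F, Divisor.degree D = (genusFF Qb F : ℤ) - 1 → P.cls D = -z →
    riemannRochSpace D = ⊥

theorem exists_drop {V : Divisor Qb F} (T : Finset (Place Qb F))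
    (hT : 4 * genusFF Qb F + 1 ≤ T.card) {W : Divisor Qb F}
    (hV : Divisor.degree V ≤ 2 * (genusFF Qb F : ℤ)) (hW : Divisor.degree W ≤ 2 * (genusFF Qb F : ℤ)) :
    ∃ w ∈ T, (RR.ell (V - Finsupp.single w 1) + 1 ≤ RR.ell V ∨ RR.ell (V - Finsupp.single w 1) = 0) ∧
      (RR.ell (W - Finsupp.single w 1) + 1 ≤ RR.ell W ∨ RR.ell (W - Finsupp.single w 1) = 0) := by
  classical
  have key : ∀ U : Divisor Qb F, Divisor.degree U ≤ 2 * (genusFF Qb F : ℤ) →
      ∃ B : Finset (Place Qb F), B.card ≤ 2 * genusFF Qb F ∧ ∀ w ∉ B,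
        RR.ell (U - Finsupp.single w 1) + 1 ≤ RR.ell U ∨ RR.ell (U - Finsupp.single w 1) = 0 := by
    intro U hU
    haveI := RR.finiteDimensional_rr U
    by_cases hbot : riemannRochSpace U = ⊥
    · refine ⟨∅, by simp, fun w _ => Or.inr (AJ.ell_eq_zero_iff.mpr (eq_bot_iff.mpr ?_))⟩
      exact (rr_sub_single_le U w).trans hbot.le
    obtain ⟨f, hf, hf0⟩ := Submodule.exists_mem_ne_zero_of_ne_bot hbot
    refine ⟨(zdiv U f).support, ?_, fun w hw => Or.inl ?_⟩
    · have h1 : ∀ v ∈ (zdiv U f).support, (1 : ℤ) ≤ zdiv U f v := fun v hv => by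
        have := zdiv_nonneg hf hf0 v
        have := Finsupp.mem_support_iff.mp hv
        omega
      have h2 := Finset.card_nsmul_le_sum _ _ _ h1
      rw [← RR.degree_eq_sum, degree_zdiv hf0, nsmul_one] at h2
      omega
    · refine Submodule.finrank_lt_finrank_of_lt (lt_of_le_of_ne (rr_sub_single_le U w) fun e => ?_)
      rw [← e, ← AJ.ell_eq_zero_iff.not] at hbot
      have h3 : f ∈ riemannRochSpace (U - Finsupp.single w 1) := e ▸ hf
      rw [← ev_eq_zero_iff_mem hf, ev_eq_zero_iff (hf w), RR.bd_iff_ord hf0] at h3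
      rw [Finsupp.notMem_support_iff, zdiv_apply hf0] at hw
      omega
  obtain ⟨B, hB, hBw⟩ := key V hV
  obtain ⟨B', hB', hBw'⟩ := key W hW
  obtain ⟨w, hw, hnot⟩ := Finset.exists_mem_notMem_of_card_lt_card (s := B ∪ B') (t := T)
    (by have := Finset.card_union_le B B'; omega)
  rw [Finset.mem_union, not_or] at hnot
  exact ⟨w, hw, hBw w hnot.1, hBw' w hnot.2⟩

theorem good_of_ell {z : Pic0 Qb F} {D : Divisor Qb F}
    (hdeg : Divisor.degree D = (genusFF Qb F : ℤ) - 1) (hcls : P.cls D = -z)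
    (h : RR.ell D = 0) : P.Good z := fun D' hd hc => by
  rw [← AJ.ell_eq_zero_iff, P.ell_congr (hd.trans hdeg.symm) (hc.trans hcls.symm), h]

/-- finitely many translates suffice -/
theorem exists_translates : ∃ S : Finset (Pic0 Qb F), ∀ x, ∃ c ∈ S,
    P.Good (x + c) ∧ P.Good (-x + c) := by
  classical
  obtain ⟨T, -, hT⟩ := places_infinite (K := Qb) (F := F) |>.exists_subset_card_eq
    (4 * genusFF Qb F + 1)
  refine ⟨(Finset.univ : Finset (Fin (genusFF Qb F) → T)).image
    fun r => P.cls (AJ.sumPts fun i => (r i : Place Qb F)), fun x => ?_⟩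
  obtain ⟨Ep, hpd, hpc⟩ := P.exists_cls (-x) (2 * (genusFF Qb F : ℤ) - 1)
  obtain ⟨Em, hmd, hmc⟩ := P.exists_cls x (2 * (genusFF Qb F : ℤ) - 1)
  have hp := ell_large (D := Ep) (by omega)
  have hm := ell_large (D := Em) (by omega)
  have key : ∀ j : ℕ, j ≤ genusFF Qb F → ∃ r : Fin j → T,
      RR.ell (Ep - AJ.sumPts fun i => (r i : Place Qb F)) + j ≤ genusFF Qb F ∧
      RR.ell (Em - AJ.sumPts fun i => (r i : Place Qb F)) + j ≤ genusFF Qb F := by
    intro j
    induction j with
    | zero =>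
      intro _
      refine ⟨Fin.elim0, ?_⟩
      simp only [AJ.sumPts, Finset.univ_eq_empty, Finset.sum_empty, sub_zero]
      omega
    | succ j ih =>
      intro hj
      obtain ⟨r, h1, h2⟩ := ih (by omega)
      obtain ⟨w, hw, hw1, hw2⟩ := exists_drop T (by omega)
        (V := Ep - AJ.sumPts fun i => (r i : Place Qb F))
        (W := Em - AJ.sumPts fun i => (r i : Place Qb F))
        (by rw [map_sub, hpd, AJ.degree_sumPts]; omega)
        (by rw [map_sub, hmd, AJ.degree_sumPts]; omega)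
      refine ⟨Fin.cons ⟨w, hw⟩ r, ?_⟩
      have e : ∀ U : Divisor Qb F,
          U - (AJ.sumPts fun i => ((Fin.cons ⟨w, hw⟩ r : Fin (j + 1) → T) i : Place Qb F)) =
            U - (AJ.sumPts fun i => (r i : Place Qb F)) - Finsupp.single w 1 := fun U => by
        simp only [AJ.sumPts, Fin.sum_univ_succ, Fin.cons_zero, Fin.cons_succ]
        abel
      rw [e, e]
      omega
  obtain ⟨r, h1, h2⟩ := key _ le_rfl
  refine ⟨_, Finset.mem_image_of_mem _ (Finset.mem_univ r),
    good_of_ell P (D := Ep - AJ.sumPts fun i => (r i : Place Qb F)) ?_ ?_ (by omega),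
    good_of_ell P (D := Em - AJ.sumPts fun i => (r i : Place Qb F)) ?_ ?_ (by omega)⟩
  · rw [map_sub, hpd, AJ.degree_sumPts, Fintype.card_fin]; ring
  · rw [map_sub, hpc]; abel
  · rw [map_sub, hmd, AJ.degree_sumPts, Fintype.card_fin]; ring
  · rw [map_sub, hmc]; abel

/-- the residual divisor of a good class -/
theorem exists_residual {z : Pic0 Qb F} (hz : P.Good z) :
    ∃ R : Fin (genusFF Qb F) → Place Qb F, P.cls (AJ.sumPts R) = -z ∧
      RR.ell (AJ.sumPts R) = 1 := by
  obtain ⟨D, hdeg, hcls⟩ := P.exists_cls (-z) (genusFF Qb F : ℤ)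
  have h0 : riemannRochSpace (D - Finsupp.single P.O 1) = ⊥ :=
    hz _ (by rw [map_sub, hdeg, degree_single_one]) (by rw [map_sub, hcls, P.cls_single_O, sub_zero])
  haveI := RR.finiteDimensional_rr D
  have hle : RR.ell D ≤ 1 := by
    have hinj : Function.Injective (evL D P.O) := by
      rw [← LinearMap.ker_eq_bot, eq_bot_iff]
      rintro ⟨f, hf⟩ h
      rw [LinearMap.mem_ker, evL_apply, ev_eq_zero_iff_mem hf, h0, Submodule.mem_bot] at h
      exact Subtype.ext h
    exact (LinearMap.finrank_le_finrank_of_injective hinj).trans_eq (Module.finrank_self Qb)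
  have hge := AJ.ell_ge D
  have hne : riemannRochSpace D ≠ ⊥ := fun h => by rw [AJ.ell_eq_zero_iff.mpr h] at hge; omega
  obtain ⟨f, hf, hf0⟩ := Submodule.exists_mem_ne_zero_of_ne_bot hne
  obtain ⟨R, hR⟩ := exists_isZeros hf hf0 hdeg
  have hcR : P.cls (AJ.sumPts R) = -z := by rw [hR.sum_eq, P.cls_zdiv hf0, hcls]
  refine ⟨R, hcR, ?_⟩
  rw [P.ell_congr (D' := D) (by rw [AJ.degree_sumPts, Fintype.card_fin, hdeg]) (hcR.trans hcls.symm)]
  omega

/-- for good `z` the points of a member of `|z + dO|` and the residual points are cut out by a unique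
hyperplane -/
theorem exists_hyperplane {z : Pic0 Qb F} (hz : P.Good z) (R : Fin (genusFF Qb F) → Place Qb F)
    (hR : P.cls (AJ.sumPts R) = -z) :
    ∃ (d : ℕ) (D : Fin d → Place Qb F) (c : Fin (RR.ell P.E) → Qb) (e : Fin P.n → Place Qb F),
      d + genusFF Qb F = P.n ∧ d + 1 = RR.ell P.E ∧ Function.Injective D ∧ (∀ i, D i ≠ P.O) ∧
      P.cls (AJ.sumPts D) = z ∧ IsZeros P.E (lc P.E c) e ∧
      AJ.sumPts e = AJ.sumPts D + AJ.sumPts R ∧
      (∀ c' : Fin (RR.ell P.E) → Qb, (∀ i, ∑ j, c' j * P.e (D i) j = 0) → ∃ a : Qb, c' = a • c) := by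
  classical
  have hn := P.hn
  obtain ⟨Z, hZ0, hZ1, hZs, hZd, hZc⟩ :=
    P.exists_member z (k := P.n - genusFF Qb F) (by omega) {P.O}
  obtain ⟨D, hD⟩ := exists_sumPts hZ0 hZd
  have hinj : Function.Injective D := fun i j hij => by
    by_contra hne
    have h := hZ1 (D i)
    rw [← hD, AJ.sumPts, Finsupp.finsetSum_apply] at h
    have hle := h.trans' (Finset.sum_le_sum_of_subset_of_nonneg (Finset.subset_univ {i, j})
      fun k _ _ => by rw [Finsupp.single_apply]; split_ifs <;> norm_num)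
    rw [Finset.sum_pair hne, Finsupp.single_eq_same, hij, Finsupp.single_eq_same] at hle
    omega
  have hZR : Divisor.degree (Z + AJ.sumPts R) = Divisor.degree P.E := by
    rw [map_add, hZd, AJ.degree_sumPts, Fintype.card_fin, P.degree_E]
    omega
  obtain ⟨f, hf0, hf⟩ := (P.cls_eq_iff hZR).mp (by rw [map_add, hZc, hR, P.cls_E, add_neg_cancel])
  have hfE : f ∈ riemannRochSpace P.E := AJ.mem_rrSpace.mpr fun v => by
    rw [RR.bd_iff_ord hf0, ← hf v, Finsupp.sub_apply, Finsupp.add_apply]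
    have := hZ0 v
    have := AJ.sumPts_nonneg R v
    omega
  have hz' : zdiv P.E f = Z + AJ.sumPts R := Finsupp.ext fun v => by
    rw [zdiv_apply hf0, ← hf v, Finsupp.sub_apply]
    ring
  obtain ⟨e, he⟩ := exists_isZeros hfE hf0 P.degree_E
  have hell : RR.ell (P.E - Z) = 1 := by
    obtain ⟨R', hR', hone⟩ := exists_residual P hz
    rw [← hone]
    refine P.ell_congr ?_ (by rw [map_sub, P.cls_E, hZc, hR', zero_sub])
    rw [map_sub, P.degree_E, hZd, AJ.degree_sumPts, Fintype.card_fin]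
    omega
  refine ⟨P.n - genusFF Qb F, D, crd P.E hfE, e, by omega, ?_, hinj, fun i h => ?_,
    hD ▸ hZc, by rw [lc_crd]; exact he, by rw [he.sum_eq, hz', hD], fun c' hc' => ?_⟩
  · have := ell_large (D := P.E) (by rw [P.degree_E]; omega)
    rw [P.degree_E] at this
    omega
  · have h1 := hZs _ (Finset.mem_singleton_self P.O)
    rw [← hD, ← h, AJ.sumPts_apply_self hinj] at h1
    exact one_ne_zero h1
  · have hsub : ∀ g ∈ riemannRochSpace P.E, (∀ i, ev P.E (D i) g = 0) →
        g ∈ riemannRochSpace (P.E - Z) := by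
      intro g hg h
      refine AJ.mem_rrSpace.mpr fun v => ?_
      by_cases hv : ∃ i, D i = v
      · obtain ⟨i, rfl⟩ := hv
        rw [Finsupp.sub_apply, ← hD, AJ.sumPts_apply_self hinj, ← ev_eq_zero_iff (hg _)]
        exact h i
      · push Not at hv
        rw [Finsupp.sub_apply, ← hD, AJ.sumPts_apply_of_ne hv, sub_zero]
        exact AJ.mem_rrSpace.mp hg v
    haveI := RR.finiteDimensional_rr (P.E - Z)
    have hfm : f ∈ riemannRochSpace (P.E - Z) := AJ.mem_rrSpace.mpr fun v => by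
      rw [RR.bd_iff_ord hf0, ← hf v, Finsupp.sub_apply, Finsupp.sub_apply, Finsupp.add_apply]
      have := AJ.sumPts_nonneg R v
      omega
    obtain ⟨a, ha⟩ := (finrank_eq_one_iff_of_nonzero' (⟨f, hfm⟩ : riemannRochSpace (P.E - Z))
      (fun h => hf0 (congrArg Subtype.val h))).mp hell
      ⟨lc P.E c', hsub _ (lc_mem _ _) fun i => (ev_lc _ _ _).trans (hc' i)⟩
    exact ⟨a, lc_injective P.E (by rw [map_smul, lc_crd]; exact (congrArg Subtype.val ha).symm)⟩

end FLTAgent.MW
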