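import Fermat.Agent.MW.Pairing
import Fermat.Agent.MW.Gauss
import Fermat.Agent.MW.Translates
import Fermat.Agent.MW.Det

/-!
The quadratic height is bounded below, and it bounds residual divisors.
-/

set_option autoImplicit false

noncomputable section

open AlgebraicCurve

namespace FLTAgent.MW

variable {F : Type} [Field F] [Algebra Qb F] [RR.FnField Qb F] (P : Par F)

/-- the quadratic height -/
def Par.H (P : Par F) (x : Pic0 Qb F) : ℝ := P.beta x x

theorem qlin_sum {G : Type*} [AddCommGroup G] {l : G → ℝ} (hl : QLin l) :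
    ∀ d : ℕ, ∃ C : ℝ, ∀ x : Fin d → G, |l (∑ i, x i) - ∑ i, l (x i)| ≤ C := by
  obtain ⟨C, hC⟩ := hl
  intro d
  induction d with
  | zero => exact ⟨|l 0|, fun x => by simp⟩
  | succ d ih =>
    obtain ⟨D, hD⟩ := ih
    refine ⟨C + D, fun x => ?_⟩
    rw [Fin.sum_univ_succ, Fin.sum_univ_succ]
    have a := abs_le.mp (hC (x 0) (∑ i : Fin d, x i.succ))
    have b := abs_le.mp (hD fun i => x i.succ)
    rw [abs_le]
    constructor <;> linarith

/-- the height of the class of a place -/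
theorem exists_self_pairing : ∃ (l : Pic0 Qb F → ℝ) (C : ℝ), QLin l ∧ ∀ v, v ≠ P.O →
    |P.H (P.pt v) - (2 * (genusFF Qb F : ℝ) / P.n * P.hP v + l (P.pt v))| ≤ C := by
  classical
  obtain ⟨Z, bad, C₁, hdeg, hZ⟩ := height_tangent P
  obtain ⟨C₂, h₂⟩ := beta_pt_all P
  obtain ⟨C₃, h₃⟩ := height_base P
  obtain ⟨C₄, h₄⟩ := beta_add P
  let l : Pic0 Qb F → ℝ := fun x => -∑ u ∈ Z.support, (Z u : ℝ) * P.beta x (P.pt u)
  have hl : QLin l := by
    refine ⟨∑ u ∈ Z.support, |(Z u : ℝ)| * C₄, fun x y => ?_⟩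
    have e : l (x + y) - l x - l y = -∑ u ∈ Z.support, (Z u : ℝ) *
        (P.beta (x + y) (P.pt u) - P.beta x (P.pt u) - P.beta y (P.pt u)) := by
      simp only [l, mul_sub, Finset.sum_sub_distrib]
      ring
    rw [e, abs_neg]
    refine (Finset.abs_sum_le_sum_abs _ _).trans (Finset.sum_le_sum fun u _ => ?_)
    rw [abs_mul]
    exact mul_le_mul_of_nonneg_left (h₄ x y _) (abs_nonneg _)
  let err : Place Qb F → ℝ := fun v =>
    P.H (P.pt v) - (2 * (genusFF Qb F : ℝ) / P.n * P.hP v + l (P.pt v))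
  have hn0 : (0 : ℝ) < P.n := by
    have := P.hn
    exact_mod_cast (show 0 < P.n by omega)
  have hdegR : (∑ u ∈ Z.support, (Z u : ℝ)) = 2 * P.n + 2 * (genusFF Qb F : ℝ) - 2 := by
    have h := congrArg (fun z : ℤ => (z : ℝ)) hdeg
    rw [RR.degree_eq_sum] at h
    push_cast at h
    exact h
  let K : ℝ := ∑ u ∈ Z.support, |(Z u : ℝ)| * (|P.hd u P.O| + C₂)
  let K₂ : ℝ := |2 + (∑ u ∈ Z.support, (Z u : ℝ))| * C₃ / P.n
  refine ⟨l, C₁ + C₂ + K + K₂ + ∑ v ∈ bad, |err v|, hl, fun v hv => ?_⟩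
  have hC₁ : ∀ v ∉ bad, 0 ≤ C₁ := fun v hv => le_trans (abs_nonneg _) (hZ v hv)
  have hC₂ : 0 ≤ C₂ := le_trans (abs_nonneg _) (h₂ v v)
  have hC₃ : 0 ≤ C₃ := le_trans (abs_nonneg _) (h₃ v hv)
  have hK : 0 ≤ K := Finset.sum_nonneg fun u _ => mul_nonneg (abs_nonneg _)
    (add_nonneg (abs_nonneg _) hC₂)
  have hK₂ : 0 ≤ K₂ := div_nonneg (mul_nonneg (abs_nonneg _) hC₃) hn0.le
  have hsum0 : 0 ≤ ∑ w ∈ bad, |err w| := Finset.sum_nonneg fun w _ => abs_nonneg _
  show |err v| ≤ _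
  by_cases hb : v ∈ bad
  · obtain ⟨w, hw⟩ := exists_place_avoid bad
    have := hC₁ w hw
    have := Finset.single_le_sum (f := fun w => |err w|) (fun _ _ => abs_nonneg _) hb
    linarith
  have a1 := abs_le.mp (h₂ v v)
  have a2 := abs_le.mp (hZ v hb)
  have a3 : |Z.sum (fun u a => (a : ℝ) * P.hd v u) -
      ((∑ u ∈ Z.support, (Z u : ℝ)) * P.hd v P.O + l (P.pt v))| ≤ K := by
    rw [Finsupp.sum, Finset.sum_mul]
    simp only [l, ← sub_eq_add_neg, ← Finset.sum_sub_distrib]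
    refine (Finset.abs_sum_le_sum_abs _ _).trans (Finset.sum_le_sum fun u _ => ?_)
    rw [← mul_sub, ← mul_sub, abs_mul]
    refine mul_le_mul_of_nonneg_left ?_ (abs_nonneg _)
    have b1 := abs_le.mp (h₂ v u)
    have b2 := abs_le.mp (le_refl |P.hd u P.O|)
    rw [abs_le]
    constructor <;> linarith
  have a3' := abs_le.mp a3
  have a4 : |(2 + ∑ u ∈ Z.support, (Z u : ℝ)) * P.hd v P.O -
      (2 + ∑ u ∈ Z.support, (Z u : ℝ)) / P.n * P.hP v| ≤ K₂ := by
    rw [show (2 + ∑ u ∈ Z.support, (Z u : ℝ)) * P.hd v P.O -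
        (2 + ∑ u ∈ Z.support, (Z u : ℝ)) / P.n * P.hP v =
        (2 + ∑ u ∈ Z.support, (Z u : ℝ)) * ((P.n * P.hd v P.O - P.hP v) / P.n) by field_simp,
      abs_mul, abs_div, abs_of_pos hn0, ← mul_div_assoc]
    exact div_le_div_of_nonneg_right (mul_le_mul_of_nonneg_left (h₃ v hv) (abs_nonneg _)) hn0.le
  have a4' := abs_le.mp a4
  have key : err v = (P.beta (P.pt v) (P.pt v) - (P.hd v P.O + P.hd v P.O - P.hd v v))
      + (ht (P.del v v) - Z.sum (fun u a => (a : ℝ) * P.hd v u))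
      + (Z.sum (fun u a => (a : ℝ) * P.hd v u) -
        ((∑ u ∈ Z.support, (Z u : ℝ)) * P.hd v P.O + l (P.pt v)))
      + ((2 + ∑ u ∈ Z.support, (Z u : ℝ)) * P.hd v P.O -
        (2 + ∑ u ∈ Z.support, (Z u : ℝ)) / P.n * P.hP v) := by
    simp only [err, Par.H]
    rw [show P.hd v v = P.hP v + P.hP v - ht (P.del v v) from rfl, hdegR]
    field_simp
    ring
  rw [key, abs_le]
  constructor <;> linarith

/-- residual points are controlled by the quadratic height -/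
theorem residual_bound : ∃ (l : Pic0 Qb F → ℝ) (C : ℝ), QLin l ∧
    ∀ (z : Pic0 Qb F), P.Good z → ∀ R : Fin (genusFF Qb F) → Place Qb F,
      P.cls (AJ.sumPts R) = -z → 2 / (P.n : ℝ) * ∑ i, P.hP (R i) ≤ P.H z - l z + C := by
  classical
  have hell : RR.ell P.E = P.n + 1 - genusFF Qb F := by
    have h := ell_large (D := P.E) (by have := P.two_g_le; omega)
    rw [P.degree_E] at h
    omega
  obtain ⟨l, C₁, hl, h₁⟩ := exists_self_pairing P
  obtain ⟨C₂, h₂⟩ := beta_pt_all P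
  obtain ⟨C₃, h₃⟩ := height_base P
  obtain ⟨C₄, h₄⟩ := height_chow P
  set d₀ := P.n - genusFF Qb F with hd₀
  obtain ⟨C₅, h₅⟩ := beta_sum P d₀
  obtain ⟨C₆, h₆⟩ := qlin_sum hl d₀
  obtain ⟨C₇, h₇⟩ := det_height P d₀ (by rw [hell]; have := P.hn; omega)
  obtain ⟨C, hC⟩ : ∃ C, C = C₅ + (d₀ * C₁ + C₆ + (d₀ : ℝ) * d₀ * C₂ +
      2 * (d₀ : ℝ) * d₀ * C₃ / P.n) + 2 * C₇ + 2 * C₄ / P.n := ⟨_, rfl⟩
  refine ⟨l, C, hl, fun z hz R hR => ?_⟩
  obtain ⟨d, D, c, e, hd, -, hinj, hO, hcls, he, hsum, huniq⟩ := exists_hyperplane P hz R hR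
  obtain rfl : d = d₀ := by omega
  have hc : c ≠ 0 := fun h => he.ne (by rw [h, map_zero])
  have hn0 : (0 : ℝ) < P.n := by
    have := P.hn
    exact_mod_cast (show 0 < P.n by omega)
  -- the points lie on the hyperplane
  have hvan : ∀ i, ∑ j, c j * P.e (D i) j = 0 := fun i => by
    rw [← ev_lc, he.ev_eq_zero_iff]
    by_contra hne
    push Not at hne
    have h := congrArg (fun Z : Divisor Qb F => Z (D i)) hsum
    simp only [AJ.sumPts_apply_of_ne hne, Finsupp.add_apply, AJ.sumPts_apply_self hinj] at h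
    have := AJ.sumPts_nonneg R (D i)
    omega
  have hchow : |∑ i, P.hP (D i) + ∑ i, P.hP (R i) - P.n * ht c| ≤ C₄ := by
    have h := h₄ c e he
    let φ : Divisor Qb F →+ ℝ := Finsupp.liftAddHom fun v => (zmultiplesHom ℝ) (P.hP v)
    have hφ : ∀ {m : ℕ} (f : Fin m → Place Qb F), φ (AJ.sumPts f) = ∑ i, P.hP (f i) := by
      intro m f
      simp [φ, AJ.sumPts, map_sum]
    have e' := congrArg φ hsum
    rw [map_add, hφ, hφ, hφ] at e'
    rwa [e'] at h
  have hdet := h₇ D hinj c hc hvan huniq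
  -- the height of z
  set S := ∑ i, P.hP (D i) with hS
  set T := ∑ i, ∑ j ∈ Finset.Ioi i, P.hd (D i) (D j) with hT
  have hpair : ∀ i j, |P.beta (P.pt (D i)) (P.pt (D j)) -
      ((P.hP (D i) + P.hP (D j)) / P.n - P.hd (D i) (D j))| ≤ C₂ + 2 * C₃ / P.n := by
    intro i j
    have a := abs_le.mp (h₂ (D i) (D j))
    have b := abs_le.mp (h₃ (D i) (hO i))
    have b' := abs_le.mp (h₃ (D j) (hO j))
    have e1 : P.hd (D i) P.O + P.hd (D j) P.O - (P.hP (D i) + P.hP (D j)) / P.n =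
        ((P.n * P.hd (D i) P.O - P.hP (D i)) + (P.n * P.hd (D j) P.O - P.hP (D j))) / P.n := by
      field_simp
      ring
    have e2 : |((P.n * P.hd (D i) P.O - P.hP (D i)) + (P.n * P.hd (D j) P.O - P.hP (D j))) /
        (P.n : ℝ)| ≤ 2 * C₃ / P.n := by
      rw [abs_div, abs_of_pos hn0]
      refine div_le_div_of_nonneg_right ?_ hn0.le
      rw [abs_le]
      constructor <;> linarith
    have e2' := abs_le.mp e2
    rw [abs_le]
    constructor <;> linarith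
  have hd1 : ∀ i : Fin d₀, ∑ j ∈ ({i}ᶜ : Finset (Fin d₀)), (P.hP (D i) + P.hP (D j)) =
      ((d₀ : ℝ) - 2) * P.hP (D i) + S := by
    intro i
    rw [Finset.sum_add_distrib, Finset.sum_const, Finset.card_compl, Finset.card_singleton,
      Fintype.card_fin, nsmul_eq_mul, hS, ← Finset.sum_compl_add_sum {i} fun j => P.hP (D j),
      Finset.sum_singleton, Nat.cast_sub (by have := i.2; omega)]
    push_cast
    ring
  have hoff : |∑ i, ∑ j ∈ ({i}ᶜ : Finset (Fin d₀)), P.beta (P.pt (D i)) (P.pt (D j)) -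
      ((2 * (d₀ : ℝ) - 2) * S / P.n - 2 * T)| ≤
        (d₀ : ℝ) * d₀ * C₂ + 2 * (d₀ : ℝ) * d₀ * C₃ / P.n := by
    have e1 : (2 * (d₀ : ℝ) - 2) * S / P.n - 2 * T = ∑ i, ∑ j ∈ ({i}ᶜ : Finset (Fin d₀)),
        ((P.hP (D i) + P.hP (D j)) / P.n - P.hd (D i) (D j)) := by
      simp only [Finset.sum_sub_distrib, ← Finset.sum_div, hd1]
      have e2 : ∑ i, ∑ j ∈ ({i}ᶜ : Finset (Fin d₀)), P.hd (D i) (D j) = 2 * T := by
        rw [hT, ← Finset.sum_sum_Ioi_add_eq_sum_sum_off_diag fun i j => P.hd (D j) (D i),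
          Finset.mul_sum]
        refine Finset.sum_congr rfl fun i _ => ?_
        rw [Finset.mul_sum]
        refine Finset.sum_congr rfl fun j _ => ?_
        rw [P.hd_comm (D j) (D i)]
        ring
      rw [e2, Finset.sum_add_distrib, ← Finset.mul_sum, Finset.sum_const, Finset.card_univ,
        Fintype.card_fin, nsmul_eq_mul, ← hS]
      ring
    rw [e1, ← Finset.sum_sub_distrib]
    refine (Finset.abs_sum_le_sum_abs _ _).trans ?_
    have hbound : ∀ i : Fin d₀, |∑ j ∈ ({i}ᶜ : Finset (Fin d₀)), P.beta (P.pt (D i)) (P.pt (D j)) -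
        ∑ j ∈ ({i}ᶜ : Finset (Fin d₀)), ((P.hP (D i) + P.hP (D j)) / P.n - P.hd (D i) (D j))| ≤
          (d₀ : ℝ) * (C₂ + 2 * C₃ / P.n) := by
      intro i
      rw [← Finset.sum_sub_distrib]
      refine (Finset.abs_sum_le_sum_abs _ _).trans ((Finset.sum_le_sum fun j _ => hpair i j).trans ?_)
      rw [Finset.sum_const, nsmul_eq_mul]
      refine mul_le_mul_of_nonneg_right ?_ (le_trans (abs_nonneg _) (hpair i i))
      exact_mod_cast (Finset.card_le_univ _).trans_eq (Fintype.card_fin _)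
    refine (Finset.sum_le_sum fun i _ => hbound i).trans (le_of_eq ?_)
    rw [Finset.sum_const, Finset.card_univ, Fintype.card_fin, nsmul_eq_mul]
    ring
  have hzsum : z = ∑ i, P.pt (D i) := by
    rw [← hcls, AJ.sumPts, map_sum]
    rfl
  have hH := h₅ fun i => P.pt (D i)
  have hlz := h₆ fun i => P.pt (D i)
  rw [← hzsum] at hH hlz
  have hdiag : |∑ i, P.beta (P.pt (D i)) (P.pt (D i)) -
      (2 * (genusFF Qb F : ℝ) / P.n * S + ∑ i, l (P.pt (D i)))| ≤ d₀ * C₁ := by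
    rw [hS, Finset.mul_sum, ← Finset.sum_add_distrib, ← Finset.sum_sub_distrib]
    refine (Finset.abs_sum_le_sum_abs _ _).trans ((Finset.sum_le_sum fun i _ => h₁ (D i) (hO i)).trans
      (le_of_eq ?_))
    rw [Finset.sum_const, Finset.card_univ, Fintype.card_fin, nsmul_eq_mul]
  have hsplit : ∑ i, ∑ j, P.beta (P.pt (D i)) (P.pt (D j)) = ∑ i, P.beta (P.pt (D i)) (P.pt (D i)) +
      ∑ i, ∑ j ∈ ({i}ᶜ : Finset (Fin d₀)), P.beta (P.pt (D i)) (P.pt (D j)) := by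
    rw [← Finset.sum_add_distrib]
    exact Finset.sum_congr rfl fun i _ =>
      (Finset.sum_add_sum_compl {i} _).symm.trans (by rw [Finset.sum_singleton])
  rw [hsplit] at hH
  have hgd : (genusFF Qb F : ℝ) = P.n - d₀ := by
    have : (d₀ : ℝ) + genusFF Qb F = P.n := by exact_mod_cast hd
    linarith
  rw [hgd] at hdiag
  have p1 := abs_le.mp hH
  have p2 := abs_le.mp hlz
  have p3 := abs_le.mp hdiag
  have p4 := abs_le.mp hoff
  have p5 := abs_le.mp hchow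
  have p6 : 2 / (P.n : ℝ) * (∑ i, P.hP (R i)) ≤ 2 * ht c + 2 * C₄ / P.n - 2 / P.n * S := by
    rw [show 2 * ht c + 2 * C₄ / (P.n : ℝ) - 2 / P.n * S =
      2 / (P.n : ℝ) * (P.n * ht c + C₄ - S) by field_simp]
    exact mul_le_mul_of_nonneg_left (by linarith) (by positivity)
  have p7 : 2 * ((P.n : ℝ) - d₀) / P.n * S + (2 * (d₀ : ℝ) - 2) * S / P.n =
      2 * S - 2 / P.n * S := by
    field_simp
    ring
  have hHz : P.H z = P.beta z z := rfl
  subst hC
  linarith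

/-- the quadratic height is bounded below and bounds the residual points of good translates -/
theorem exists_height : ∃ (S : Finset (Pic0 Qb F)) (C₀ : ℝ),
    ∀ x, 0 ≤ P.H x + C₀ ∧ ∃ c ∈ S, ∃ R : Fin (genusFF Qb F) → Place Qb F,
      P.cls (AJ.sumPts R) = -(x + c) ∧ RR.ell (AJ.sumPts R) = 1 ∧
      ∑ i, P.hP (R i) ≤ (P.n : ℝ) * (P.H x + C₀) := by
  classical
  obtain ⟨S, hS⟩ := exists_translates P
  obtain ⟨l, C₁, hl, h₁⟩ := residual_bound P
  obtain ⟨C₂, h₂⟩ := beta_parallelogram P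
  obtain ⟨C₃, h₃⟩ := beta_neg P
  obtain ⟨C₄, h₄⟩ := hl
  obtain ⟨C₅, hC₅⟩ : ∃ C₅, ∀ c ∈ S, |P.H c - l c| ≤ C₅ :=
    ⟨∑ c ∈ S, |P.H c - l c|, fun c hc =>
      Finset.single_le_sum (f := fun c => |P.H c - l c|) (fun _ _ => abs_nonneg _) hc⟩
  refine ⟨S, C₅ + C₁ + C₂ + C₃ + C₄, fun x => ?_⟩
  obtain ⟨c, hc, hp, hm⟩ := hS x
  obtain ⟨R, hR, hR1⟩ := exists_residual P hp
  obtain ⟨R', hR', -⟩ := exists_residual P hm
  have b1 := h₁ _ hp R hR
  have b2 := h₁ _ hm R' hR'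
  have hn0 : (0 : ℝ) < P.n := by
    have := P.hn
    exact_mod_cast (show 0 < P.n by omega)
  have s1 : 0 ≤ ∑ i, P.hP (R i) := Finset.sum_nonneg fun i _ => P.hP_nonneg _
  have s2 : 0 ≤ 2 / (P.n : ℝ) * ∑ i, P.hP (R' i) :=
    mul_nonneg (by positivity) (Finset.sum_nonneg fun i _ => P.hP_nonneg _)
  -- the two translates
  have q1 := abs_le.mp (h₂ x c)
  have q2 : |P.H (-x + c) - P.H (x - c)| ≤ 2 * C₃ := by
    have e : -x + c = -(x - c) := by abel
    have a := abs_le.mp (h₃ (x - c) (-(x - c)))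
    have b := abs_le.mp (h₃ (x - c) (x - c))
    rw [beta_comm P (x - c) (-(x - c))] at a
    rw [e, Par.H, Par.H, abs_le]
    constructor <;> linarith
  have q2' := abs_le.mp q2
  have q3 := abs_le.mp (h₄ (x + c) (-x + c))
  have q4 := abs_le.mp (h₄ c c)
  rw [show x + c + (-x + c) = c + c by abel] at q3
  have q5 := abs_le.mp (hC₅ c hc)
  simp only [Par.H] at *
  have s1' : 0 ≤ 2 / (P.n : ℝ) * ∑ i, P.hP (R i) := mul_nonneg (by positivity) s1
  refine ⟨by linarith, c, hc, R, hR, hR1, ?_⟩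
  have key : 2 / (P.n : ℝ) * ∑ i, P.hP (R i) ≤
      2 * (P.beta x x + (C₅ + C₁ + C₂ + C₃ + C₄)) := by linarith
  have := mul_le_mul_of_nonneg_left key (le_of_lt hn0)
  rw [show (P.n : ℝ) * (2 / P.n * ∑ i, P.hP (R i)) = 2 * ∑ i, P.hP (R i) by field_simp] at this
  linarith

end FLTAgent.MW
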