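import Fermat.Agent.MW.Setup

/-!
The resultant of two sections of `L(nO)` as a determinant, and its factorisation over the zeros of
the first one.
-/

set_option autoImplicit false

noncomputable section

open AlgebraicCurve
open FLTAgent.RR (Bd)

namespace FLTAgent.MW

variable {F : Type} [Field F] [Algebra Qb F] [RR.FnField Qb F]

theorem mul_mem_rr {D D' : Divisor Qb F} {f g : F} (hf : f ∈ riemannRochSpace D)
    (hg : g ∈ riemannRochSpace D') : f * g ∈ riemannRochSpace (D + D') :=
  AJ.mem_rrSpace.mpr fun v => by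
    rw [Finsupp.add_apply]
    exact RR.Bd.mul (hf v) (hg v)

theorem exists_nonspecial_div : ∃ A : Divisor Qb F,
    Divisor.degree A = (genusFF Qb F : ℤ) - 1 ∧ RR.ell A = 0 := by
  classical
  obtain ⟨e, he, -⟩ := AJ.exists_nonspecial (K := Qb) (F := F) ∅ Set.finite_empty places_infinite
  obtain ⟨u, hu⟩ := exists_place_avoid (Finset.univ.image e)
  refine ⟨AJ.sumPts e - Finsupp.single u 1, ?_, ?_⟩
  · rw [map_sub, degree_single_one, AJ.degree_sumPts, Fintype.card_fin]
  · have h1 : (1 : F) ∈ riemannRochSpace (AJ.sumPts e) := AJ.mem_rrSpace.mpr fun v =>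
      RR.bd_iff.mpr (Or.inr (by rw [v.ord_one]; have := AJ.sumPts_nonneg e v; omega))
    have hev : ev (AJ.sumPts e) u (1 : F) ≠ 0 := by
      rw [Ne, ev_eq_zero_iff (bd_of_mem h1), RR.bd_iff_ord one_ne_zero, u.ord_one,
        AJ.sumPts_apply_of_ne fun i hi => hu (Finset.mem_image.mpr ⟨i, Finset.mem_univ i, hi⟩)]
      omega
    have hlt : riemannRochSpace (AJ.sumPts e - Finsupp.single u 1) <
        riemannRochSpace (AJ.sumPts e) :=
      lt_of_le_of_ne (rr_sub_single_le _ _) fun h => hev ((ev_eq_zero_iff_mem h1).mpr (h ▸ h1))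
    have := Submodule.finrank_lt_finrank_of_lt hlt
    have h2 := he.ell_eq
    rw [RR.ell] at h2 ⊢
    omega

namespace Par

variable (P : Par F)

/-- the auxiliary divisor of degree `g - 1` without sections -/
def A (_P : Par F) : Divisor Qb F := (exists_nonspecial_div (F := F)).choose

theorem degree_A : Divisor.degree P.A = (genusFF Qb F : ℤ) - 1 :=
  (exists_nonspecial_div (F := F)).choose_spec.1

theorem eq_zero_of_mem_A {f : F} (hf : f ∈ riemannRochSpace P.A) : f = 0 := by
  rw [A, AJ.ell_eq_zero_iff.mp (exists_nonspecial_div (F := F)).choose_spec.2] at hf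
  exact (Submodule.mem_bot Qb).mp hf

/-- the source divisor -/
def a : Divisor Qb F := P.A + P.E

/-- the target divisor -/
def b : Divisor Qb F := P.E + P.a

theorem degree_a : Divisor.degree P.a = (genusFF Qb F : ℤ) - 1 + P.n := by
  rw [a, map_add, P.degree_A, P.degree_E]

theorem degree_b : Divisor.degree P.b = (genusFF Qb F : ℤ) - 1 + 2 * P.n := by
  rw [b, map_add, P.degree_a, P.degree_E]
  ring

theorem ell_a : RR.ell P.a = P.n := by
  have h := ell_large (D := P.a) (by have := P.hn; rw [P.degree_a]; omega)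
  rw [P.degree_a] at h
  omega

theorem ell_b : RR.ell P.b = P.n + P.n := by
  have h := ell_large (D := P.b) (by have := P.hn; rw [P.degree_b]; omega)
  rw [P.degree_b] at h
  omega

theorem two_g_le_a : 2 * (genusFF Qb F : ℤ) ≤ Divisor.degree P.a := by
  have := P.hn
  rw [P.degree_a]
  omega

theorem two_g_le_b : 2 * (genusFF Qb F : ℤ) + 1 ≤ Divisor.degree P.b := by
  have := P.hn
  rw [P.degree_b]
  omega

/-- index type of the resultant matrix -/
abbrev RI : Type := Fin P.n ⊕ Fin P.n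

/-- numbering of a basis of `L(b)` -/
def idx : P.RI ≃ Fin (RR.ell P.b) := finSumFinEquiv.trans (finCongr P.ell_b.symm)

/-- basis of `L(a)` -/
def basA : Module.Basis (Fin P.n) Qb (riemannRochSpace P.a) :=
  (bas P.a).reindex (finCongr P.ell_a)

/-- evaluation vector of `L(a)` -/
def e1 (v : Place Qb F) (i : Fin P.n) : Qb := ev P.a v (P.basA i : F)

/-- evaluation vector of `L(b)` -/
def e2 (v : Place Qb F) (r : P.RI) : Qb := vec P.b v (P.idx r)

theorem e1_eq (v : Place Qb F) : P.e1 v = fun i => vec P.a v ((finCongr P.ell_a).symm i) := by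
  funext i
  rw [e1, basA, Module.Basis.reindex_apply]
  rfl

theorem e1_ne (v : Place Qb F) : P.e1 v ≠ 0 := fun h => vec_ne_zero P.two_g_le_a v (funext fun i => by
  have := congrFun h (finCongr P.ell_a i)
  rw [P.e1_eq] at this
  simpa using this)

theorem e2_ne (v : Place Qb F) : P.e2 v ≠ 0 := fun h =>
  vec_ne_zero (E := P.b) (by have := P.two_g_le_b; omega) v (funext fun i => by
    simpa [e2] using congrFun h (P.idx.symm i))

/-- coordinates in `L(b)` -/
def crdb : riemannRochSpace P.b ≃ₗ[Qb] (P.RI → Qb) :=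
  (bas P.b).equivFun.trans (LinearEquiv.funCongrLeft Qb Qb P.idx)

theorem sum_crdb (v : Place Qb F) (f : riemannRochSpace P.b) :
    ∑ r, P.crdb f r * P.e2 v r = ev P.b v (f : F) := by
  rw [ev_eq_dot f.2, ← P.idx.sum_comp]
  exact Finset.sum_congr rfl fun r _ => rfl

/-- multiplication by a section -/
def mulL (c : Fin (RR.ell P.E) → Qb) : riemannRochSpace P.a →ₗ[Qb] riemannRochSpace P.b where
  toFun f := ⟨lc P.E c * f, mul_mem_rr (lc_mem _ c) f.2⟩
  map_add' f g := Subtype.ext (mul_add (lc P.E c) (f : F) g)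
  map_smul' t f := Subtype.ext (mul_smul_comm t (lc P.E c) (f : F))

theorem coe_mulL (c : Fin (RR.ell P.E) → Qb) (f : riemannRochSpace P.a) :
    (P.mulL c f : F) = lc P.E c * f := rfl

/-- the multiplication tensor -/
def mu (j : Fin (RR.ell P.E)) (i : Fin P.n) : P.RI → Qb :=
  P.crdb (P.mulL (Pi.single j 1) (P.basA i))

/-- the resultant matrix over a `ℚ̄`-algebra -/
def mat {R : Type*} [CommRing R] [Algebra Qb R] (c c' : Fin (RR.ell P.E) → R) :
    Matrix P.RI P.RI R :=
  Matrix.of fun r k => Sum.elim (fun i => ∑ j, c j * algebraMap Qb R (P.mu j i k))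
    (fun i => ∑ j, c' j * algebraMap Qb R (P.mu j i k)) r

theorem sum_mu (c : Fin (RR.ell P.E) → Qb) (i : Fin P.n) :
    (fun k => ∑ j, c j * P.mu j i k) = P.crdb (P.mulL c (P.basA i)) := by
  have h : P.mulL c (P.basA i) = ∑ j, c j • P.mulL (Pi.single j 1) (P.basA i) := by
    refine Subtype.ext ?_
    rw [Submodule.coe_sum]
    simp only [Submodule.coe_smul, coe_mulL]
    conv_lhs => rw [show c = ∑ j, c j • Pi.single j (1 : Qb) by
      funext k; simp [Finset.sum_apply, Pi.single_apply]]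
    simp only [map_sum, map_smul, Finset.sum_mul, smul_mul_assoc]
  rw [h, map_sum]
  funext k
  simp [mu, Finset.sum_apply]

theorem mat_inl (c c' : Fin (RR.ell P.E) → Qb) (i : Fin P.n) :
    P.mat c c' (Sum.inl i) = P.crdb (P.mulL c (P.basA i)) := by
  rw [← P.sum_mu]
  rfl

theorem mat_inr (c c' : Fin (RR.ell P.E) → Qb) (i : Fin P.n) :
    P.mat c c' (Sum.inr i) = P.crdb (P.mulL c' (P.basA i)) := by
  rw [← P.sum_mu]
  rfl

theorem vecMul_rows {ι V : Type*} [Fintype ι] [AddCommGroup V] [Module Qb V]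
    (L : V →ₗ[Qb] (P.RI → Qb)) (f : ι → V) (M : Matrix ι P.RI Qb) (hM : ∀ r, M r = L (f r))
    (x : ι → Qb) : Matrix.vecMul x M = L (∑ r, x r • f r) := by
  funext k
  rw [map_sum, Finset.sum_apply]
  refine Finset.sum_congr rfl fun r _ => ?_
  rw [map_smul, Pi.smul_apply, smul_eq_mul, ← hM]

theorem vecMul_mat (c c' : Fin (RR.ell P.E) → Qb) (x : P.RI → Qb) :
    Matrix.vecMul x (P.mat c c') = P.crdb (P.mulL c (∑ i, x (Sum.inl i) • P.basA i)
      + P.mulL c' (∑ i, x (Sum.inr i) • P.basA i)) := by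
  rw [vecMul_rows P P.crdb.toLinearMap
    (Sum.elim (fun i => P.mulL c (P.basA i)) (fun i => P.mulL c' (P.basA i)))]
  · simp [Fintype.sum_sum_type]
  · rintro (i | i)
    · exact P.mat_inl c c' i
    · exact P.mat_inr c c' i

theorem mulVec_e2 (c c' : Fin (RR.ell P.E) → Qb) (v : Place Qb F) :
    Matrix.mulVec (P.mat c c') (P.e2 v) = Sum.elim (ev P.E v (lc P.E c) • P.e1 v)
      (ev P.E v (lc P.E c') • P.e1 v) := by
  have h : ∀ (d : Fin (RR.ell P.E) → Qb) (i : Fin P.n),
      ∑ r, P.crdb (P.mulL d (P.basA i)) r * P.e2 v r = ev P.E v (lc P.E d) * P.e1 v i := by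
    intro d i
    rw [P.sum_crdb, coe_mulL]
    exact ev_mul (bd_of_mem (lc_mem _ d)) (bd_of_mem (P.basA i).2)
  funext r
  rcases r with i | i
  · show ∑ k, P.mat c c' (Sum.inl i) k * P.e2 v k = _
    rw [P.mat_inl, h]
    rfl
  · show ∑ k, P.mat c c' (Sum.inr i) k * P.e2 v k = _
    rw [P.mat_inr, h]
    rfl

theorem det_eq_zero_of_common {c c' : Fin (RR.ell P.E) → Qb} {v : Place Qb F}
    (h : ev P.E v (lc P.E c) = 0) (h' : ev P.E v (lc P.E c') = 0) : (P.mat c c').det = 0 := by
  refine Matrix.exists_mulVec_eq_zero_iff.mp ⟨P.e2 v, P.e2_ne v, ?_⟩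
  rw [P.mulVec_e2, h, h', zero_smul]
  simp

theorem exists_ev_zero {f : F} (hf : f ∈ riemannRochSpace P.E) : ∃ v, ev P.E v f = 0 := by
  rcases eq_or_ne f 0 with rfl | hf0
  · exact ⟨P.O, by
      have h := ev_smul (E := P.E) (v := P.O) (0 : Qb) (f := (0 : F)) RR.Bd.zero
      rwa [zero_smul, zero_mul] at h⟩
  obtain ⟨e, he⟩ := exists_isZeros hf hf0 P.degree_E
  exact ⟨e ⟨0, by have := P.hn; omega⟩, (he.ev_eq_zero_iff _).mpr ⟨_, rfl⟩⟩

/-- a relation between two sections is trivial if their common zeros are simple zeros of the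
second one and zeros of the multiplier of the first one -/
theorem eq_zero_of_relation' {s s' p q : F} (hs : s ∈ riemannRochSpace P.E)
    (hs' : s' ∈ riemannRochSpace P.E) {v : Place Qb F}
    (hno : ∀ u, ev P.E u s = 0 → ev P.E u s' = 0 →
      u = v ∧ ev (P.E - Finsupp.single v 1) v s' ≠ 0)
    (hp : p ∈ riemannRochSpace P.a) (hq : q ∈ riemannRochSpace P.a) (hpv : ev P.a v p = 0)
    (h : s * p + s' * q = 0) :
    p = 0 ∧ q = 0 := by
  have key : ∀ {t : F}, t ∈ riemannRochSpace P.E → ∀ u, ev P.E u t ≠ 0 →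
      t ≠ 0 ∧ u.ord t = -P.E u := fun {t} ht u hu => by
    rw [Ne, ev_eq_zero_iff (bd_of_mem ht), RR.not_bd_iff] at hu
    refine ⟨hu.1, ?_⟩
    have := (RR.bd_iff_ord hu.1).mp (bd_of_mem (v := u) ht)
    omega
  have key2 : ev P.E v s' = 0 → ev (P.E - Finsupp.single v 1) v s' ≠ 0 →
      s' ≠ 0 ∧ v.ord s' = -P.E v + 1 := fun h0 h1 => by
    have hm := (ev_eq_zero_iff_mem hs').mp h0
    rw [Ne, ev_eq_zero_iff (bd_of_mem hm), RR.not_bd_iff] at h1
    have := (RR.bd_iff_ord h1.1).mp (bd_of_mem (v := v) hm)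
    simp only [Finsupp.sub_apply, Finsupp.single_eq_same] at this h1
    exact ⟨h1.1, by omega⟩
  obtain ⟨v₀, hv₀⟩ := P.exists_ev_zero hs
  have hs'0 : s' ≠ 0 := by
    by_cases h0 : ev P.E v₀ s' = 0
    · obtain ⟨rfl, h1⟩ := hno v₀ hv₀ h0
      exact (key2 h0 h1).1
    · exact (key hs' v₀ h0).1
  have hr : p / s' ∈ riemannRochSpace P.A := AJ.mem_rrSpace.mpr fun u => by
    rw [RR.bd_div_iff hs'0]
    by_cases h0 : ev P.E u s' = 0
    · by_cases h1 : ev P.E u s = 0
      · obtain ⟨rfl, h2⟩ := hno u h1 h0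
        rw [(key2 h0 h2).2]
        exact (RR.Bd.mono ((ev_eq_zero_iff (bd_of_mem hp)).mp hpv)
          (by rw [Par.a, Finsupp.add_apply]; omega))
      · obtain ⟨hs0, ho⟩ := key hs u h1
        have e : p / s' = (-q) / s := by
          rw [div_eq_div_iff hs'0 hs0]
          linear_combination h
        rw [← RR.bd_div_iff hs'0, e, RR.bd_div_iff hs0, ho, sub_neg_eq_add, ← Finsupp.add_apply]
        exact (bd_of_mem (v := u) hq).neg
    · rw [(key hs' u h0).2, sub_neg_eq_add, ← Finsupp.add_apply]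
      exact bd_of_mem (v := u) hp
  have hp0 : p = 0 := by
    have := P.eq_zero_of_mem_A hr
    rwa [div_eq_zero_iff, or_iff_left hs'0] at this
  refine ⟨hp0, ?_⟩
  rw [hp0, mul_zero, zero_add, mul_eq_zero, or_iff_right hs'0] at h
  exact h

/-- a relation between two sections without common zero is trivial -/
theorem eq_zero_of_relation {s s' p q : F} (hs : s ∈ riemannRochSpace P.E)
    (hs' : s' ∈ riemannRochSpace P.E) (hno : ∀ v, ev P.E v s = 0 → ev P.E v s' ≠ 0)
    (hp : p ∈ riemannRochSpace P.a) (hq : q ∈ riemannRochSpace P.a) (h : s * p + s' * q = 0) :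
    p = 0 ∧ q = 0 := by
  by_cases hs'0 : s' = 0
  · exfalso
    obtain ⟨v₀, hv₀⟩ := P.exists_ev_zero hs
    exact hno v₀ hv₀ (by
      subst hs'0
      have h' := ev_smul (E := P.E) (v := v₀) (0 : Qb) (f := (0 : F)) RR.Bd.zero
      rwa [zero_smul, zero_mul] at h')
  have key : ∀ v, ev P.E v s' ≠ 0 → v.ord s' = -P.E v := fun v hv => by
    rw [Ne, ev_eq_zero_iff (bd_of_mem hs'), RR.not_bd_iff] at hv
    have := (RR.bd_iff_ord hv.1).mp (bd_of_mem (v := v) hs')
    omega
  have hr : ∀ v, ev P.E v s' = 0 → ev P.E v s ≠ 0 := fun v h0 h1 => hno v h1 h0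
  obtain ⟨v₁, hv₁⟩ := P.exists_ev_zero hs'
  have hpv : ev P.a v₁ p = 0 := by
    by_contra hne
    have hzero := hr v₁ hv₁
    have := congrArg (ev (P.E + P.a) v₁) h
    rw [ev_add (RR.Bd.mul (bd_of_mem hs) (bd_of_mem hp)) (RR.Bd.mul (bd_of_mem hs') (bd_of_mem hq)),
      ev_mul (bd_of_mem hs) (bd_of_mem hp), ev_mul (bd_of_mem hs') (bd_of_mem hq), hv₁, zero_mul,
      add_zero] at this
    have h' := ev_smul (E := P.E + P.a) (v := v₁) (0 : Qb) (f := (0 : F)) RR.Bd.zero
    rw [zero_smul, zero_mul] at h'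
    rw [h', mul_eq_zero, or_iff_right hzero] at this
    exact hne this
  exact P.eq_zero_of_relation' hs hs' (v := v₁) (fun u h1 h2 => absurd h1 (hr u h2)) hp hq hpv h

theorem det_ne_zero {c c' : Fin (RR.ell P.E) → Qb}
    (hno : ∀ v, ev P.E v (lc P.E c) = 0 → ev P.E v (lc P.E c') ≠ 0) : (P.mat c c').det ≠ 0 := by
  intro h
  obtain ⟨x, hx0, hx⟩ := Matrix.exists_vecMul_eq_zero_iff.mpr h
  rw [P.vecMul_mat, LinearEquiv.map_eq_zero_iff] at hx
  have h' := congrArg Subtype.val hx
  rw [Submodule.coe_add, coe_mulL, coe_mulL] at h'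
  obtain ⟨hp, hq⟩ := P.eq_zero_of_relation (lc_mem _ c) (lc_mem _ c') hno
    (SetLike.coe_mem _) (SetLike.coe_mem _) h'
  have e1 := Fintype.linearIndependent_iff.mp P.basA.linearIndependent (fun i => x (Sum.inl i))
    (Subtype.ext hp)
  have e2 := Fintype.linearIndependent_iff.mp P.basA.linearIndependent (fun i => x (Sum.inr i))
    (Subtype.ext hq)
  exact hx0 (funext fun r => by rcases r with i | i <;> simp [e1, e2])

/-! ### the flag cut out by the zeros -/

variable {c : Fin (RR.ell P.E) → Qb} {e : Fin P.n → Place Qb F}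

/-- `a` minus the first `k` zeros -/
def flag (e : Fin P.n → Place Qb F) (k : ℕ) : Divisor Qb F :=
  P.a - ∑ i ∈ Finset.univ.filter (fun i : Fin P.n => (i : ℕ) < k), Finsupp.single (e i) 1

theorem flag_succ (e : Fin P.n → Place Qb F) (k : Fin P.n) :
    P.flag e (k + 1) = P.flag e k - Finsupp.single (e k) 1 := by
  classical
  rw [flag, flag, show Finset.univ.filter (fun i : Fin P.n => (i : ℕ) < k + 1) =
      insert k (Finset.univ.filter fun i : Fin P.n => (i : ℕ) < k) by
    ext i
    simp only [Finset.mem_filter, Finset.mem_univ, true_and, Finset.mem_insert, Fin.ext_iff]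
    omega, Finset.sum_insert (by simp)]
  abel

theorem flag_le (e : Fin P.n → Place Qb F) {k m : ℕ} (h : k ≤ m) (u : Place Qb F) :
    P.flag e m u ≤ P.flag e k u := by
  classical
  rw [flag, flag, Finsupp.sub_apply, Finsupp.sub_apply, Finsupp.finsetSum_apply,
    Finsupp.finsetSum_apply]
  refine sub_le_sub_left (Finset.sum_le_sum_of_subset_of_nonneg (fun i hi => ?_) fun i _ _ => ?_) _
  · rw [Finset.mem_filter] at hi ⊢
    exact ⟨hi.1, lt_of_lt_of_le hi.2 h⟩
  · rw [Finsupp.single_apply]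
    split_ifs <;> norm_num

theorem flag_zero (e : Fin P.n → Place Qb F) : P.flag e 0 = P.a := by simp [flag]

theorem flag_end (he : IsZeros P.E (lc P.E c) e) (u : Place Qb F) :
    P.flag e P.n u = P.A u - u.ord (lc P.E c) := by
  rw [flag, Finset.filter_true_of_mem (fun i _ => i.2),
    show ∑ i, Finsupp.single (e i) (1 : ℤ) = AJ.sumPts e from rfl, he.sum_eq, Finsupp.sub_apply,
    zdiv_apply he.ne, a, Finsupp.add_apply]
  ring

theorem ell_flag_le (he : IsZeros P.E (lc P.E c) e) {k : ℕ} (hk : k ≤ P.n) :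
    RR.ell (P.flag e k) ≤ P.n - k := by
  induction hk using Nat.decreasingInduction with
  | self =>
    rw [Nat.sub_self, Nat.le_zero, AJ.ell_eq_zero_iff, eq_bot_iff]
    intro f hf
    rw [Submodule.mem_bot]
    have h : f / lc P.E c ∈ riemannRochSpace P.A := AJ.mem_rrSpace.mpr fun u => by
      rw [RR.bd_div_iff he.ne, ← P.flag_end he u]
      exact bd_of_mem hf
    have := P.eq_zero_of_mem_A h
    rwa [div_eq_zero_iff, or_iff_left he.ne] at this
  | of_succ k hk ih =>
    have h1 : RR.ell (P.flag e k) ≤ RR.ell (P.flag e (k + 1)) + 1 := by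
      have hr := LinearMap.finrank_range_add_finrank_ker (evL (P.flag e k) (e ⟨k, hk⟩))
      have hle : Module.finrank Qb (LinearMap.range (evL (P.flag e k) (e ⟨k, hk⟩))) ≤ 1 :=
        le_trans (Submodule.finrank_le _) (by rw [Module.finrank_self])
      have hker : Module.finrank Qb (LinearMap.ker (evL (P.flag e k) (e ⟨k, hk⟩))) ≤
          RR.ell (P.flag e (k + 1)) := by
        rw [show k + 1 = ((⟨k, hk⟩ : Fin P.n) : ℕ) + 1 from rfl, P.flag_succ e ⟨k, hk⟩]
        refine LinearMap.finrank_le_finrank_of_injective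
          (f := LinearMap.codRestrict _ ((riemannRochSpace (P.flag e k)).subtype ∘ₗ
            (LinearMap.ker (evL (P.flag e k) (e ⟨k, hk⟩))).subtype)
            fun f => (ev_eq_zero_iff_mem f.1.2).mp (LinearMap.mem_ker.mp f.2)) ?_
        intro f f' h
        exact Subtype.ext (Subtype.ext (congrArg Subtype.val h :))
      simp only [RR.ell] at *
      omega
    omega

theorem exists_flag_elt (he : IsZeros P.E (lc P.E c) e) (k : Fin P.n) :
    ∃ q, q ∈ riemannRochSpace (P.flag e k) ∧ ev (P.flag e k) (e k) q ≠ 0 := by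
  by_contra h
  push Not at h
  have hle := P.ell_flag_le he (k := k + 1) k.2
  have heq : riemannRochSpace (P.flag e (k + 1)) = riemannRochSpace (P.flag e k) := by
    rw [P.flag_succ]
    exact le_antisymm (rr_sub_single_le _ _) fun f hf => (ev_eq_zero_iff_mem hf).mp (h f hf)
  have hge := AJ.ell_ge (P.flag e k)
  have hdeg : Divisor.degree (P.flag e k) = (genusFF Qb F : ℤ) - 1 + P.n - (k : ℕ) := by
    rw [flag, map_sub, map_sum, P.degree_a]
    simp only [degree_single_one, Finset.sum_const, nsmul_eq_mul, mul_one]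
    rw [show (Finset.univ.filter fun i : Fin P.n => (i : ℕ) < k) = Finset.Iio k by
      ext i; simp, Fin.card_Iio]
  rw [RR.ell, heq] at hle
  rw [RR.ell, hdeg] at hge
  omega

/-- the flag elements -/
theorem exists_decomp (he : IsZeros P.E (lc P.E c) e) (h : Fin P.n → F)
    (hh : ∀ l : Fin P.n, h l ∈ riemannRochSpace (P.E + P.flag e l))
    (hh' : ∀ l : Fin P.n, ev (P.E + P.flag e l) (e l) (h l) ≠ 0) {k : ℕ} (hk : k ≤ P.n) :
    ∀ f ∈ riemannRochSpace (P.E + P.flag e k),
    ∃ (p : riemannRochSpace P.a) (x : Fin P.n → Qb), f = lc P.E c * p + ∑ l, x l • h l ∧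
      (∀ l : Fin P.n, (l : ℕ) < k → x l = 0) ∧
      ∀ l : Fin P.n, (l : ℕ) = k →
        x l = ev (P.E + P.flag e k) (e l) f / ev (P.E + P.flag e k) (e l) (h l) := by
  induction hk using Nat.decreasingInduction with
  | self =>
    intro f hf
    refine ⟨⟨f / lc P.E c, AJ.mem_rrSpace.mpr fun u => ?_⟩, 0, ?_, fun _ _ => rfl,
      fun l hl => absurd hl (by have := l.2; omega)⟩
    · have hb := bd_of_mem (v := u) hf
      rw [Finsupp.add_apply, P.flag_end he u] at hb
      rw [RR.bd_div_iff he.ne, a, Finsupp.add_apply]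
      exact hb.mono (by omega)
    · simp [mul_div_cancel₀ _ he.ne]
  | of_succ k hk ih =>
    intro f hf
    obtain ⟨kk, rfl⟩ : ∃ kk : Fin P.n, (kk : ℕ) = k := ⟨⟨k, hk⟩, rfl⟩
    set t := ev (P.E + P.flag e kk) (e kk) f / ev (P.E + P.flag e kk) (e kk) (h kk) with ht
    have hf' : f - t • h kk ∈ riemannRochSpace (P.E + P.flag e (kk + 1)) := by
      rw [P.flag_succ, ← add_sub_assoc]
      refine (ev_eq_zero_iff_mem (Submodule.sub_mem _ hf (Submodule.smul_mem _ _ (hh kk)))).mp ?_
      rw [sub_eq_add_neg, ← neg_smul, ev_add (bd_of_mem hf) (RR.Bd.smul (bd_of_mem (hh kk)) _),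
        ev_smul _ (bd_of_mem (hh kk)), ht, neg_mul, div_mul_cancel₀ _ (hh' kk)]
      ring
    obtain ⟨p, x, hx, hx0, -⟩ := ih _ hf'
    have hxk : x kk = 0 := hx0 kk (Nat.lt_succ_self _)
    refine ⟨p, Function.update x kk t, ?_, fun l hl => ?_, fun l hl => ?_⟩
    · rw [sub_eq_iff_eq_add] at hx
      rw [hx, add_assoc, ← Finset.sum_erase_add _ _ (Finset.mem_univ kk),
        ← Finset.sum_erase_add _ (fun l => Function.update x kk t l • h l) (Finset.mem_univ kk),
        hxk, zero_smul, add_zero, Function.update_self]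
      congr 2
      exact Finset.sum_congr rfl fun l hl => by
        rw [Function.update_of_ne (Finset.ne_of_mem_erase hl)]
    · rw [Function.update_of_ne (fun e' => by omega)]
      exact hx0 l (by omega)
    · obtain rfl := Fin.ext hl
      rw [Function.update_self]

/-- factorisation of the resultant over the zeros of the first section -/
theorem exists_factor (he : IsZeros P.E (lc P.E c) e) :
    ∃ κ : Qb, κ ≠ 0 ∧ ∀ c', (P.mat c c').det = κ * ∏ k, ∑ j, c' j * P.e (e k) j := by
  classical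
  choose q hq hq' using P.exists_flag_elt he
  choose u hu hu' using fun k => exists_ev_ne (E := P.E)
    (by have := P.two_g_le; omega) (e k)
  have hhev : ∀ l : Fin P.n, ev (P.E + P.flag e l) (e l) (u l * q l) =
      ev P.E (e l) (u l) * ev (P.flag e l) (e l) (q l) := fun l =>
    ev_mul (bd_of_mem (hu l)) (bd_of_mem (hq l))
  have hh' : ∀ l : Fin P.n, ev (P.E + P.flag e l) (e l) (u l * q l) ≠ 0 := fun l => by
    rw [hhev]; exact mul_ne_zero (hu' l) (hq' l)
  have hqa : ∀ l : Fin P.n, q l ∈ riemannRochSpace P.a := fun l => by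
    rw [← P.flag_zero e]
    exact rr_le (P.flag_le e (Nat.zero_le _)) (hq l)
  have hhb : ∀ l, u l * q l ∈ riemannRochSpace P.b := fun l => mul_mem_rr (hu l) (hqa l)
  -- the matrices
  let Q : Matrix (Fin P.n) (Fin P.n) Qb := Matrix.of fun l => P.basA.equivFun ⟨q l, hqa l⟩
  let Hr : P.RI → riemannRochSpace P.b :=
    Sum.elim (fun i => P.mulL c (P.basA i)) (fun l => ⟨u l * q l, hhb l⟩)
  let H : Matrix P.RI P.RI Qb := Matrix.of fun r => P.crdb (Hr r)
  have hQ : Q.det ≠ 0 := by
    intro h0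
    obtain ⟨x, hx0, hx⟩ := Matrix.exists_vecMul_eq_zero_iff.mpr h0
    have hsum : ∑ l, x l • q l = 0 := by
      have h1 : P.basA.equivFun (∑ l, x l • (⟨q l, hqa l⟩ : riemannRochSpace P.a)) = 0 := by
        rw [← hx, map_sum]
        funext i
        rw [Finset.sum_apply]
        refine Finset.sum_congr rfl fun l _ => ?_
        rw [map_smul, Pi.smul_apply, smul_eq_mul]
        rfl
      rw [LinearEquiv.map_eq_zero_iff] at h1
      simpa using congrArg Subtype.val h1
    obtain ⟨l₀, hl₀, hmin⟩ := (Finset.univ.filter fun l => x l ≠ 0).exists_min_image id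
      (by
        obtain ⟨l, hl⟩ := Function.ne_iff.mp hx0
        exact ⟨l, by simpa using hl⟩)
    rw [Finset.mem_filter] at hl₀
    refine hq' l₀ ?_
    rw [ev_eq_zero_iff_mem (hq l₀)]
    have hrest : ∑ l ∈ Finset.univ.erase l₀, x l • q l ∈
        riemannRochSpace (P.flag e l₀ - Finsupp.single (e l₀) 1) := by
      refine Submodule.sum_mem _ fun l hl => ?_
      by_cases hxl : x l = 0
      · rw [hxl, zero_smul]; exact zero_mem _
      refine Submodule.smul_mem _ _ ?_
      rw [← P.flag_succ]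
      refine rr_le (P.flag_le e ?_) (hq l)
      have h1 : l₀ ≤ l := hmin l (by simpa using hxl)
      have h2 := Finset.ne_of_mem_erase hl
      have : (l₀ : ℕ) ≠ l := fun h => h2 (Fin.ext h.symm)
      have : (l₀ : ℕ) ≤ l := h1
      omega
    rw [← Finset.sum_erase_add _ _ (Finset.mem_univ l₀), add_eq_zero_iff_eq_neg'] at hsum
    have e2 : q l₀ = (x l₀)⁻¹ • -∑ l ∈ Finset.univ.erase l₀, x l • q l := by
      rw [← hsum, smul_smul, inv_mul_cancel₀ hl₀.2, one_smul]
    rw [e2]
    exact Submodule.smul_mem _ _ (Submodule.neg_mem _ hrest)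
  have main : ∀ c', Q.det * (P.mat c c').det =
      (∏ l, (∑ j, c' j * P.e (e l) j) / ev P.E (e l) (u l)) * H.det := by
    intro c'
    have hdec : ∀ l : Fin P.n, ∃ (p : riemannRochSpace P.a) (x : Fin P.n → Qb),
        lc P.E c' * q l = lc P.E c * p + ∑ m, x m • (u m * q m) ∧
        (∀ m, m < l → x m = 0) ∧
        x l = (∑ j, c' j * P.e (e l) j) / ev P.E (e l) (u l) := by
      intro l
      obtain ⟨p, x, hx, hx0, hxl⟩ := P.exists_decomp he (fun m => u m * q m)
        (fun m => mul_mem_rr (hu m) (hq m)) hh' l.2.le _ (mul_mem_rr (lc_mem _ c') (hq l))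
      refine ⟨p, x, hx, fun m hm => hx0 m hm, ?_⟩
      rw [hxl l rfl, hhev, ev_mul (bd_of_mem (lc_mem _ c')) (bd_of_mem (hq l)), ev_lc,
        mul_div_mul_right _ _ (hq' l)]
    choose p x hx hx0 hxl using hdec
    let X : Matrix (Fin P.n) (Fin P.n) Qb := Matrix.of fun l => P.basA.equivFun (p l)
    let Y : Matrix (Fin P.n) (Fin P.n) Qb := Matrix.of x
    have key : Matrix.fromBlocks 1 0 0 Q * P.mat c c' = Matrix.fromBlocks 1 0 X Y * H := by
      funext r
      rw [Matrix.mul_apply_eq_vecMul, Matrix.mul_apply_eq_vecMul, P.vecMul_mat,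
        vecMul_rows P P.crdb.toLinearMap Hr H fun _ => rfl]
      show P.crdb _ = P.crdb _
      congr 1
      rcases r with i | l
      · simp [Hr, Matrix.fromBlocks, Matrix.one_apply, Fintype.sum_sum_type]
      · refine Subtype.ext ?_
        have hs1 : (∑ i, P.basA.equivFun (p l) i • P.basA i) = p l := P.basA.sum_equivFun _
        have hs2 : (∑ i, P.basA.equivFun ⟨q l, hqa l⟩ i • P.basA i) = ⟨q l, hqa l⟩ :=
          P.basA.sum_equivFun _
        simp only [Fintype.sum_sum_type, Matrix.fromBlocks_apply₂₁, Matrix.fromBlocks_apply₂₂,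
          Hr, Sum.elim_inl, Sum.elim_inr, Matrix.zero_apply, zero_smul, Finset.sum_const_zero,
          map_zero, zero_add, X, Y, Q, Matrix.of_apply]
        simp only [← map_smul, ← map_sum, hs1, hs2]
        rw [coe_mulL]
        refine (hx l).trans ?_
        simp [coe_mulL]
    have hd := congrArg Matrix.det key
    rw [Matrix.det_mul, Matrix.det_mul, Matrix.det_fromBlocks_zero₁₂,
      Matrix.det_fromBlocks_zero₁₂, Matrix.det_one, one_mul, one_mul,
      Matrix.det_of_upperTriangular (M := Y) (fun l m hml => hx0 l m hml)] at hd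
    rw [hd]
    congr 1
    exact Finset.prod_congr rfl fun l _ => hxl l
  refine ⟨H.det / (Q.det * ∏ l, ev P.E (e l) (u l)), ?_, fun c' => ?_⟩
  · obtain ⟨c₀, hc₀⟩ := exists_forall_dual_ne (Finset.univ : Finset (Fin P.n))
      (fun l => evL P.E (e l) ∘ₗ (bas P.E).equivFun.symm.toLinearMap) fun l _ h => by
        obtain ⟨d, hd⟩ := exists_lc (hu l)
        exact hu' l (hd ▸ DFunLike.congr_fun h d)
    have hne : (P.mat c c₀).det ≠ 0 := P.det_ne_zero fun v hv => by
      obtain ⟨l, rfl⟩ := (he.ev_eq_zero_iff v).mp hv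
      exact hc₀ l (Finset.mem_univ _)
    have := main c₀
    exact div_ne_zero (right_ne_zero_of_mul (this ▸ mul_ne_zero hQ hne))
      (mul_ne_zero hQ (Finset.prod_ne_zero_iff.mpr fun l _ => hu' l))
  · have := main c'
    rw [Finset.prod_div_distrib] at this
    have hu0 : ∏ l, ev P.E (e l) (u l) ≠ 0 := Finset.prod_ne_zero_iff.mpr fun l _ => hu' l
    field_simp at this ⊢
    linear_combination this

end Par

end FLTAgent.MW
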