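import Fermat.Agent.MW.Closed
import Fermat.Agent.MW.Height

/-!
The projective embedding by `L(nO)`, the distance to the diagonal and its tangent convention.
-/

set_option autoImplicit false

noncomputable section

open AlgebraicCurve
open FLTAgent.RR (Bd)

namespace FLTAgent.MW

/-- the wedge of two vectors -/
def wedge {ι : Type*} (a b : ι → Qb) : ι × ι → Qb := fun p => a p.1 * b p.2 - a p.2 * b p.1

theorem wedge_comm {ι : Type*} (a b : ι → Qb) : wedge b a = (-1 : Qb) • wedge a b := by
  funext p
  simp [wedge]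
  ring

variable (F : Type) [Field F] [Algebra Qb F] [RR.FnField Qb F]

/-- parameters of the embedding -/
structure Par where
  /-- the base point -/
  O : Place Qb F
  /-- the degree -/
  n : ℕ
  hn : 6 * genusFF Qb F + 2 ≤ n

variable {F}

namespace Par

variable (P : Par F)

/-- the divisor of the embedding -/
def E : Divisor Qb F := Finsupp.single P.O (P.n : ℤ)

theorem degree_E : Divisor.degree P.E = P.n := by rw [E, degree_single_int]

theorem two_g_le : 2 * (genusFF Qb F : ℤ) + 2 ≤ Divisor.degree P.E := by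
  have := P.hn
  rw [P.degree_E]
  omega

/-- the embedding vector -/
abbrev e (v : Place Qb F) : Fin (RR.ell P.E) → Qb := vec P.E v

theorem e_ne (v : Place Qb F) : P.e v ≠ 0 := vec_ne_zero (by have := P.two_g_le; omega) v

/-- height in the embedding -/
def hP (v : Place Qb F) : ℝ := ht (P.e v)

theorem hP_nonneg (v : Place Qb F) : 0 ≤ P.hP v := ht_nonneg _

theorem hasH_e (v : Place Qb F) : HasH (fun w => nrm w (P.e v)) (P.hP v) := hasH_nrm (P.e_ne v)

/-- the tangent vector -/
def tang (v : Place Qb F) (i : Fin (RR.ell P.E)) : Qb :=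
  AJ.val v ((unif v ^ P.E v * (bas P.E i : F) - algebraMap Qb F (P.e v i)) / unif v)

theorem bd_tang (v : Place Qb F) (i : Fin (RR.ell P.E)) :
    Bd v ((unif v ^ P.E v * (bas P.E i : F) - algebraMap Qb F (P.e v i)) / unif v) 0 := by
  rw [RR.bd_div_iff (unif_ne v), ord_unif]
  exact (AJ.val_spec (bd_unif_mul.mpr (by simpa using bd_of_mem (v := v) (bas P.E i).2))).mono (by norm_num)

/-- tangent functionals on sections vanishing at `v` -/
theorem sum_mul_tang (v : Place Qb F) (c : Fin (RR.ell P.E) → Qb)
    (hc : ev P.E v (lc P.E c) = 0) :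
    ∑ i, c i * P.tang v i = ev (P.E - Finsupp.single v 1) v (lc P.E c) := by
  have hb := fun i => (RR.Bd.smul (P.bd_tang v i) (c i))
  have hsum : ∀ s : Finset (Fin (RR.ell P.E)),
      AJ.val v (∑ i ∈ s, c i • ((unif v ^ P.E v * (bas P.E i : F) -
        algebraMap Qb F (P.e v i)) / unif v)) = ∑ i ∈ s, c i * P.tang v i := by
    classical
    intro s
    induction s using Finset.induction with
    | empty => simpa using AJ.val_algebraMap v (0 : Qb)
    | insert a s ha ih =>
      rw [Finset.sum_insert ha, Finset.sum_insert ha,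
        AJ.val_add (hb a) (RR.Bd.sum _ _ fun i _ => hb i), ih, Algebra.smul_def,
        AJ.val_mul (RR.Bd.of_algebraMap _) (P.bd_tang v a), AJ.val_algebraMap]
      rfl
  rw [← hsum, ev]
  congr 1
  rw [Finsupp.sub_apply, Finsupp.single_eq_same, zpow_sub₀ (unif_ne v), zpow_one]
  have h0 : ∑ i, c i • algebraMap Qb F (P.e v i) = 0 := by
    simp_rw [Algebra.smul_def, ← map_mul, ← map_sum]
    rw [show (∑ i, c i * P.e v i) = 0 from (ev_lc P.E v c).symm.trans hc, map_zero]
  have hl : lc P.E c = ∑ i, c i • (bas P.E i : F) := by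
    show ((bas P.E).equivFun.symm c : F) = _
    rw [Module.Basis.equivFun_symm_apply]
    push_cast
    rfl
  rw [hl, Finset.mul_sum]
  simp only [sub_div, smul_sub, Finset.sum_sub_distrib]
  rw [show (∑ i, c i • (algebraMap Qb F (P.e v i) / unif v)) =
    (∑ i, c i • algebraMap Qb F (P.e v i)) / unif v by
      rw [Finset.sum_div]; simp_rw [Algebra.smul_def, mul_div_assoc], h0, zero_div, sub_zero]
  refine Finset.sum_congr rfl fun i _ => ?_
  rw [Algebra.smul_def, Algebra.smul_def]
  have := unif_ne v
  field_simp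

open scoped Classical in
/-- the Plücker vector of the secant or tangent line -/
def del (v u : Place Qb F) : Fin (RR.ell P.E) × Fin (RR.ell P.E) → Qb :=
  if v = u then wedge (P.e v) (P.tang v) else wedge (P.e v) (P.e u)

theorem del_self (v : Place Qb F) : P.del v v = wedge (P.e v) (P.tang v) := by
  rw [del, if_pos rfl]

theorem del_of_ne {v u : Place Qb F} (h : v ≠ u) : P.del v u = wedge (P.e v) (P.e u) := by
  rw [del, if_neg h]

theorem del_comm {v u : Place Qb F} (h : v ≠ u) : P.del u v = (-1 : Qb) • P.del v u := by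
  rw [P.del_of_ne h, P.del_of_ne h.symm, wedge_comm]

/-- a relation `c ⊥ e v` transports along `wedge` -/
theorem dot_eq_zero_of_wedge {ι : Type*} [Fintype ι] {a b : ι → Qb} (ha : a ≠ 0)
    (h : wedge a b = 0) {c : ι → Qb} (hc : ∑ i, c i * a i = 0) : ∑ i, c i * b i = 0 := by
  obtain ⟨j, hj⟩ := Function.ne_iff.mp ha
  have hb : ∀ i, b i = b j / a j * a i := fun i => by
    have := congrFun h (j, i)
    simp only [wedge, Pi.zero_apply, sub_eq_zero] at this
    rw [Pi.zero_apply] at hj
    field_simp
    linear_combination this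
  calc ∑ i, c i * b i = b j / a j * ∑ i, c i * a i := by
        rw [Finset.mul_sum]
        exact Finset.sum_congr rfl fun i _ => by rw [hb i]; ring
    _ = 0 := by rw [hc, mul_zero]

theorem del_ne (v u : Place Qb F) : P.del v u ≠ 0 := by
  intro h
  by_cases hvu : v = u
  · subst hvu
    rw [P.del_self] at h
    obtain ⟨f, hf, hne⟩ := exists_ev_ne (E := P.E - Finsupp.single v 1) (v := v) (by
      rw [map_sub, degree_single_one]; have := P.two_g_le; omega)
    have hfE := rr_sub_single_le P.E v hf
    obtain ⟨c, rfl⟩ := exists_lc hfE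
    have h0 : ev P.E v (lc P.E c) = 0 := (ev_eq_zero_iff_mem hfE).mpr hf
    refine hne ?_
    rw [← P.sum_mul_tang v c h0]
    exact dot_eq_zero_of_wedge (P.e_ne v) h (by rw [← ev_lc, h0])
  · rw [P.del_of_ne hvu] at h
    obtain ⟨f, hf, hv, hu⟩ := exists_ev_separate (E := P.E)
      (by have := P.two_g_le; omega) (Ne.symm hvu)
    obtain ⟨c, rfl⟩ := exists_lc hf
    rw [ev_lc] at hv hu
    exact hu (dot_eq_zero_of_wedge (P.e_ne v) h hv)

/-- the height pairing of two places -/
def hd (v u : Place Qb F) : ℝ := P.hP v + P.hP u - ht (P.del v u)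

theorem hd_comm (v u : Place Qb F) : P.hd v u = P.hd u v := by
  by_cases h : v = u
  · rw [h]
  rw [hd, hd, P.del_comm h, ht_smul _ (by norm_num : (-1 : Qb) ≠ 0)]
  ring

/-- local distance -/
def dloc (w : Pl) (v u : Place Qb F) : ℝ :=
  nrm w (P.del v u) / (nrm w (P.e v) * nrm w (P.e u))

theorem dloc_nonneg (w : Pl) (v u : Place Qb F) : 0 ≤ P.dloc w v u :=
  div_nonneg (nrm_nonneg _ _) (mul_nonneg (nrm_nonneg _ _) (nrm_nonneg _ _))

theorem hasH_dloc (v u : Place Qb F) : HasH (fun w => P.dloc w v u) (-P.hd v u) := by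
  have h := (hasH_nrm (P.del_ne v u)).div ((P.hasH_e v).mul (P.hasH_e u))
  rw [hd, neg_sub]
  exact h

theorem dloc_comm (w : Pl) (v u : Place Qb F) : P.dloc w v u = P.dloc w u v := by
  by_cases h : v = u
  · rw [h]
  rw [dloc, dloc, P.del_comm h, nrm_smul, mul_comm (nrm w (P.e u))]
  simp

end Par

end FLTAgent.MW

namespace FLTAgent.MW

variable {F : Type} [Field F] [Algebra Qb F] [RR.FnField Qb F]

theorem cls_mem (O : Place Qb F) (D : Divisor Qb F) :
    D - Finsupp.single O (Divisor.degree D) ∈ Divisor.degZero (K := Qb) (F := F) :=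
  Divisor.mem_degZero.mpr (by rw [map_sub, degree_single_int, sub_self])

/-- the class of a divisor, normalised at the base point -/
def Par.cls (P : Par F) : Divisor Qb F →+ Pic0 Qb F where
  toFun D := Pic0.mk ⟨D - Finsupp.single P.O (Divisor.degree D), cls_mem P.O D⟩
  map_zero' := by
    rw [← Pic0.mk_zero]
    exact congrArg Pic0.mk (Subtype.ext (by simp))
  map_add' D E := by
    rw [← Pic0.mk_add]
    refine congrArg Pic0.mk (Subtype.ext ?_)
    show D + E - Finsupp.single P.O (Divisor.degree (D + E)) =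
      (D - Finsupp.single P.O (Divisor.degree D)) + (E - Finsupp.single P.O (Divisor.degree E))
    rw [map_add, Finsupp.single_add]
    abel

/-- the class of `v - O` -/
def Par.pt (P : Par F) (v : Place Qb F) : Pic0 Qb F := P.cls (Finsupp.single v 1)

/-- additive up to a bounded error -/
def QLin {G : Type*} [AddCommGroup G] (l : G → ℝ) : Prop :=
  ∃ C : ℝ, ∀ x y, |l (x + y) - l x - l y| ≤ C

end FLTAgent.MW
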