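import Mathlib.NumberTheory.NumberField.ClassNumber
import Mathlib.NumberTheory.NumberField.Units.DirichletTheorem
import Mathlib.GroupTheory.FiniteAbelian.Basic
import Mathlib.RingTheory.DedekindDomain.Ideal.Lemmas
import Mathlib.RingTheory.Valuation.LocalSubring

/-!
Square classes with even multiplicity outside a finite set of primes are finite.
-/

set_option autoImplicit false
set_option linter.style.haveILetI false

noncomputable section

open UniqueFactorizationMonoid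
open scoped NumberField nonZeroDivisors

namespace FLTAgent.MW

section Count

variable {R : Type*} [CommRing R] [IsDedekindDomain R]

/-- the multiplicity of `P` in the principal ideal of `x` -/
def cnt (P : Ideal R) (x : R) : ℕ := by
  classical exact (normalizedFactors (Ideal.span {x})).count P

theorem cnt_mul (P : Ideal R) {x y : R} (hx : x ≠ 0) (hy : y ≠ 0) :
    cnt P (x * y) = cnt P x + cnt P y := by
  classical
  unfold cnt
  rw [← Ideal.span_singleton_mul_span_singleton, normalizedFactors_mul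
    (by simpa [Ideal.span_singleton_eq_bot] using hx) (by simpa [Ideal.span_singleton_eq_bot] using hy),
    Multiset.count_add]

theorem cnt_pos_iff {P : Ideal R} (hP : P.IsPrime) {x : R} (hx : x ≠ 0) :
    0 < cnt P x ↔ x ∈ P := by
  classical
  unfold cnt
  rw [Multiset.count_pos, Ideal.mem_normalizedFactors_iff
    (by simpa [Ideal.span_singleton_eq_bot] using hx), Ideal.span_singleton_le_iff_mem]
  exact and_iff_right hP

theorem exists_cnt_eq_one {P : Ideal R} (hP : P.IsPrime) (hP0 : P ≠ ⊥) :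
    ∃ π J, π ≠ 0 ∧ π ∈ P ∧ cnt P π = 1 ∧ Ideal.span {π} = P * J ∧ ¬ J ≤ P := by
  classical
  have hlt : P ^ 2 < P := by
    conv_rhs => rw [← pow_one P]
    exact Ideal.pow_right_strictAnti P hP0 hP.ne_top one_lt_two
  obtain ⟨π, hπ, hπ2⟩ := SetLike.exists_of_lt hlt
  have hπ0 : π ≠ 0 := fun h => hπ2 (h ▸ zero_mem _)
  obtain ⟨J, hJ⟩ : P ∣ Ideal.span {π} :=
    Ideal.dvd_iff_le.mpr (by rwa [Ideal.span_singleton_le_iff_mem])
  have hJP : ¬ J ≤ P := fun hle => hπ2 (by
    rw [← Ideal.span_singleton_le_iff_mem, hJ, sq]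
    exact Ideal.mul_mono_right hle)
  have hJ0 : J ≠ ⊥ := fun h => hJP (h ▸ bot_le)
  refine ⟨π, J, hπ0, hπ, ?_, hJ, hJP⟩
  unfold cnt
  rw [hJ, normalizedFactors_mul hP0 hJ0, Multiset.count_add,
    normalizedFactors_irreducible (Ideal.prime_of_isPrime hP0 hP).irreducible, normalize_eq,
    Multiset.count_singleton_self, Multiset.count_eq_zero.mpr]
  exact fun h => hJP ((Ideal.mem_normalizedFactors_iff hJ0).mp h).2

/-- values of a valuation centred at `P` -/
theorem exists_value_eq_pow {Γ : Type*} [LinearOrderedCommGroupWithZero Γ] (v : R →*₀ Γ)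
    {P : Ideal R} (hP : P.IsPrime) (hP0 : P ≠ ⊥) (hin : ∀ x ∈ P, v x < 1)
    (hout : ∀ x, x ∉ P → v x = 1) :
    ∃ e : Γ, e < 1 ∧ ∀ x, x ≠ 0 → v x = e ^ cnt P x := by
  obtain ⟨π, J, hπ0, hπ, hπ1, hJ, hJP⟩ := exists_cnt_eq_one hP hP0
  refine ⟨v π, hin π hπ, ?_⟩
  suffices h : ∀ n, ∀ x, x ≠ 0 → cnt P x = n → v x = v π ^ n from fun x hx => h _ x hx rfl
  intro n
  induction n with
  | zero =>
    intro x hx h
    rw [pow_zero]
    exact hout x fun hm => by have := (cnt_pos_iff hP hx).mpr hm; omega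
  | succ n ih =>
    intro x hx h
    have hxP : x ∈ P := (cnt_pos_iff hP hx).mp (by omega)
    obtain ⟨c, hcJ, hcP⟩ := SetLike.not_le_iff_exists.mp hJP
    have hc0 : c ≠ 0 := fun e => hcP (e ▸ zero_mem _)
    have hmem : c * x ∈ Ideal.span {π} := by
      rw [hJ, mul_comm c x]
      exact Ideal.mul_mem_mul hxP hcJ
    obtain ⟨x', hx'⟩ := Ideal.mem_span_singleton.mp hmem
    have hx'0 : x' ≠ 0 := fun e => mul_ne_zero hc0 hx (by rw [hx', e, mul_zero])
    have hcc : cnt P c = 0 := by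
      by_contra hne
      exact hcP ((cnt_pos_iff hP hc0).mp (Nat.pos_of_ne_zero hne))
    have hcx := congrArg (cnt P) hx'
    rw [cnt_mul P hc0 hx, cnt_mul P hπ0 hx'0, hcc, hπ1, h] at hcx
    have hv := congrArg v hx'
    rw [map_mul, map_mul, hout c hcP, one_mul, ih x' hx'0 (by omega)] at hv
    rw [hv, pow_succ']

end Count

variable {k : Type*} [Field k] [NumberField k]

theorem exists_units_sq_reps :
    ∃ U : Finset (𝓞 k)ˣ, ∀ u : (𝓞 k)ˣ, ∃ u₀ ∈ U, ∃ w : (𝓞 k)ˣ, u = u₀ * w ^ 2 := by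
  classical
  let G := (𝓞 k)ˣ ⧸ (powMonoidHom 2 : (𝓞 k)ˣ →* (𝓞 k)ˣ).range
  haveI : Group.FG (𝓞 k)ˣ := Group.fg_iff_monoid_fg.mpr inferInstance
  haveI : Finite G := CommGroup.finite_of_fg_isMulTorsion (G := G) fun g => by
    obtain ⟨u, rfl⟩ := QuotientGroup.mk_surjective g
    refine isOfFinOrder_iff_pow_eq_one.mpr ⟨2, two_pos, ?_⟩
    rw [← QuotientGroup.mk_pow, QuotientGroup.eq_one_iff]
    exact ⟨u, rfl⟩
  haveI := Fintype.ofFinite G
  refine ⟨Finset.univ.image (fun g : G => g.out), fun u => ?_⟩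
  refine ⟨(QuotientGroup.mk u : G).out, Finset.mem_image_of_mem _ (Finset.mem_univ _), ?_⟩
  obtain ⟨w, hw⟩ := QuotientGroup.eq.mp ((QuotientGroup.mk u : G).out_eq')
  exact ⟨w, by rw [show w ^ 2 = _ from hw, mul_inv_cancel_left]⟩

/-- square classes of the integers with even multiplicity outside `S` -/
theorem exists_finite_sqclasses (S : Finset (Ideal (𝓞 k))) :
    ∃ T : Finset k, ∀ b : 𝓞 k, b ≠ 0 →
      (∀ P : Ideal (𝓞 k), P.IsPrime → P ≠ ⊥ → P ∉ S → Even (cnt P b)) →
      ∃ t ∈ T, ∃ c : k, (b : k) = t * c ^ 2 := by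
  classical
  let Good := {b : 𝓞 k // b ≠ 0 ∧
      ∀ P : Ideal (𝓞 k), P.IsPrime → P ≠ ⊥ → P ∉ S → Even (cnt P b)}
  have key : ∀ b : Good, ∃ (p : Finset (Ideal (𝓞 k))) (I : (Ideal (𝓞 k))⁰),
      p ∈ S.powerset ∧ Ideal.span {b.1} = (I : Ideal (𝓞 k)) ^ 2 * ∏ P ∈ p, P := by
    rintro ⟨b, hb, he⟩
    set m := normalizedFactors (Ideal.span {b}) with hm
    have hb' : Ideal.span {b} ≠ 0 := by simpa [Ideal.span_singleton_eq_bot] using hb
    have hmP : ∀ P ∈ m.toFinset, P.IsPrime ∧ P ≠ ⊥ := fun P hP => by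
      have h := prime_of_normalized_factor P (Multiset.mem_toFinset.mp hP)
      exact ⟨Ideal.isPrime_of_prime h, h.ne_zero⟩
    have hI : (∏ P ∈ m.toFinset, P ^ (m.count P / 2)) ∈ (Ideal (𝓞 k))⁰ :=
      mem_nonZeroDivisors_of_ne_zero (Finset.prod_ne_zero_iff.mpr fun P hP =>
        pow_ne_zero _ (hmP P hP).2)
    refine ⟨m.toFinset.filter (fun P => Odd (m.count P)), ⟨_, hI⟩, Finset.mem_powerset.mpr ?_, ?_⟩
    · intro P hP
      rw [Finset.mem_filter] at hP
      by_contra hS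
      exact Nat.not_even_iff_odd.mpr hP.2 (he P (hmP P hP.1).1 (hmP P hP.1).2 hS)
    · show Ideal.span {b} = (∏ P ∈ m.toFinset, P ^ (m.count P / 2)) ^ 2 *
        ∏ P ∈ m.toFinset.filter (fun P => Odd (m.count P)), P
      rw [← Finset.prod_pow, Finset.prod_filter, ← Finset.prod_mul_distrib,
        ← associated_iff_eq.mp (prod_normalizedFactors hb'), Finset.prod_multiset_count, ← hm]
      refine Finset.prod_congr rfl fun P _ => ?_
      rw [← pow_mul]
      split_ifs with h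
      · rw [← pow_succ]
        congr 1
        obtain ⟨j, hj⟩ := h
        omega
      · rw [mul_one]
        congr 1
        obtain ⟨j, hj⟩ := Nat.not_odd_iff_even.mp h
        omega
  choose p I hp hI using key
  let f : Good → Finset (Ideal (𝓞 k)) × ClassGroup (𝓞 k) :=
    fun b => (p b, ClassGroup.mk0 (I b))
  have hfin : (Set.range f).Finite :=
    ((Finset.finite_toSet S.powerset).prod Set.finite_univ).subset (by
      rintro _ ⟨b, rfl⟩
      exact ⟨hp b, Set.mem_univ _⟩)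
  obtain ⟨U, hU⟩ := exists_units_sq_reps (k := k)
  haveI := hfin.fintype
  refine ⟨((Finset.univ : Finset (Set.range f)) ×ˢ U).image
    (fun z => ((z.1.2.choose.1 : 𝓞 k) : k) * ((z.2 : 𝓞 k) : k)), fun b hb he => ?_⟩
  set g : Good := ⟨b, hb, he⟩
  set r : Good := (⟨f g, g, rfl⟩ : Set.range f).2.choose with hr
  have hfr : f r = f g := (⟨f g, g, rfl⟩ : Set.range f).2.choose_spec
  obtain ⟨hpp, hcl⟩ := Prod.ext_iff.mp hfr
  obtain ⟨x, y, hx, hy, hxy⟩ := ClassGroup.mk0_eq_mk0_iff.mp hcl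
  have hspan : Ideal.span {x ^ 2 * r.1} = Ideal.span {y ^ 2 * b} := by
    rw [← Ideal.span_singleton_mul_span_singleton, ← Ideal.span_singleton_mul_span_singleton,
      ← Ideal.span_singleton_pow, ← Ideal.span_singleton_pow, hI r,
      show Ideal.span {b} = _ from hI g, show p r = p g from hpp, ← mul_assoc, ← mul_assoc, ← mul_pow, ← mul_pow, hxy]
  obtain ⟨u, hu⟩ := Ideal.span_singleton_eq_span_singleton.mp hspan
  obtain ⟨u₀, hu₀, w, rfl⟩ := hU u
  refine ⟨((r.1 : 𝓞 k) : k) * ((u₀ : 𝓞 k) : k), Finset.mem_image.mpr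
    ⟨(⟨f g, g, rfl⟩, u₀), Finset.mem_product.mpr ⟨Finset.mem_univ _, hu₀⟩, rfl⟩,
    (x : k) * ((w : 𝓞 k) : k) / (y : k), ?_⟩
  have hy0 : (y : k) ≠ 0 := by exact_mod_cast hy
  have h' := congrArg (fun z : 𝓞 k => (z : k)) hu
  simp only [Units.val_mul, Units.val_pow_eq_pow_val, map_mul, map_pow] at h'
  field_simp
  linear_combination -h'

end FLTAgent.MW
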